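/-
S56 / FLAT / RED (architect helper15): the REDUCIBLE case of the flat bound.  DEFINITIONS.

Setting: `A` a valuation subring of `Qb` over the odd prime `p`, `I = Iner A`, `D` its decomposition
group, `ζ` a primitive `p`-th root of unity, `k` a finite field of characteristic `p`.

* `Std A p ζ`     : the standing hypotheses;
* `om p ζ σ`      : the cyclotomic character modulo `p`;
* `IsKum A ζ e α` : `α` is a Kummer generator of the cocycle `e : I → 𝔽_p(1)`: `σ α = ζ ^ e(σ) α`;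
* `Peu A p ζ e x` : `e` is "peu ramifié": it has a Kummer generator with `α ^ p = 1 + p t`, `t ∈ A`;
                    `x` is the residue class of `t`;
* `Lam p k`, `sc` : the `𝔽_p`-dual of `k` and the action of `k` on it;
* `PeuK`, `xi`    : the same for cocycles `z : I → k(1)`: `xi z : Lam p k → kb A`;
* `UT A p ζ s`    : `s|D` is upper triangular, `s|I = (ω, *; 0, 1)`;
* `Nrm A p ζ s c` : `c` is a normalised cocycle on `D`: values in `Fil⁰`, `c(I) ⊆ Fil¹`, peu ramifié;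
* `DCoc A s c`    : `c : GQ → M2 k` is, on `D`, a smooth trace zero cocycle;
* `Fl A s c`      : the `I`-module `(k[ε])²` attached to `(1 + ε c) s` is flat;
* `addCob s c m`  : `c + ∂m`;  `conjHom P s = P⁻¹ s P`.
Only definitions.
-/
import Fermat.Agent.S56.Flat.FC.Defs
import Fermat.Agent.S56.Flat.Irr.Defs

set_option autoImplicit false

namespace Fermat.Agent.S56.Flat.Red

open Fermat.Agent.S55
open Fermat.Agent.S53 (M2)
open Fermat.Agent.S56.Flat.Irr (kb rs)

/-- The standing hypotheses. -/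
structure Std (A : ValuationSubring Qb) (p : ℕ) (ζ : Qb) : Prop where
  odd : p ≠ 2
  lies : A.LiesOverPrime p
  prim : IsPrimitiveRoot ζ p

/-- The decomposition group. -/
noncomputable abbrev Dec (A : ValuationSubring Qb) : Subgroup GQ := A.decompositionSubgroup ℚ

/-- The cyclotomic character modulo `p`: `σ ζ = ζ ^ (om p ζ σ)`. -/
noncomputable def om (p : ℕ) (ζ : Qb) (σ : GQ) : ZMod p :=
  Classical.epsilon fun a : ZMod p => σ ζ = ζ ^ a.val

/-- `α` is a Kummer generator of `e`. -/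
def IsKum (A : ValuationSubring Qb) {p : ℕ} (ζ : Qb) (e : GQ → ZMod p) (α : Qb) : Prop :=
  α ≠ 0 ∧ ∀ σ ∈ Iner A, σ α = ζ ^ (e σ).val * α

/-- `e` has a Kummer generator `α` with `α ^ p = 1 + p t`, `t ∈ A`, `t ≡ x`. -/
def Peu (A : ValuationSubring Qb) (p : ℕ) (ζ : Qb) (e : GQ → ZMod p) (x : kb A) : Prop :=
  ∃ α t : Qb, IsKum A ζ e α ∧ t ∈ A ∧ α ^ p = 1 + (p : Qb) * t ∧ rs A t = x

section k

variable (p : ℕ) (k : Type) [Field k] [Algebra (ZMod p) k]

/-- The `𝔽_p`-dual of `k`. -/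
abbrev Lam : Type := k →ₗ[ZMod p] ZMod p

variable {p k}

/-- The action of `k` on its dual: `(sc x l) y = l (x y)`. -/
noncomputable def sc (x : k) (l : Lam p k) : Lam p k := l.comp (LinearMap.mulLeft (ZMod p) x)

@[simp] theorem sc_apply (x : k) (l : Lam p k) (y : k) : sc x l y = l (x * y) := rfl

/-- `z : I → k(1)` is peu ramifié. -/
def PeuK (A : ValuationSubring Qb) (p : ℕ) (ζ : Qb) {k : Type} [Field k] [Algebra (ZMod p) k]
    (z : GQ → k) : Prop :=
  ∀ l : Lam p k, ∃ x, Peu A p ζ (fun σ => l (z σ)) x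

/-- The residue invariant of a peu ramifié cocycle. -/
noncomputable def xi (A : ValuationSubring Qb) (p : ℕ) (ζ : Qb) {k : Type} [Field k]
    [Algebra (ZMod p) k] (z : GQ → k) (l : Lam p k) : kb A :=
  Classical.epsilon fun x => Peu A p ζ (fun σ => l (z σ)) x

/-- `s` is upper triangular on `D`, of the form `(ω, *; 0, 1)` on `I`. -/
structure UT (A : ValuationSubring Qb) (p : ℕ) (ζ : Qb) {k : Type} [Field k] [Algebra (ZMod p) k]
    (s : GQ →* M2 k) : Prop where
  tri : ∀ g ∈ Dec A, s g 1 0 = 0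
  unr : ∀ σ ∈ Iner A, s σ 1 1 = 1
  cyc : ∀ σ ∈ Iner A, s σ 0 0 = algebraMap (ZMod p) k (om p ζ σ)

/-- Normalised cocycles on the decomposition group (as functions on `GQ`; only the values on `D`
matter). -/
structure Nrm (A : ValuationSubring Qb) (p : ℕ) (ζ : Qb) {k : Type} [Field k] [Algebra (ZMod p) k]
    (s : GQ →* M2 k) (c : GQ → M2 k) : Prop where
  coc : ∀ g ∈ Dec A, ∀ h ∈ Dec A, c (g * h) = c g + s g * c h * s g⁻¹
  tr : ∀ g ∈ Dec A, c g 0 0 + c g 1 1 = 0
  fil0 : ∀ g ∈ Dec A, c g 1 0 = 0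
  fil1 : ∀ σ ∈ Iner A, c σ 0 0 = 0
  peu : PeuK A p ζ (fun σ => c σ 0 1)

/-- The multiplier of the Frobenius relation: `ω(φ) χ₂(φ) / χ₁(φ)`. -/
noncomputable def mult (p : ℕ) (ζ : Qb) {k : Type} [Field k] [Algebra (ZMod p) k] (s : GQ →* M2 k)
    (φ : GQ) : k :=
  algebraMap (ZMod p) k (om p ζ φ) * s φ 1 1 / s φ 0 0

end k

/-- `c` is, on the decomposition group, a smooth cocycle with values in the trace zero matrices
(only the values on `D` matter). -/
structure DCoc (A : ValuationSubring Qb) {k : Type} [Field k] (s : GQ →* M2 k) (c : GQ → M2 k) :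
    Prop where
  coc : ∀ g ∈ Dec A, ∀ h ∈ Dec A, c (g * h) = c g + s g * c h * s g⁻¹
  tr : ∀ g ∈ Dec A, c g 0 0 + c g 1 1 = 0
  lev : ∃ F : IntermediateField ℚ Qb, FiniteDimensional ℚ F ∧
    ∀ n ∈ Dec A, (∀ a ∈ F, n a = a) → c n = 0

/-- The lift `(1 + ε c) s`, restricted to the inertia group, is flat. -/
def Fl (A : ValuationSubring Qb) {k : Type} [Field k] (s : GQ →* M2 k) (c : GQ → M2 k) : Prop :=
  ∃ u : FC.ICoc A s, (∀ σ : ↥(Iner A), u σ = c σ.1) ∧ FlatLoc A (FC.WI u)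

/-- `c + ∂m`. -/
noncomputable def addCob {k : Type} [Field k] (s : GQ →* M2 k) (c : GQ → M2 k) (m : M2 k) : GQ → M2 k :=
  fun g => c g + (s g * m * s g⁻¹ - m)

/-- `(I - 1) k²`. -/
def aug2 (A : ValuationSubring Qb) {k : Type} [Field k] (s : GQ →* M2 k) :
    AddSubgroup (Fin 2 → k) :=
  AddSubgroup.closure {x | ∃ σ ∈ Iner A, ∃ y : Fin 2 → k, x = (s σ).mulVec y - y}

/-- `s` has finite level. -/
def FinLev {k : Type} [Field k] (s : GQ →* M2 k) : Prop :=
  ∃ F : IntermediateField ℚ Qb, FiniteDimensional ℚ F ∧ ∀ σ : GQ, (∀ a ∈ F, σ a = a) → s σ = 1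

/-- The conjugate representation `g ↦ P⁻¹ s(g) P`. -/
noncomputable def conjHom {k : Type} [Field k] (P : (M2 k)ˣ) (s : GQ →* M2 k) : GQ →* M2 k where
  toFun g := (↑P⁻¹ : M2 k) * s g * (P : M2 k)
  map_one' := by rw [map_one, mul_one, Units.inv_mul]
  map_mul' g h := by
    rw [map_mul]
    calc (↑P⁻¹ : M2 k) * (s g * s h) * (P : M2 k)
        = (↑P⁻¹ : M2 k) * s g * 1 * s h * (P : M2 k) := by simp only [mul_assoc, one_mul]
      _ = (↑P⁻¹ : M2 k) * s g * ((P : M2 k) * (↑P⁻¹ : M2 k)) * s h * (P : M2 k) := by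
          rw [Units.mul_inv]
      _ = _ := by simp only [mul_assoc]

end Fermat.Agent.S56.Flat.Red
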