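/-
S56 / FLAT / RED (architect helper15), task RED-OM: the cyclotomic character modulo `p`
(pure algebra of `ζ`, `ZMod p`).
-/
import Fermat.Agent.S56.Flat.Red.Defs

set_option autoImplicit false

namespace Fermat.Agent.S56.Flat.Red

open Fermat.Agent.S55
open Fermat.Agent.S53 (M2)
open Fermat.Agent.S56.Flat.Irr (kb rs)
open Fermat.Agent.Lib.InertiaField (K0)

variable {A : ValuationSubring Qb} {p : ℕ} [Fact p.Prime] {ζ : Qb}

/-! ## RED-OM: the cyclotomic character modulo `p` (pure algebra of `ζ`, `ZMod p`) -/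

theorem zeta_pow_val_add (hζ : IsPrimitiveRoot ζ p) (a b : ZMod p) :
    ζ ^ (a + b).val = ζ ^ a.val * ζ ^ b.val := by
  rw [ZMod.val_add, ← pow_eq_pow_mod _ hζ.pow_eq_one, pow_add]

theorem zeta_pow_val_mul (hζ : IsPrimitiveRoot ζ p) (a b : ZMod p) :
    ζ ^ (a * b).val = (ζ ^ a.val) ^ b.val := by
  rw [ZMod.val_mul, ← pow_eq_pow_mod _ hζ.pow_eq_one, pow_mul]

theorem zeta_pow_val_neg (hζ : IsPrimitiveRoot ζ p) (a : ZMod p) :
    ζ ^ (-a).val = (ζ ^ a.val)⁻¹ := by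
  apply eq_inv_of_mul_eq_one_left
  rw [← zeta_pow_val_add hζ, neg_add_cancel, ZMod.val_zero, pow_zero]

theorem zeta_pow_natCast_val (hζ : IsPrimitiveRoot ζ p) (n : ℕ) :
    ζ ^ ((n : ZMod p)).val = ζ ^ n := by
  rw [ZMod.val_natCast, ← pow_eq_pow_mod _ hζ.pow_eq_one]

theorem zeta_pow_val_inj (hζ : IsPrimitiveRoot ζ p) {a b : ZMod p} (h : ζ ^ a.val = ζ ^ b.val) :
    a = b :=
  ZMod.val_injective p (hζ.pow_inj (ZMod.val_lt a) (ZMod.val_lt b) h)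

/-- every `p`-th root of unity is a power of `ζ` -/
theorem exists_eq_zeta_pow (hζ : IsPrimitiveRoot ζ p) {μ : Qb} (hμ : μ ^ p = 1) :
    ∃ a : ZMod p, μ = ζ ^ a.val := by
  obtain ⟨i, -, hi⟩ := hζ.eq_pow_of_pow_eq_one hμ
  exact ⟨(i : ZMod p), by rw [zeta_pow_natCast_val hζ, hi]⟩

theorem om_spec (hζ : IsPrimitiveRoot ζ p) (σ : GQ) : σ ζ = ζ ^ (om p ζ σ).val := by
  have hμ : (σ ζ) ^ p = 1 := by rw [← map_pow, hζ.pow_eq_one, map_one]
  exact Classical.epsilon_spec (p := fun a : ZMod p => σ ζ = ζ ^ a.val) (exists_eq_zeta_pow hζ hμ)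

theorem om_eq (hζ : IsPrimitiveRoot ζ p) {σ : GQ} {a : ZMod p} (h : σ ζ = ζ ^ a.val) :
    om p ζ σ = a :=
  zeta_pow_val_inj hζ ((om_spec hζ σ).symm.trans h)

theorem om_eq_natCast (hζ : IsPrimitiveRoot ζ p) {σ : GQ} {n : ℕ} (h : σ ζ = ζ ^ n) :
    om p ζ σ = (n : ZMod p) :=
  om_eq hζ (h.trans (zeta_pow_natCast_val hζ n).symm)

theorem apply_zeta_pow (hζ : IsPrimitiveRoot ζ p) (σ : GQ) (a : ZMod p) :
    σ (ζ ^ a.val) = ζ ^ (om p ζ σ * a).val := by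
  rw [map_pow, om_spec hζ σ, zeta_pow_val_mul hζ]

theorem om_one (hζ : IsPrimitiveRoot ζ p) : om p ζ 1 = 1 := by
  have h : (1 : GQ) ζ = ζ ^ 1 := by rw [pow_one]; rfl
  rw [om_eq_natCast hζ h, Nat.cast_one]

theorem om_mul (hζ : IsPrimitiveRoot ζ p) (σ τ : GQ) : om p ζ (σ * τ) = om p ζ σ * om p ζ τ := by
  apply om_eq hζ
  show σ (τ ζ) = _
  rw [om_spec hζ τ, apply_zeta_pow hζ]

theorem om_ne_zero (hζ : IsPrimitiveRoot ζ p) (σ : GQ) : om p ζ σ ≠ 0 := by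
  intro h0
  have h1 := om_spec hζ σ
  rw [h0, ZMod.val_zero, pow_zero] at h1
  have h2 : ζ = 1 := σ.injective (h1.trans (map_one σ).symm)
  exact hζ.ne_one (Fact.out : p.Prime).one_lt h2

theorem om_inv (hζ : IsPrimitiveRoot ζ p) (σ : GQ) : om p ζ σ⁻¹ = (om p ζ σ)⁻¹ := by
  apply eq_inv_of_mul_eq_one_left
  rw [← om_mul hζ, inv_mul_cancel, om_one hζ]

theorem om_conj (hζ : IsPrimitiveRoot ζ p) (g σ : GQ) : om p ζ (g * σ * g⁻¹) = om p ζ σ := by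
  rw [om_mul hζ, om_mul hζ, om_inv hζ, mul_comm (om p ζ g), mul_assoc,
    mul_inv_cancel₀ (om_ne_zero hζ g), mul_one]

theorem om_eq_one_iff (hζ : IsPrimitiveRoot ζ p) (σ : GQ) : om p ζ σ = 1 ↔ σ ζ = ζ := by
  constructor
  · intro h
    have h1 := om_spec hζ σ
    rw [h, ← Nat.cast_one, zeta_pow_natCast_val hζ, pow_one] at h1
    exact h1
  · intro h
    have h1 : σ ζ = ζ ^ 1 := by rw [pow_one]; exact h
    rw [om_eq_natCast hζ h1, Nat.cast_one]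

end Fermat.Agent.S56.Flat.Red
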