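/-
S56 / FLAT / RED (architect helper15), task RED-T2D: glue of the block RED with the contract
`Flat/FC/DDefs.lean` (`FC.DCoc A s` = bundled cocycles on the decomposition group, `FC.DCoc.IsFlat`).
-/
import Fermat.Agent.S56.Flat.Red.Defs
import Fermat.Agent.S56.Flat.Red.Om
import Fermat.Agent.S56.Flat.FC.DDefs

set_option autoImplicit false

namespace Fermat.Agent.S56.Flat.Red

open Fermat.Agent.S55
open Fermat.Agent.S53 (M2)
open Fermat.Agent.S56.Flat.Irr (kb rs)
open Fermat.Agent.Lib.InertiaField (K0)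

variable {k : Type} [Field k] {s : GQ →* M2 k} {A : ValuationSubring Qb}

/-- a bundled cocycle vanishes at `1` -/
private theorem BridgeD_one (c : FC.DCoc A s) : c 1 = 0 := by
  have h1 : (1 : GQ) ∈ A.decompositionSubgroup ℚ := one_mem _
  have h := c.map_mul h1 h1
  rw [mul_one, map_one, inv_one, map_one, one_mul, mul_one] at h
  exact left_eq_add.mp h

/-- `tr`: `Matrix.trace_fin_two`; `lev`: `level'` with `g = 1` and `c 1 = 0`. -/
theorem dCoc_of (c : FC.DCoc A s) : DCoc A s c := by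
  refine ⟨fun g hg h hh => c.map_mul hg hh, fun g hg => ?_, ?_⟩
  · rw [← Matrix.trace_fin_two]
    exact c.trace hg
  · obtain ⟨F, hF, h⟩ := c.level
    refine ⟨F, hF, fun n hn hfix => ?_⟩
    have h1 := h 1 (one_mem _) n hn hfix
    rw [one_mul, BridgeD_one] at h1
    exact h1

theorem fl_of (c : FC.DCoc A s) (hc : c.IsFlat) : Fl A s c :=
  ⟨c.toICoc, fun _ => rfl, hc⟩

theorem finLev_of_resHyp {p : ℕ} (hs : ResHyp p s) : FinLev s := hs.fin

/-- `ResHyp.det` with `a = (om p ζ σ).val`: every `μ` with `μ ^ p = 1` is a power of `ζ`. -/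
theorem det_eq_om {p : ℕ} [Fact p.Prime] [Algebra (ZMod p) k] {ζ : Qb} (hζ : IsPrimitiveRoot ζ p)
    (hs : ResHyp p s) (σ : GQ) : (s σ).det = algebraMap (ZMod p) k (om p ζ σ) := by
  have h1 := hs.det σ (om p ζ σ).val (fun μ hμ => by
    obtain ⟨b, rfl⟩ := exists_eq_zeta_pow hζ hμ
    rw [map_pow, om_spec hζ σ, ← pow_mul, ← pow_mul, mul_comm])
  rw [h1, ← map_natCast (algebraMap (ZMod p) k), ZMod.natCast_zmod_val]

theorem exists_std {p : ℕ} (hp : p.Prime) (hp2 : p ≠ 2) (hA : A.LiesOverPrime p) :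
    ∃ ζ : Qb, Std A p ζ := by
  have : NeZero p := ⟨hp.ne_zero⟩
  obtain ⟨ζ, hζ⟩ := HasEnoughRootsOfUnity.exists_primitiveRoot Qb p
  exact ⟨ζ, hp2, hA, hζ⟩

end Fermat.Agent.S56.Flat.Red
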