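/-
S56 / FLAT / RED (architect helper15), task RED-C2: everything is compatible with conjugation by `P`
and with coboundaries.

`Fl.conj`: `u' σ := P⁻¹ u σ P : ICoc A (conjHom P s)`; `WI u' → WI u`, `(x, y) ↦ (P x, P y)` is additive,
equivariant, injective; `FlatLoc.of_injective` (Flat/Mod/Sub.lean).
`Fl.addCob`: `u' σ := u σ + (s σ m s σ⁻¹ - m)`; `WI u' → WI u`, `(x, y) ↦ (x, y + m x)`.
-/
import Fermat.Agent.S56.Flat.Red.Defs
import Fermat.Agent.S56.Flat.Mod.Sub

set_option autoImplicit false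

namespace Fermat.Agent.S56.Flat.Red

open Fermat.Agent.S55
open Fermat.Agent.S53 (M2)
open Fermat.Agent.S56.Flat.Irr (kb rs)
open Fermat.Agent.Lib.InertiaField (K0)

variable {A : ValuationSubring Qb} {k : Type} [Field k] {s : GQ →* M2 k}

theorem conjHom_apply (P : (M2 k)ˣ) (s : GQ →* M2 k) (g : GQ) :
    conjHom P s g = (↑P⁻¹ : M2 k) * s g * (P : M2 k) := rfl

/-! ### algebra -/

private theorem conj_s_inv_mul (s : GQ →* M2 k) (g : GQ) : s g⁻¹ * s g = 1 := by
  rw [← map_mul, inv_mul_cancel, map_one]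

private theorem conj_s_mul_inv (s : GQ →* M2 k) (g : GQ) : s g * s g⁻¹ = 1 := by
  rw [← map_mul, mul_inv_cancel, map_one]

/-- conjugating the cocycle relation. -/
private theorem conj_coc_aux (P : (M2 k)ˣ) (x y z a b : M2 k) (h : x = y + a * z * b) :
    (↑P⁻¹ : M2 k) * x * (P : M2 k) = (↑P⁻¹ : M2 k) * y * (P : M2 k) +
      ((↑P⁻¹ : M2 k) * a * (P : M2 k)) * ((↑P⁻¹ : M2 k) * z * (P : M2 k)) *
        ((↑P⁻¹ : M2 k) * b * (P : M2 k)) := by
  rw [h]
  simp only [mul_assoc, Units.mul_inv_cancel_left, mul_add, add_mul]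

/-- the cocycle relation for `c + ∂m`. -/
private theorem conj_cob_aux (s : GQ →* M2 k) (g h : GQ) (x y z m : M2 k)
    (e : x = y + s g * z * s g⁻¹) :
    x + (s (g * h) * m * s (g * h)⁻¹ - m) =
      y + (s g * m * s g⁻¹ - m) + s g * (z + (s h * m * s h⁻¹ - m)) * s g⁻¹ := by
  rw [e, mul_inv_rev, map_mul, map_mul]
  noncomm_ring

private theorem conj_trace_s (s : GQ →* M2 k) (g : GQ) (m : M2 k) :
    (s g * m * s g⁻¹).trace = m.trace := by
  rw [Matrix.trace_mul_cycle, conj_s_inv_mul, one_mul]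

theorem FinLev.conj (P : (M2 k)ˣ) (hs : FinLev s) : FinLev (conjHom P s) := by
  obtain ⟨F, hF, h⟩ := hs
  refine ⟨F, hF, fun σ hσ => ?_⟩
  rw [conjHom_apply, h σ hσ, mul_one, Units.inv_mul]

theorem DCoc.conj (P : (M2 k)ˣ) {c : GQ → M2 k} (hc : DCoc A s c) :
    DCoc A (conjHom P s) (fun g => (↑P⁻¹ : M2 k) * c g * (P : M2 k)) where
  coc g hg h hh := conj_coc_aux P _ _ _ _ _ (hc.coc g hg h hh)
  tr g hg := by
    have h1 := hc.tr g hg
    rw [← Matrix.trace_fin_two] at h1 ⊢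
    rw [Matrix.trace_units_conj', h1]
  lev := by
    obtain ⟨F, hF, h⟩ := hc.lev
    refine ⟨F, hF, fun n hn hfix => ?_⟩
    show (↑P⁻¹ : M2 k) * c n * (P : M2 k) = 0
    rw [h n hn hfix, mul_zero, zero_mul]

/-- the conjugate cocycle on inertia. -/
private noncomputable def conjICoc (P : (M2 k)ˣ) (u : FC.ICoc A s) : FC.ICoc A (conjHom P s) where
  toFun σ := (↑P⁻¹ : M2 k) * u σ * (P : M2 k)
  map_mul' σ τ := conj_coc_aux P _ _ _ _ _ (u.map_mul σ τ)

/-- `(x, y) ↦ (P x, P y)`. -/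
private noncomputable def conjMap (P : (M2 k)ˣ) (u : FC.ICoc A s) :
    FC.WI (conjICoc P u) →+[↥(Iner A)] FC.WI u where
  toFun x := FC.WI.mk u ((P : M2 k).mulVec x.fst) ((P : M2 k).mulVec x.snd)
  map_smul' σ x := by
    apply FC.WI.ext
    · show (P : M2 k).mulVec (((↑P⁻¹ : M2 k) * s (σ : GQ) * (P : M2 k)).mulVec x.fst) =
        (s (σ : GQ)).mulVec ((P : M2 k).mulVec x.fst)
      rw [Matrix.mulVec_mulVec, Matrix.mulVec_mulVec, mul_assoc, Units.mul_inv_cancel_left]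
    · show (P : M2 k).mulVec (((↑P⁻¹ : M2 k) * s (σ : GQ) * (P : M2 k)).mulVec x.snd +
          (((↑P⁻¹ : M2 k) * u σ * (P : M2 k)) *
            ((↑P⁻¹ : M2 k) * s (σ : GQ) * (P : M2 k))).mulVec x.fst) =
        (s (σ : GQ)).mulVec ((P : M2 k).mulVec x.snd) +
          (u σ * s (σ : GQ)).mulVec ((P : M2 k).mulVec x.fst)
      rw [Matrix.mulVec_add, Matrix.mulVec_mulVec, Matrix.mulVec_mulVec, Matrix.mulVec_mulVec,
        Matrix.mulVec_mulVec]
      simp only [mul_assoc, Units.mul_inv_cancel_left]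
  map_zero' := by
    apply FC.WI.ext
    · show (P : M2 k).mulVec (0 : Fin 2 → k) = 0
      rw [Matrix.mulVec_zero]
    · show (P : M2 k).mulVec (0 : Fin 2 → k) = 0
      rw [Matrix.mulVec_zero]
  map_add' x y := by
    apply FC.WI.ext
    · show (P : M2 k).mulVec (x.fst + y.fst) = (P : M2 k).mulVec x.fst + (P : M2 k).mulVec y.fst
      rw [Matrix.mulVec_add]
    · show (P : M2 k).mulVec (x.snd + y.snd) = (P : M2 k).mulVec x.snd + (P : M2 k).mulVec y.snd
      rw [Matrix.mulVec_add]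

private theorem conj_mulVec_injective (P : (M2 k)ˣ) {x y : Fin 2 → k}
    (h : (P : M2 k).mulVec x = (P : M2 k).mulVec y) : x = y := by
  have h1 := congrArg (fun v => (↑P⁻¹ : M2 k).mulVec v) h
  simpa only [Matrix.mulVec_mulVec, Units.inv_mul, Matrix.one_mulVec] using h1

private theorem conjMap_injective (P : (M2 k)ˣ) (u : FC.ICoc A s) :
    Function.Injective (conjMap P u) := by
  intro x y h
  apply FC.WI.ext
  · exact conj_mulVec_injective P (congrArg (FC.WI.fst u) h)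
  · exact conj_mulVec_injective P (congrArg (FC.WI.snd u) h)

theorem Fl.conj (P : (M2 k)ˣ) {c : GQ → M2 k} (hc : Fl A s c) :
    Fl A (conjHom P s) (fun g => (↑P⁻¹ : M2 k) * c g * (P : M2 k)) := by
  obtain ⟨u, hu, hfl⟩ := hc
  refine ⟨conjICoc P u, fun σ => ?_, hfl.of_injective (conjMap P u) (conjMap_injective P u)⟩
  show (↑P⁻¹ : M2 k) * u σ * (P : M2 k) = (↑P⁻¹ : M2 k) * c σ.1 * (P : M2 k)
  rw [hu σ]

theorem DCoc.addCob (hs : FinLev s) {c : GQ → M2 k} (hc : DCoc A s c) (m : M2 k)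
    (hm : m.trace = 0) : DCoc A s (addCob s c m) where
  coc g hg h hh := conj_cob_aux s g h _ _ _ m (hc.coc g hg h hh)
  tr g hg := by
    have h1 := hc.tr g hg
    rw [← Matrix.trace_fin_two] at h1 ⊢
    show (c g + (s g * m * s g⁻¹ - m)).trace = 0
    rw [Matrix.trace_add, Matrix.trace_sub, conj_trace_s, h1, hm, sub_zero, add_zero]
  lev := by
    obtain ⟨F, hF, h⟩ := hc.lev
    obtain ⟨F', hF', h'⟩ := hs
    refine ⟨F ⊔ F', IntermediateField.finiteDimensional_sup F F', fun n hn hfix => ?_⟩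
    have h1 : c n = 0 := h n hn fun a ha => hfix a ((le_sup_left : F ≤ F ⊔ F') ha)
    have h2 : s n = 1 := h' n fun a ha => hfix a ((le_sup_right : F' ≤ F ⊔ F') ha)
    have h3 : s n⁻¹ = 1 := by
      have := conj_s_inv_mul s n
      rwa [h2, mul_one] at this
    show c n + (s n * m * s n⁻¹ - m) = 0
    rw [h1, h2, h3, one_mul, mul_one, sub_self, add_zero]

/-- the cocycle `u + ∂m` on inertia. -/
private noncomputable def cobICoc (u : FC.ICoc A s) (m : M2 k) : FC.ICoc A s where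
  toFun σ := u σ + (s (σ : GQ) * m * s (σ : GQ)⁻¹ - m)
  map_mul' σ τ := conj_cob_aux s (σ : GQ) (τ : GQ) _ _ _ m (u.map_mul σ τ)

/-- `(x, y) ↦ (x, y + m x)`. -/
private noncomputable def cobMap (u : FC.ICoc A s) (m : M2 k) :
    FC.WI (cobICoc u m) →+[↥(Iner A)] FC.WI u where
  toFun x := FC.WI.mk u x.fst (x.snd + m.mulVec x.fst)
  map_smul' σ x := by
    apply FC.WI.ext
    · rfl
    · show (s (σ : GQ)).mulVec x.snd +
          ((u σ + (s (σ : GQ) * m * s (σ : GQ)⁻¹ - m)) * s (σ : GQ)).mulVec x.fst +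
          m.mulVec ((s (σ : GQ)).mulVec x.fst) =
        (s (σ : GQ)).mulVec (x.snd + m.mulVec x.fst) + (u σ * s (σ : GQ)).mulVec x.fst
      have e : (u σ + (s (σ : GQ) * m * s (σ : GQ)⁻¹ - m)) * s (σ : GQ) =
          u σ * s (σ : GQ) + s (σ : GQ) * m - m * s (σ : GQ) := by
        rw [add_mul, sub_mul, mul_assoc (s (σ : GQ) * m), conj_s_inv_mul, mul_one, add_sub_assoc]
      rw [e, Matrix.mulVec_add, Matrix.mulVec_mulVec, Matrix.mulVec_mulVec, Matrix.sub_mulVec,
        Matrix.add_mulVec]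
      abel
  map_zero' := by
    apply FC.WI.ext
    · rfl
    · show (0 : Fin 2 → k) + m.mulVec (0 : Fin 2 → k) = 0
      rw [Matrix.mulVec_zero, add_zero]
  map_add' x y := by
    apply FC.WI.ext
    · rfl
    · show x.snd + y.snd + m.mulVec (x.fst + y.fst) =
        x.snd + m.mulVec x.fst + (y.snd + m.mulVec y.fst)
      rw [Matrix.mulVec_add]
      abel

private theorem cobMap_injective (u : FC.ICoc A s) (m : M2 k) :
    Function.Injective (cobMap u m) := by
  intro x y h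
  have h1 : x.fst = y.fst := by
    have := congrArg (FC.WI.fst u) h
    exact this
  have h2 : x.snd + m.mulVec x.fst = y.snd + m.mulVec y.fst := by
    have := congrArg (FC.WI.snd u) h
    exact this
  apply FC.WI.ext h1
  rw [h1] at h2
  exact add_right_cancel h2

theorem Fl.addCob {c : GQ → M2 k} (hc : Fl A s c) (m : M2 k) : Fl A s (addCob s c m) := by
  obtain ⟨u, hu, hfl⟩ := hc
  refine ⟨cobICoc u m, fun σ => ?_, hfl.of_injective (cobMap u m) (cobMap_injective u m)⟩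
  show u σ + (s (σ : GQ) * m * s (σ : GQ)⁻¹ - m) = c σ.1 + (s σ.1 * m * s σ.1⁻¹ - m)
  rw [hu σ]

/-- going back: a coboundary relation for `conjHom P s` gives one for `s`. -/
theorem cob_conj_back (P : (M2 k)ˣ) {d : M2 k} {g : GQ} {m : M2 k}
    (h : (↑P⁻¹ : M2 k) * d * (P : M2 k) = conjHom P s g * m * conjHom P s g⁻¹ - m) :
    d = s g * ((P : M2 k) * m * (↑P⁻¹ : M2 k)) * s g⁻¹ - (P : M2 k) * m * (↑P⁻¹ : M2 k) := by
  have h1 : d = (P : M2 k) * ((↑P⁻¹ : M2 k) * d * (P : M2 k)) * (↑P⁻¹ : M2 k) := by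
    simp only [mul_assoc, Units.mul_inv_cancel_left, Units.mul_inv, mul_one]
  rw [h1, h, conjHom_apply, conjHom_apply]
  simp only [mul_assoc, Units.mul_inv_cancel_left, Units.mul_inv, mul_one, mul_sub, sub_mul]

theorem trace_conj_back (P : (M2 k)ˣ) (m : M2 k) :
    ((P : M2 k) * m * (↑P⁻¹ : M2 k)).trace = m.trace :=
  Matrix.trace_units_conj P m

end Fermat.Agent.S56.Flat.Red
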