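/-
S56 / FLAT / RED (architect helper15), task RED-B3 (Mathlib only): fixed points of a
Frobenius-semilinear relation.

A maximal `K`-linearly independent family `b` of solutions spans all solutions over `K`; if
`x = ∑ h_t t` is a solution then applying `P` and `Q` gives `∑ (h_t - h_t ^ p) t = 0`, so that
`h_t ^ p = h_t`: at most `p` possibilities for every coefficient.
-/
import Mathlib

set_option autoImplicit false

namespace Fermat.Agent.S56.Flat.Red

/-- `a ^ p = a` has at most `p` solutions. -/
theorem Semi_card_fix_le (p : ℕ) [Fact p.Prime] (K : Type) [Field K] :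
    Finite {a : K // a ^ p = a} ∧ Nat.card {a : K // a ^ p = a} ≤ p := by
  classical
  have hp : 1 < p := (Fact.out : p.Prime).one_lt
  set f : Polynomial K := Polynomial.X ^ p - Polynomial.X with hf
  have hf0 : f ≠ 0 := FiniteField.X_pow_card_sub_X_ne_zero K hp
  have hdeg : f.natDegree = p := FiniteField.X_pow_card_sub_X_natDegree_eq K hp
  have hsub : {a : K | a ^ p = a} ⊆ (f.roots.toFinset : Set K) := by
    intro a ha
    have ha' : a ^ p = a := ha
    rw [Finset.mem_coe, Multiset.mem_toFinset, Polynomial.mem_roots hf0, Polynomial.IsRoot.def, hf]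
    simp [ha']
  have hfin : {a : K | a ^ p = a}.Finite := (Finset.finite_toSet _).subset hsub
  refine ⟨hfin, ?_⟩
  calc Nat.card {a : K // a ^ p = a} ≤ Nat.card (f.roots.toFinset : Set K) :=
        Nat.card_mono (Finset.finite_toSet _) hsub
    _ = f.roots.toFinset.card := by
        rw [Nat.card_coe_set_eq, Set.ncard_coe_finset]
    _ ≤ Multiset.card f.roots := Multiset.toFinset_card_le _
    _ ≤ f.natDegree := Polynomial.card_roots' f
    _ = p := hdeg

/-- Abstract form. -/
theorem card_semilinear_le {p : ℕ} [Fact p.Prime] {K : Type} [Field K] [CharP K p]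
    {E E' : Type} [AddCommGroup E] [Module K E] [FiniteDimensional K E] [AddCommGroup E']
    [Module K E'] (P : E →ₗ[K] E') (hP : Function.Injective P) (Q : E →+ E')
    (hQ : ∀ (a : K) (x : E), Q (a • x) = a ^ p • Q x) :
    {x : E | P x = Q x}.Finite ∧ Nat.card {x : E | P x = Q x} ≤ p ^ Module.finrank K E := by
  classical
  set S : Set E := {x : E | P x = Q x} with hS
  obtain ⟨b, hbS, hspan, hli⟩ := exists_linearIndependent K S
  have : Finite b := hli.finite
  have : Fintype b := Fintype.ofFinite b
  have hcard : Fintype.card b ≤ Module.finrank K E := hli.fintype_card_le_finrank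
  obtain ⟨hFfin, hFcard⟩ := Semi_card_fix_le p K
  let Φ : (b → {a : K // a ^ p = a}) → E := fun c => ∑ t, (c t : K) • (t : E)
  have hsub : S ⊆ Set.range Φ := by
    intro x hx
    have hx' : x ∈ Submodule.span K (Set.range (Subtype.val : b → E)) := by
      rw [Subtype.range_coe, hspan]
      exact Submodule.subset_span hx
    obtain ⟨h, rfl⟩ := (Submodule.mem_span_range_iff_exists_fun K).1 hx'
    have h1 : P (∑ t, h t • (t : E)) = ∑ t, h t • P (t : E) := by
      rw [map_sum]
      exact Finset.sum_congr rfl fun t _ => map_smul P _ _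
    have h2 : Q (∑ t, h t • (t : E)) = ∑ t, h t ^ p • P (t : E) := by
      rw [map_sum]
      refine Finset.sum_congr rfl fun t _ => ?_
      have ht : P (t : E) = Q (t : E) := hbS t.2
      rw [hQ, ht]
    have hPQ : ∑ t, h t • P (t : E) = ∑ t, h t ^ p • P (t : E) := by
      rw [← h1, ← h2]
      exact hx
    have h0 : ∑ t, (h t - h t ^ p) • (t : E) = 0 := by
      apply hP
      rw [map_sum, map_zero]
      simp only [map_smul, sub_smul, map_sub, Finset.sum_sub_distrib]
      rw [hPQ, sub_self]
    have h3 := Fintype.linearIndependent_iff.1 hli _ h0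
    exact ⟨fun t => ⟨h t, (sub_eq_zero.1 (h3 t)).symm⟩, rfl⟩
  have hfin : S.Finite := (Set.finite_range Φ).subset hsub
  refine ⟨hfin, ?_⟩
  calc Nat.card S ≤ Nat.card (Set.range Φ) := Nat.card_mono (Set.finite_range Φ) hsub
    _ ≤ Nat.card (b → {a : K // a ^ p = a}) := Finite.card_range_le Φ
    _ = Nat.card {a : K // a ^ p = a} ^ Fintype.card b := by
        rw [Nat.card_fun, Nat.card_eq_fintype_card (α := b)]
    _ ≤ p ^ Fintype.card b := Nat.pow_le_pow_left hFcard _
    _ ≤ p ^ Module.finrank K E := Nat.pow_le_pow_right (Fact.out : p.Prime).pos hcard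

/-- The form we use: `Λ` a finite `𝔽_p`-vector space, `θ` an automorphism. -/
theorem card_frobFix_le {p : ℕ} [Fact p.Prime] {K : Type} [Field K] [CharP K p]
    {Λ : Type} [AddCommGroup Λ] [Module (ZMod p) Λ] [Finite Λ] (θ : Λ → Λ)
    (hθ : Function.Surjective θ) (hθadd : ∀ l l', θ (l + l') = θ l + θ l') :
    {ξ : Λ →+ K | ∀ l, ξ l ^ p = ξ (θ l)}.Finite ∧
      Nat.card {ξ : Λ →+ K | ∀ l, ξ l ^ p = ξ (θ l)} ≤ Nat.card Λ := by
  classical
  let _ : Algebra (ZMod p) K := ZMod.algebra K p
  have : Fintype Λ := Fintype.ofFinite Λ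
  let b := Module.finBasis (ZMod p) Λ
  -- evaluation at the basis
  let ev : (Λ →+ K) →ₗ[K] (Fin (Module.finrank (ZMod p) Λ) → K) :=
    { toFun := fun ξ i => ξ (b i)
      map_add' := fun _ _ => rfl
      map_smul' := fun _ _ => rfl }
  have hev : Function.Injective ev := by
    intro ξ ξ' h
    apply AddMonoidHom.toZModLinearMap_injective p
    refine b.ext fun i => ?_
    exact congrFun h i
  have hfd : FiniteDimensional K (Λ →+ K) := Module.Finite.of_injective ev hev
  have hrank : Module.finrank K (Λ →+ K) ≤ Module.finrank (ZMod p) Λ := by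
    have := LinearMap.finrank_le_finrank_of_injective hev
    rwa [Module.finrank_fin_fun] at this
  have hΛ : Nat.card Λ = p ^ Module.finrank (ZMod p) Λ := by
    rw [Nat.card_eq_fintype_card, Module.card_fintype b, ZMod.card, Fintype.card_fin]
  let P : (Λ →+ K) →ₗ[K] (Λ → K) :=
    { toFun := fun ξ l => ξ (θ l)
      map_add' := fun _ _ => rfl
      map_smul' := fun _ _ => rfl }
  have hP : Function.Injective P := by
    intro ξ ξ' h
    ext l
    obtain ⟨l', rfl⟩ := hθ l
    exact congrFun h l'
  let Q : (Λ →+ K) →+ (Λ → K) :=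
    { toFun := fun ξ l => ξ l ^ p
      map_zero' := by
        funext l
        simp [(Fact.out : p.Prime).ne_zero]
      map_add' := fun ξ ξ' => by
        funext l
        exact add_pow_char (ξ l) (ξ' l) p }
  have hQ : ∀ (a : K) (ξ : Λ →+ K), Q (a • ξ) = a ^ p • Q ξ := by
    intro a ξ
    funext l
    exact mul_pow a (ξ l) p
  have hset : {ξ : Λ →+ K | ∀ l, ξ l ^ p = ξ (θ l)} = {ξ : Λ →+ K | P ξ = Q ξ} := by
    ext ξ
    constructor
    · intro h
      funext l
      exact (h l).symm
    · intro h l
      exact (congrFun h l).symm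
  obtain ⟨h1, h2⟩ := card_semilinear_le P hP Q hQ
  rw [hset]
  refine ⟨h1, h2.trans ?_⟩
  rw [hΛ]
  exact Nat.pow_le_pow_right (Fact.out : p.Prime).pos hrank

end Fermat.Agent.S56.Flat.Red
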