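/-
S56 / FLAT / RED (architect helper15), task RED-B4 (owner helper138): pure algebra, the count
`#(Z' / k β) ≤ #k`.  COMPLETE modulo the stub `WIP/Semi.lean` (RED-B3); final home `Red/AlgCount.lean`.
NOTE: `ZZ` takes `[CharP K p]` (needed for closure under addition).
-/
import Fermat.Agent.S56.Flat.Red.Defs
import Fermat.Agent.S56.Flat.Red.Semi

set_option autoImplicit false

namespace Fermat.Agent.S56.Flat.Red

open Fermat.Agent.S55
open Fermat.Agent.S53 (M2)
open Fermat.Agent.S56.Flat.Irr (kb rs)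
open Fermat.Agent.Lib.InertiaField (K0)

section sc

variable {p : ℕ} {k : Type} [Field k] [Algebra (ZMod p) k]

theorem algCount_sc_zero (l : Lam p k) : sc (0 : k) l = 0 := by
  ext y; simp

theorem algCount_sc_one (l : Lam p k) : sc (1 : k) l = l := by
  ext y; simp

theorem algCount_sc_add (x x' : k) (l : Lam p k) : sc (x + x') l = sc x l + sc x' l := by
  ext y; simp [add_mul]

theorem algCount_sc_neg (x : k) (l : Lam p k) : sc (-x) l = -sc x l := by
  ext y; simp

theorem algCount_sc_add_right (x : k) (l l' : Lam p k) : sc x (l + l') = sc x l + sc x l' := by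
  ext y; simp

theorem algCount_sc_sc (x y : k) (l : Lam p k) : sc x (sc y l) = sc (y * x) l := by
  ext z; simp [mul_assoc]

theorem algCount_sc_comm (x y : k) (l : Lam p k) : sc x (sc y l) = sc y (sc x l) := by
  rw [algCount_sc_sc, algCount_sc_sc, mul_comm]

theorem algCount_sc_surjective {u : k} (hu : u ≠ 0) :
    Function.Surjective (sc u : Lam p k → Lam p k) := by
  intro l
  refine ⟨sc u⁻¹ l, ?_⟩
  rw [algCount_sc_sc, inv_mul_cancel₀ hu, algCount_sc_one]

end sc

variable {p : ℕ} [Fact p.Prime] {k : Type} [Field k] [Algebra (ZMod p) k] [Finite k]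
variable {K : Type} [Field K] [CharP K p]

/-! ## RED-B4 (pure algebra): the count `#(Z' / k β) ≤ #k`

`S₀ = {ξ | ξ(l)^p = ξ(u l)}` has at most `#Lam = #k` elements (RED-B3, `θ = sc u`, `u ≠ 0`).
`δ : Z' → kβ`, `ξ ↦ (l ↦ ξ(u l) - ξ(l)^p)` is additive with kernel `S₀`, so `#Z' ≤ #S₀ #kβ`;
`kβ ≤ S₀ ≤ Z'`; Lagrange. -/

omit [Finite k] [Fact p.Prime] in
private theorem algCount_neg_pow [Fact p.Prime] (x : K) : (-x) ^ p = -(x ^ p) := by
  have := map_neg (frobenius K p) x
  simpa [frobenius_def] using this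

/-- the multiples of `β` -/
def kMul (β : Lam p k →+ K) : AddSubgroup (Lam p k →+ K) where
  carrier := {ξ | ∃ x : k, ∀ l, ξ l = β (sc x l)}
  zero_mem' := ⟨0, fun l => by rw [algCount_sc_zero, map_zero]; rfl⟩
  add_mem' := by
    rintro ξ ξ' ⟨x, hx⟩ ⟨x', hx'⟩
    exact ⟨x + x', fun l => by rw [AddMonoidHom.add_apply, hx, hx', algCount_sc_add, map_add]⟩
  neg_mem' := by
    rintro ξ ⟨x, hx⟩
    exact ⟨-x, fun l => by rw [AddMonoidHom.neg_apply, hx, algCount_sc_neg, map_neg]⟩

/-- the solutions of the inhomogeneous Frobenius relation -/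
def ZZ (u : k) (β : Lam p k →+ K) : AddSubgroup (Lam p k →+ K) where
  carrier := {ξ | ∃ a : k, ∀ l, ξ l ^ p = ξ (sc u l) - β (sc a l)}
  zero_mem' := ⟨0, fun l => by
    rw [algCount_sc_zero, map_zero, AddMonoidHom.zero_apply, AddMonoidHom.zero_apply, sub_zero,
      zero_pow (Fact.out : p.Prime).ne_zero]⟩
  add_mem' := by
    rintro ξ ξ' ⟨a, ha⟩ ⟨a', ha'⟩
    refine ⟨a + a', fun l => ?_⟩
    rw [AddMonoidHom.add_apply, add_pow_char, ha, ha', AddMonoidHom.add_apply, algCount_sc_add,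
      map_add]
    ring
  neg_mem' := by
    rintro ξ ⟨a, ha⟩
    refine ⟨-a, fun l => ?_⟩
    rw [AddMonoidHom.neg_apply, algCount_neg_pow, ha, AddMonoidHom.neg_apply, algCount_sc_neg,
      map_neg]
    ring

theorem card_Lam : Nat.card (Lam p k) = Nat.card k := by
  have : Module.Finite (ZMod p) k := Module.Finite.of_finite
  have : Fintype k := Fintype.ofFinite k
  have : Finite (Lam p k) := Module.finite_of_finite (ZMod p)
  have : Fintype (Lam p k) := Fintype.ofFinite _
  rw [Nat.card_eq_fintype_card, Nat.card_eq_fintype_card,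
    Module.card_eq_pow_finrank (K := ZMod p) (V := Lam p k),
    Module.card_eq_pow_finrank (K := ZMod p) (V := k)]
  congr 1
  exact Subspace.dual_finrank_eq

theorem card_ZZ_quot_le (u : k) (hu : u ≠ 0) (β : Lam p k →+ K)
    (hβ : ∀ l, β l ^ p = β (sc u l)) :
    Finite ((ZZ u β).map (QuotientAddGroup.mk' (kMul β))) ∧
      Nat.card ((ZZ u β).map (QuotientAddGroup.mk' (kMul β))) ≤ Nat.card k := by
  have : Module.Finite (ZMod p) k := Module.Finite.of_finite
  have hLamFin : Finite (Lam p k) := Module.finite_of_finite (ZMod p)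
  obtain ⟨hS0fin, hS0card⟩ := card_frobFix_le (p := p) (K := K) (Λ := Lam p k) (sc u)
    (algCount_sc_surjective hu) (algCount_sc_add_right u)
  rw [card_Lam] at hS0card
  set S0 : Set (Lam p k →+ K) := {ξ : Lam p k →+ K | ∀ l, ξ l ^ p = ξ (sc u l)} with hS0
  have hS0F : Finite S0 := hS0fin
  -- `kMul β` is finite
  have hNfin : Finite (kMul β) := by
    have hsurj : ∀ x : k, ∃ ξ : Lam p k →+ K, ∀ l, ξ l = β (sc x l) := fun x =>
      ⟨{ toFun := fun l => β (sc x l)
         map_zero' := by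
          have : sc x (0 : Lam p k) = 0 := by ext y; simp
          rw [this, map_zero]
         map_add' := fun l l' => by rw [algCount_sc_add_right, map_add] }, fun l => rfl⟩
    choose F hF using hsurj
    have : Function.Surjective (fun x : k => (⟨F x, ⟨x, hF x⟩⟩ : kMul β)) := by
      rintro ⟨ξ, x, hx⟩
      refine ⟨x, Subtype.ext ?_⟩
      ext l
      rw [hx]
      exact hF x l
    exact Finite.of_surjective _ this
  -- `kMul β ≤ ZZ u β`
  have hNS0 : ∀ ξ ∈ kMul β, ξ ∈ S0 := by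
    rintro ξ ⟨x, hx⟩ l
    rw [hx, hx, hβ, algCount_sc_comm]
  have hS0Z : ∀ ξ ∈ S0, ξ ∈ ZZ u β := by
    intro ξ hξ
    exact ⟨0, fun l => by rw [algCount_sc_zero, map_zero, sub_zero]; exact hξ l⟩
  have hNZ : kMul β ≤ ZZ u β := fun ξ hξ => hS0Z ξ (hNS0 ξ hξ)
  -- `δ`
  have hδ : ∀ ξ : ZZ u β, ∃ η : kMul β, ∀ l, (η : Lam p k →+ K) l = ξ.1 (sc u l) - ξ.1 l ^ p := by
    rintro ⟨ξ, a, ha⟩
    obtain ⟨η, hη⟩ : ∃ η : Lam p k →+ K, ∀ l, η l = β (sc a l) :=
      ⟨{ toFun := fun l => β (sc a l)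
         map_zero' := by
          have : sc a (0 : Lam p k) = 0 := by ext y; simp
          rw [this, map_zero]
         map_add' := fun l l' => by rw [algCount_sc_add_right, map_add] }, fun l => rfl⟩
    refine ⟨⟨η, a, hη⟩, fun l => ?_⟩
    show η l = ξ (sc u l) - ξ l ^ p
    rw [hη, ha]
    ring
  choose δ hδ' using hδ
  -- a section of `δ`
  have hsec : ∀ η : kMul β, ∃ ξ₀ : ZZ u β, (∃ ξ, δ ξ = η) → δ ξ₀ = η := by
    intro η
    by_cases h : ∃ ξ, δ ξ = η
    · exact ⟨h.choose, fun _ => h.choose_spec⟩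
    · exact ⟨0, fun h' => absurd h' h⟩
  choose s hs using hsec
  have hdiff : ∀ ξ : ZZ u β, (ξ.1 - (s (δ ξ)).1) ∈ S0 := by
    intro ξ l
    have h1 := hδ' ξ l
    have h2 := hδ' (s (δ ξ)) l
    rw [hs (δ ξ) ⟨ξ, rfl⟩] at h2
    rw [AddMonoidHom.sub_apply, AddMonoidHom.sub_apply, sub_pow_char]
    have := h1.symm.trans h2
    linear_combination -this
  have hinj1 : Function.Injective
      (fun ξ : ZZ u β => ((⟨ξ.1 - (s (δ ξ)).1, hdiff ξ⟩ : S0), δ ξ)) := by
    intro ξ ξ' h
    simp only [Prod.mk.injEq, Subtype.mk.injEq] at h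
    obtain ⟨h1, h2⟩ := h
    rw [h2] at h1
    exact Subtype.ext (sub_left_injective h1)
  have hZfin : Finite (ZZ u β) := Finite.of_injective _ hinj1
  have hZcard : Nat.card (ZZ u β) ≤ Nat.card S0 * Nat.card (kMul β) := by
    rw [← Nat.card_prod]
    exact Nat.card_le_card_of_injective _ hinj1
  -- the quotient
  have hpre : ∀ q : (ZZ u β).map (QuotientAddGroup.mk' (kMul β)),
      ∃ ξ : ZZ u β, QuotientAddGroup.mk' (kMul β) ξ.1 = q.1 := by
    rintro ⟨q, ξ, hξ, rfl⟩
    exact ⟨⟨ξ, hξ⟩, rfl⟩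
  choose t ht using hpre
  have hQfin : Finite ((ZZ u β).map (QuotientAddGroup.mk' (kMul β))) := by
    have : Function.Injective t := by
      intro q q' h
      apply Subtype.ext
      rw [← ht q, ← ht q', h]
    exact Finite.of_injective _ this
  refine ⟨hQfin, ?_⟩
  have hinj2 : Function.Injective
      (fun x : ((ZZ u β).map (QuotientAddGroup.mk' (kMul β))) × (kMul β) =>
        (t x.1 + ⟨x.2.1, hNZ x.2.2⟩ : ZZ u β)) := by
    rintro ⟨q, n⟩ ⟨q', n'⟩ h
    have h0 : (t q).1 + n.1 = (t q').1 + n'.1 := congrArg Subtype.val h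
    have h1 := congrArg (QuotientAddGroup.mk' (kMul β)) h0
    have hn : QuotientAddGroup.mk' (kMul β) n.1 = 0 :=
      (QuotientAddGroup.eq_zero_iff _).mpr n.2
    have hn' : QuotientAddGroup.mk' (kMul β) n'.1 = 0 :=
      (QuotientAddGroup.eq_zero_iff _).mpr n'.2
    rw [map_add, map_add, hn, hn', add_zero, add_zero, ht, ht] at h1
    have hq : q = q' := Subtype.ext h1
    subst hq
    have hnn : n = n' := Subtype.ext (add_left_cancel h0)
    rw [hnn]
  have hcard2 : Nat.card ((ZZ u β).map (QuotientAddGroup.mk' (kMul β))) * Nat.card (kMul β) ≤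
      Nat.card (ZZ u β) := by
    rw [← Nat.card_prod]
    exact Nat.card_le_card_of_injective _ hinj2
  have hNpos : 0 < Nat.card (kMul β) := Nat.card_pos
  have := Nat.le_of_mul_le_mul_right (hcard2.trans hZcard) hNpos
  exact this.trans hS0card

end Fermat.Agent.S56.Flat.Red
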