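/-
S56 / FLAT / RED (architect helper15), task RED-M1 (helper167): pure 2 × 2 matrix algebra.
-/
import Fermat.Agent.S56.Flat.Red.Defs

set_option autoImplicit false

namespace Fermat.Agent.S56.Flat.Red

open Fermat.Agent.S55
open Fermat.Agent.S53 (M2)
open Fermat.Agent.S56.Flat.Irr (kb rs)
open Fermat.Agent.Lib.InertiaField (K0)

variable {k : Type} [Field k]

private theorem matUT_eqs (S S' : M2 k) (h : S * S' = 1) :
    S 0 0 * S' 0 0 + S 0 1 * S' 1 0 = 1 ∧ S 0 0 * S' 0 1 + S 0 1 * S' 1 1 = 0 ∧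
      S 1 0 * S' 0 0 + S 1 1 * S' 1 0 = 0 ∧ S 1 0 * S' 0 1 + S 1 1 * S' 1 1 = 1 := by
  have e := fun i j => congrFun (congrFun h i) j
  have e00 := e 0 0
  have e01 := e 0 1
  have e10 := e 1 0
  have e11 := e 1 1
  simp only [Matrix.mul_apply, Fin.sum_univ_two] at e00 e01 e10 e11
  refine ⟨by simpa using e00, by simpa using e01, by simpa using e10, by simpa using e11⟩

theorem conj_entries (S S' : M2 k) (h : S * S' = 1) (h10 : S 1 0 = 0) :
    S 0 0 ≠ 0 ∧ S 1 1 ≠ 0 ∧ S' 1 0 = 0 ∧ S' 0 0 = (S 0 0)⁻¹ ∧ S' 1 1 = (S 1 1)⁻¹ ∧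
      S' 0 1 = - S 0 1 / (S 0 0 * S 1 1) := by
  obtain ⟨e00, e01, e10, e11⟩ := matUT_eqs S S' h
  rw [h10, zero_mul, zero_add] at e10 e11
  have h11 : S 1 1 ≠ 0 := left_ne_zero_of_mul_eq_one e11
  have s10 : S' 1 0 = 0 := (mul_eq_zero.1 e10).resolve_left h11
  rw [s10, mul_zero, add_zero] at e00
  have h00 : S 0 0 ≠ 0 := left_ne_zero_of_mul_eq_one e00
  have s11 : S' 1 1 = (S 1 1)⁻¹ := eq_inv_of_mul_eq_one_right e11
  refine ⟨h00, h11, s10, eq_inv_of_mul_eq_one_right e00, s11, ?_⟩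
  rw [s11] at e01
  field_simp
  field_simp at e01
  linear_combination e01

theorem conj_10 (S S' M : M2 k) (h : S * S' = 1) (h10 : S 1 0 = 0) :
    (S * M * S') 1 0 = S 1 1 / S 0 0 * M 1 0 := by
  obtain ⟨h00, h11, s10, s00, s11, s01⟩ := conj_entries S S' h h10
  simp only [Matrix.mul_apply, Fin.sum_univ_two]
  rw [h10, s10, s00]
  field_simp
  ring

theorem conj_fil0 (S S' M : M2 k) (h : S * S' = 1) (h10 : S 1 0 = 0) (hM : M 1 0 = 0) :
    (S * M * S') 0 0 = M 0 0 ∧ (S * M * S') 1 1 = M 1 1 ∧ (S * M * S') 1 0 = 0 ∧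
      (S * M * S') 0 1 = (S 0 0 * M 0 1 + S 0 1 * (M 1 1 - M 0 0)) / S 1 1 := by
  obtain ⟨h00, h11, s10, s00, s11, s01⟩ := conj_entries S S' h h10
  refine ⟨?_, ?_, ?_, ?_⟩
  · simp only [Matrix.mul_apply, Fin.sum_univ_two]
    rw [s10, s00, hM]
    field_simp
    ring
  · simp only [Matrix.mul_apply, Fin.sum_univ_two]
    rw [h10, s11, s01, hM]
    field_simp
    ring
  · rw [conj_10 S S' M h h10, hM, mul_zero]
  · simp only [Matrix.mul_apply, Fin.sum_univ_two]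
    rw [s11, s01, hM]
    field_simp
    ring
end Fermat.Agent.S56.Flat.Red
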