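/-
S56 / FLAT / RED (architect helper15), task RED-K2 (helper147): formal properties of `Peu`
(products, inverses, coboundaries).  Self-contained (the few facts on `ζ ^ a.val` and `om` which are
needed are proved privately).
-/
import Fermat.Agent.S56.Flat.Red.Defs
import Fermat.Agent.S56.Flat.Irr.Res

set_option autoImplicit false

namespace Fermat.Agent.S56.Flat.Red

open Fermat.Agent.S55
open Fermat.Agent.S53 (M2)
open Fermat.Agent.S56.Flat.Irr (kb rs)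
open Fermat.Agent.Lib.InertiaField (K0)

variable {A : ValuationSubring Qb} {p : ℕ} [Fact p.Prime] {ζ : Qb}

private theorem KumAlg_pow_natCast_val (hζ : ζ ^ p = 1) (n : ℕ) :
    ζ ^ ((n : ZMod p)).val = ζ ^ n := by
  rw [ZMod.val_natCast]
  conv_rhs => rw [← Nat.mod_add_div n p, pow_add, pow_mul, hζ, one_pow, mul_one]

private theorem KumAlg_pow_val_add (hζ : ζ ^ p = 1) (a b : ZMod p) :
    ζ ^ (a + b).val = ζ ^ a.val * ζ ^ b.val := by
  rw [← pow_add, ← KumAlg_pow_natCast_val hζ (a.val + b.val), Nat.cast_add, ZMod.natCast_zmod_val,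
    ZMod.natCast_zmod_val]

private theorem KumAlg_pow_val_mul (hζ : ζ ^ p = 1) (a b : ZMod p) :
    ζ ^ (a * b).val = (ζ ^ a.val) ^ b.val := by
  rw [← pow_mul, ← KumAlg_pow_natCast_val hζ (a.val * b.val), Nat.cast_mul, ZMod.natCast_zmod_val,
    ZMod.natCast_zmod_val]

private theorem KumAlg_pow_val_neg (hζ : ζ ^ p = 1) (a : ZMod p) :
    ζ ^ (-a).val = (ζ ^ a.val)⁻¹ := by
  apply eq_inv_of_mul_eq_one_left
  rw [← KumAlg_pow_val_add hζ, neg_add_cancel, ZMod.val_zero, pow_zero]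

private theorem KumAlg_om_spec (hζ : IsPrimitiveRoot ζ p) (σ : GQ) :
    σ ζ = ζ ^ (om p ζ σ).val := by
  have hex : ∃ a : ZMod p, σ ζ = ζ ^ a.val := by
    have h1 : (σ ζ) ^ p = 1 := by rw [← map_pow, hζ.pow_eq_one, map_one]
    haveI : NeZero p := ⟨(Fact.out : p.Prime).ne_zero⟩
    obtain ⟨i, -, hi2⟩ := hζ.eq_pow_of_pow_eq_one h1
    exact ⟨(i : ZMod p), by rw [KumAlg_pow_natCast_val hζ.pow_eq_one, hi2]⟩
  exact Classical.epsilon_spec hex

omit [Fact p.Prime] in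
private theorem KumAlg_rs_p (h : Std A p ζ) : rs A (p : Qb) = 0 :=
  (Irr.rs_eq_zero_iff (natCast_mem A p)).2 h.lies

/-! ## RED-K2: formal properties of `Peu` (products, inverses, coboundaries) -/

theorem Peu.congr {e e' : GQ → ZMod p} {x : kb A} (h : Peu A p ζ e x)
    (he : ∀ σ ∈ Iner A, e σ = e' σ) : Peu A p ζ e' x := by
  obtain ⟨α, t, ⟨hα0, hα⟩, ht, hp, hx⟩ := h
  exact ⟨α, t, ⟨hα0, fun σ hσ => by rw [← he σ hσ]; exact hα σ hσ⟩, ht, hp, hx⟩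

/-- `α α'`, `(1 + p t)(1 + p t') = 1 + p (t + t' + p t t')`. -/
theorem Peu.add (h : Std A p ζ) {e e' : GQ → ZMod p} {x x' : kb A} (h₁ : Peu A p ζ e x)
    (h₂ : Peu A p ζ e' x') : Peu A p ζ (fun σ => e σ + e' σ) (x + x') := by
  obtain ⟨α, t, ⟨hα0, hα⟩, ht, hp, hx⟩ := h₁
  obtain ⟨α', t', ⟨hα0', hα'⟩, ht', hp', hx'⟩ := h₂
  have hpA : (p : Qb) ∈ A := natCast_mem A p
  refine ⟨α * α', t + t' + (p : Qb) * (t * t'), ⟨mul_ne_zero hα0 hα0', fun σ hσ => ?_⟩,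
    add_mem (add_mem ht ht') (mul_mem hpA (mul_mem ht ht')), ?_, ?_⟩
  · rw [map_mul, hα σ hσ, hα' σ hσ, KumAlg_pow_val_add h.prim.pow_eq_one]
    ring
  · rw [mul_pow, hp, hp']
    ring
  · rw [Irr.rs_add (add_mem ht ht') (mul_mem hpA (mul_mem ht ht')), Irr.rs_add ht ht',
      Irr.rs_mul hpA (mul_mem ht ht'), KumAlg_rs_p h, zero_mul, add_zero, hx, hx']

/-- `α⁻¹`, `(1 + p t)⁻¹ = 1 + p (- t / (1 + p t))`. -/
theorem Peu.neg (h : Std A p ζ) {e : GQ → ZMod p} {x : kb A} (h₁ : Peu A p ζ e x) :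
    Peu A p ζ (fun σ => - e σ) (-x) := by
  obtain ⟨α, t, ⟨hα0, hα⟩, ht, hp, hx⟩ := h₁
  have hpA : (p : Qb) ∈ A := natCast_mem A p
  have hne : 1 + (p : Qb) * t ≠ 0 := by
    rw [← hp]
    exact pow_ne_zero _ hα0
  have hlt : A.valuation ((p : Qb) * t) < 1 := by
    rw [map_mul]
    have h1 : A.valuation (p : Qb) < 1 := A.mem_nonunits_iff.1 h.lies
    have h2 : A.valuation t ≤ 1 := (A.valuation_le_one_iff t).2 ht
    exact mul_lt_one_of_lt_of_le h1 h2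
  have hval : A.valuation (1 + (p : Qb) * t) = 1 := Valuation.map_one_add_of_lt _ hlt
  have hinvA : (1 + (p : Qb) * t)⁻¹ ∈ A := by
    rw [← A.valuation_le_one_iff, map_inv₀, hval, inv_one]
  refine ⟨α⁻¹, (-t) * (1 + (p : Qb) * t)⁻¹, ⟨inv_ne_zero hα0, fun σ hσ => ?_⟩,
    mul_mem (neg_mem ht) hinvA, ?_, ?_⟩
  · rw [map_inv₀, hα σ hσ, KumAlg_pow_val_neg h.prim.pow_eq_one, mul_inv]
  · rw [inv_pow, hp]
    field_simp
    ring
  · rw [Irr.rs_mul (neg_mem ht) hinvA, Irr.rs_neg ht, Irr.rs_inv hval,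
      Irr.rs_add A.one_mem (mul_mem hpA ht), Irr.rs_one, Irr.rs_mul hpA ht, KumAlg_rs_p h, zero_mul,
      add_zero, inv_one, mul_one, hx]

/-- `α = ζ ^ m`. -/
theorem Peu.cob (h : Std A p ζ) (m : ZMod p) :
    Peu A p ζ (fun σ => (om p ζ σ - 1) * m) 0 := by
  have hζ := h.prim.pow_eq_one
  have hζ0 : ζ ≠ 0 := h.prim.ne_zero (Fact.out : p.Prime).ne_zero
  refine ⟨ζ ^ m.val, 0, ⟨pow_ne_zero _ hζ0, fun σ _ => ?_⟩, A.zero_mem, ?_, Irr.rs_zero⟩
  · rw [map_pow, KumAlg_om_spec h.prim σ, ← KumAlg_pow_val_mul hζ, ← KumAlg_pow_val_add hζ]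
    congr 2
    ring
  · rw [← pow_mul, mul_comm, pow_mul, hζ, one_pow, mul_zero, add_zero]

theorem Peu.zero (h : Std A p ζ) : Peu A p ζ (fun _ => 0) 0 := by
  refine ⟨1, 0, ⟨one_ne_zero, fun σ _ => ?_⟩, A.zero_mem, ?_, Irr.rs_zero⟩
  · rw [map_one, ZMod.val_zero, pow_zero, one_mul]
  · rw [one_pow, mul_zero, add_zero]

end Fermat.Agent.S56.Flat.Red
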