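/-
S56 / FLAT / RED (architect helper15), task RED-K1: the residue invariant of a "peu ramifié" Kummer
cocycle is well defined.
-/
import Fermat.Agent.S56.Flat.Red.Defs
import Fermat.Agent.S56.Flat.Irr.Res

set_option autoImplicit false

namespace Fermat.Agent.S56.Flat.Red

open Fermat.Agent.S55
open Fermat.Agent.S53 (M2)
open Fermat.Agent.S56.Flat.Irr (kb rs)
open Fermat.Agent.Lib.InertiaField (K0)

variable {A : ValuationSubring Qb} {p : ℕ} [Fact p.Prime] {ζ : Qb}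

/-! ## RED-K1: the residue invariant is well defined

`γ = α' / α` is fixed by `I`, so `γ ∈ K0`; `γ ^ p = (1 + p t') / (1 + p t) ≡ 1`, so `γ ≡ 1 mod 𝔪`, so
`γ = 1 + p δ`, `δ ∈ A` (`Lib.InertiaField.div_mem`), `γ ^ p ≡ 1 mod p ^ 2`, `t' ≡ t mod p`. -/

omit [Fact p.Prime] in
/-- `1 + p t` is a unit of `A`. -/
theorem KumUniq_val_one_add (hA : A.LiesOverPrime p) {t : Qb} (ht : t ∈ A) :
    A.valuation (1 + (p : Qb) * t) = 1 := by
  have h1 : A.valuation ((p : Qb) * t) < 1 := by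
    rw [← ValuationSubring.mem_nonunits_iff]
    exact Fermat.Agent.Lib.InertiaField.Unram.mul_mem_nonunits hA ht
  have := Valuation.map_add_eq_of_lt_left A.valuation (x := 1) (y := (p : Qb) * t)
    (by rw [map_one]; exact h1)
  rw [this, map_one]

theorem Peu.unique (h : Std A p ζ) {e : GQ → ZMod p} {x x' : kb A} (h₁ : Peu A p ζ e x)
    (h₂ : Peu A p ζ e x') : x = x' := by
  have hp : p.Prime := Fact.out
  have hA := h.lies
  obtain ⟨α, t, ⟨hα0, hα⟩, ht, hαp, rfl⟩ := h₁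
  obtain ⟨α', t', ⟨hα'0, hα'⟩, ht', hαp', rfl⟩ := h₂
  have hζ0 : ζ ≠ 0 := h.prim.ne_zero hp.ne_zero
  have hpQ : (p : Qb) ≠ 0 := Nat.cast_ne_zero.2 hp.ne_zero
  set γ : Qb := α' / α with hγ
  -- `γ` lies in the inertia field
  have hγK : γ ∈ K0 A := by
    rw [Fermat.Agent.Lib.InertiaField.mem_K0_iff]
    intro σ hσ
    rw [hγ, map_div₀, hα σ hσ, hα' σ hσ, mul_div_mul_left _ _ (pow_ne_zero _ hζ0)]
  have hu := KumUniq_val_one_add hA ht
  have hu' := KumUniq_val_one_add hA ht'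
  have hu0 : 1 + (p : Qb) * t ≠ 0 := by
    intro h0
    rw [h0, map_zero] at hu
    exact zero_ne_one hu
  have hγp : γ ^ p * (1 + (p : Qb) * t) = 1 + (p : Qb) * t' := by
    rw [hγ, div_pow, hαp, hαp', div_mul_cancel₀ _ hu0]
  have hγv : A.valuation γ = 1 := by
    have h1 : A.valuation γ ^ p = 1 := by
      have := congrArg A.valuation hγp
      rwa [map_mul, map_pow, hu, hu', mul_one] at this
    exact (pow_eq_one_iff_of_nonneg zero_le hp.ne_zero).1 h1
  have hγA : γ ∈ A := (A.valuation_le_one_iff γ).1 hγv.le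
  have hpA : (p : Qb) ∈ A := natCast_mem A p
  have hrp : rs A (p : Qb) = 0 := (Irr.rs_eq_zero_iff hpA).2 hA
  have hr1 : ∀ {s : Qb}, s ∈ A → rs A (1 + (p : Qb) * s) = 1 := by
    intro s hs
    rw [Irr.rs_add A.one_mem (mul_mem hpA hs), Irr.rs_mul hpA hs, hrp, zero_mul, add_zero,
      Irr.rs_one]
  -- `γ ≡ 1`
  have hγ1 : rs A γ = 1 := by
    have h1 : rs A γ ^ p = 1 := by
      have := congrArg (rs A) hγp
      rwa [Irr.rs_mul (pow_mem hγA p) (add_mem A.one_mem (mul_mem hpA ht)), hr1 ht, hr1 ht',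
        mul_one, Irr.rs_pow hγA] at this
    have : CharP (kb A) p := Irr.charP_kb hp hA
    have h2 : (rs A γ - 1) ^ p = 0 := by
      rw [sub_pow_char, one_pow, h1, sub_self]
    exact sub_eq_zero.1 (pow_eq_zero_iff hp.ne_zero |>.1 h2)
  have hγn : γ - 1 ∈ A.nonunits := by
    rw [← Irr.rs_eq_iff hγA A.one_mem, hγ1, Irr.rs_one]
  have hδ : (γ - 1) / p ∈ A :=
    Fermat.Agent.Lib.InertiaField.div_mem A p hp hA (sub_mem hγK (one_mem _)) hγn
  -- `γ ^ p ≡ 1 mod p ^ 2`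
  have hdvd : ((p : ℕ) : A) ∣ (⟨γ, hγA⟩ : A) - 1 := by
    refine ⟨⟨(γ - 1) / p, hδ⟩, Subtype.ext ?_⟩
    show γ - 1 = (p : Qb) * ((γ - 1) / p)
    rw [mul_div_cancel₀ _ hpQ]
  obtain ⟨⟨w, hw⟩, hw'⟩ := dvd_sub_pow_of_dvd_sub hdvd 1
  have hw2 : γ ^ p - 1 = (p : Qb) ^ 2 * w := by
    have := congrArg (Subtype.val) hw'
    simpa using this
  have key : t' - t = (p : Qb) * (w * (1 + (p : Qb) * t)) := by
    apply mul_left_cancel₀ hpQ
    linear_combination (-1 : Qb) * hγp + (1 + (p : Qb) * t) * hw2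
  symm
  rw [Irr.rs_eq_iff ht' ht, key]
  exact Fermat.Agent.Lib.InertiaField.Unram.mul_mem_nonunits hA
    (mul_mem hw (add_mem A.one_mem (mul_mem hpA ht)))

end Fermat.Agent.S56.Flat.Red
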