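/-
S56 / FLAT / RED (architect helper15), task RED-XI: the invariant `xi z : Lam p k → kb A`
(formal consequences of K1, K2).  Final home: `Red/Xi.lean` (swap the two imports when K1, K2 land).
-/
import Fermat.Agent.S56.Flat.Red.KumAlg
import Fermat.Agent.S56.Flat.Red.KumUniq

set_option autoImplicit false

namespace Fermat.Agent.S56.Flat.Red

open Fermat.Agent.S55
open Fermat.Agent.S53 (M2)
open Fermat.Agent.S56.Flat.Irr (kb rs)
open Fermat.Agent.Lib.InertiaField (K0)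

variable {A : ValuationSubring Qb} {p : ℕ} [Fact p.Prime] {ζ : Qb}
variable {k : Type} [Field k] [Algebra (ZMod p) k]

/-! ## RED-XI: the invariant `xi z : Lam p k → kb A` (formal consequences of K1, K2) -/

theorem xi_spec {z : GQ → k} (hz : PeuK A p ζ z) (l : Lam p k) :
    Peu A p ζ (fun σ => l (z σ)) (xi A p ζ z l) :=
  Classical.epsilon_spec (hz l)

theorem xi_eq (h : Std A p ζ) {z : GQ → k} {l : Lam p k} {x : kb A}
    (hx : Peu A p ζ (fun σ => l (z σ)) x) : xi A p ζ z l = x :=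
  Peu.unique h (Classical.epsilon_spec (p := fun x => Peu A p ζ (fun σ => l (z σ)) x) ⟨x, hx⟩) hx

theorem PeuK.congr {z z' : GQ → k} (hz : PeuK A p ζ z) (h : ∀ σ ∈ Iner A, z σ = z' σ) :
    PeuK A p ζ z' := fun l =>
  (hz l).imp fun _ hx => hx.congr fun σ hσ => congrArg l (h σ hσ)

theorem xi_congr (h : Std A p ζ) {z z' : GQ → k} (hz : PeuK A p ζ z)
    (hzz : ∀ σ ∈ Iner A, z σ = z' σ) (l : Lam p k) : xi A p ζ z l = xi A p ζ z' l :=
  (xi_eq h ((xi_spec hz l).congr fun σ hσ => congrArg l (hzz σ hσ))).symm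

theorem xi_add_lam (h : Std A p ζ) {z : GQ → k} (hz : PeuK A p ζ z) (l l' : Lam p k) :
    xi A p ζ z (l + l') = xi A p ζ z l + xi A p ζ z l' :=
  xi_eq h ((Peu.add h (xi_spec hz l) (xi_spec hz l')).congr fun σ _ =>
    (LinearMap.add_apply l l' (z σ)).symm)

theorem xi_peu_add (h : Std A p ζ) {z z' : GQ → k} (hz : PeuK A p ζ z) (hz' : PeuK A p ζ z')
    (l : Lam p k) :
    Peu A p ζ (fun σ => l (z σ + z' σ)) (xi A p ζ z l + xi A p ζ z' l) :=
  (Peu.add h (xi_spec hz l) (xi_spec hz' l)).congr fun σ _ => (map_add l (z σ) (z' σ)).symm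

theorem PeuK.add (h : Std A p ζ) {z z' : GQ → k} (hz : PeuK A p ζ z) (hz' : PeuK A p ζ z') :
    PeuK A p ζ (fun σ => z σ + z' σ) := fun l => ⟨_, xi_peu_add h hz hz' l⟩

theorem xi_add (h : Std A p ζ) {z z' : GQ → k} (hz : PeuK A p ζ z) (hz' : PeuK A p ζ z')
    (l : Lam p k) : xi A p ζ (fun σ => z σ + z' σ) l = xi A p ζ z l + xi A p ζ z' l :=
  xi_eq h (xi_peu_add h hz hz' l)

theorem xi_peu_neg (h : Std A p ζ) {z : GQ → k} (hz : PeuK A p ζ z) (l : Lam p k) :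
    Peu A p ζ (fun σ => l (- z σ)) (- xi A p ζ z l) :=
  (Peu.neg h (xi_spec hz l)).congr fun σ _ => (map_neg l (z σ)).symm

theorem PeuK.neg (h : Std A p ζ) {z : GQ → k} (hz : PeuK A p ζ z) :
    PeuK A p ζ (fun σ => - z σ) := fun l => ⟨_, xi_peu_neg h hz l⟩

theorem xi_neg (h : Std A p ζ) {z : GQ → k} (hz : PeuK A p ζ z) (l : Lam p k) :
    xi A p ζ (fun σ => - z σ) l = - xi A p ζ z l :=
  xi_eq h (xi_peu_neg h hz l)

theorem PeuK.smul {z : GQ → k} (hz : PeuK A p ζ z) (x : k) :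
    PeuK A p ζ (fun σ => x * z σ) := fun l => hz (sc x l)

theorem xi_smul (z : GQ → k) (x : k) (l : Lam p k) :
    xi A p ζ (fun σ => x * z σ) l = xi A p ζ z (sc x l) := rfl

theorem xi_peu_cob (h : Std A p ζ) (y : k) (l : Lam p k) :
    Peu A p ζ (fun σ => l ((algebraMap (ZMod p) k (om p ζ σ) - 1) * y)) 0 :=
  (Peu.cob h (l y)).congr fun σ _ => by
    show (om p ζ σ - 1) * l y = l ((algebraMap (ZMod p) k (om p ζ σ) - 1) * y)
    rw [← map_one (algebraMap (ZMod p) k), ← map_sub, ← Algebra.smul_def, map_smul, smul_eq_mul]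

theorem PeuK.cob (h : Std A p ζ) (y : k) :
    PeuK A p ζ (fun σ => (algebraMap (ZMod p) k (om p ζ σ) - 1) * y) :=
  fun l => ⟨0, xi_peu_cob h y l⟩

theorem xi_cob (h : Std A p ζ) (y : k) (l : Lam p k) :
    xi A p ζ (fun σ => (algebraMap (ZMod p) k (om p ζ σ) - 1) * y) l = 0 :=
  xi_eq h (xi_peu_cob h y l)

theorem PeuK.zero (h : Std A p ζ) : PeuK A p ζ (fun _ => (0 : k)) :=
  fun l => ⟨0, (Peu.zero h).congr fun _ _ => (map_zero l).symm⟩

end Fermat.Agent.S56.Flat.Red
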