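/-
S56 / FLAT / RED (architect helper15), task RED-K3 (proofs: helper195): a peu ramifié cocycle with
residue invariant `0` is a coboundary.
-/
import Fermat.Agent.S56.Flat.Red.Defs
import Fermat.Agent.S56.Flat.Red.Om
import Fermat.Agent.S56.Flat.Irr.Res
import Fermat.Agent.S56.Flat.Depth.OrbitVal

set_option autoImplicit false

namespace Fermat.Agent.S56.Flat.Red

open Fermat.Agent.S55
open Fermat.Agent.S53 (M2)
open Fermat.Agent.S56.Flat.Irr (kb rs)
open Fermat.Agent.Lib.InertiaField (K0)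

variable {A : ValuationSubring Qb} {p : ℕ} [Fact p.Prime] {ζ : Qb}

/-! ## RED-K3: a peu ramifié cocycle with residue invariant `0` is a coboundary -/

/-- `r = val (ζ - 1)` satisfies `r ^ (p - 1) = val p`, `0 < r < 1`. -/
private theorem kumInj_r (h : Std A p ζ) :
    A.valuation (ζ - 1) ^ (p - 1) = A.valuation (p : Qb) ∧ 0 < A.valuation (ζ - 1) ∧
      A.valuation (ζ - 1) < 1 := by
  have hp : p.Prime := Fact.out
  have h1 : ζ ≠ 1 := h.prim.ne_one hp.one_lt
  have h2 := Flat.val_zeta_sub_one hp h.lies ζ h.prim.pow_eq_one h1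
  have hlt : A.valuation (p : Qb) < 1 := (A.mem_nonunits_iff).1 h.lies
  refine ⟨h2, zero_lt_iff.2 ((Valuation.ne_zero_iff _).2 (sub_ne_zero.2 h1)), ?_⟩
  by_contra hc
  rw [not_lt] at hc
  exact absurd (h2 ▸ one_le_pow₀ hc) (not_le.2 hlt)

/-- `u ∈ K0`, `u ≡ 1 mod p ^ 2`, `α ^ p = u`: some `α ζ ^ j` lies in `K0`.
PROOF A (valuations): `∏_μ (1 - μ α) = 1 - u`, the differences of the factors have valuation
`r = val (ζ - 1)`, `r ^ (p - 1) = val p`; so exactly one factor has valuation `< r`; inertia preserves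
the valuation and permutes the factors, so it fixes that one. -/
theorem Std.exists_mul_zeta_pow_mem_K0 (h : Std A p ζ) {α t : Qb} (ht : t ∈ A.nonunits)
    (hα : α ^ p = 1 + (p : Qb) * t) (hfix : ∀ σ ∈ Iner A, σ (α ^ p) = α ^ p) :
    ∃ j : ZMod p, α * ζ ^ j.val ∈ K0 A := by
  have hp : p.Prime := Fact.out
  have hp3 : 3 ≤ p := by
    have := hp.two_le
    have := h.odd
    omega
  obtain ⟨hr, hr0, hr1⟩ := kumInj_r h
  set r := A.valuation (ζ - 1) with hrdef
  have hp0 : (p : Qb) ≠ 0 := Nat.cast_ne_zero.2 hp.ne_zero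
  -- `t` lies in the inertia field
  have htK : t ∈ K0 A := by
    have hu : α ^ p ∈ K0 A := (Lib.InertiaField.mem_K0_iff A _).2 hfix
    have e : t = (α ^ p - 1) / (p : Qb) := by
      rw [hα]
      field_simp
      ring
    rw [e]
    exact div_mem (sub_mem hu (one_mem _)) (natCast_mem _ p)
  have htp : A.valuation t ≤ A.valuation (p : Qb) := by
    have h1 := Lib.InertiaField.div_mem A p hp h.lies htK ht
    rw [← A.valuation_le_one_iff, map_div₀] at h1
    exact (div_le_one₀ (zero_lt_iff.2 ((Valuation.ne_zero_iff _).2 hp0))).1 h1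
  -- the valuation of `1 - u`
  have hu1 : A.valuation (1 - α ^ p) < r ^ p := by
    have e : 1 - α ^ p = -((p : Qb) * t) := by rw [hα]; ring
    rw [e, Valuation.map_neg, map_mul]
    calc A.valuation (p : Qb) * A.valuation t ≤ A.valuation (p : Qb) * A.valuation (p : Qb) :=
          mul_le_mul_right htp _
      _ = r ^ (2 * (p - 1)) := by rw [← hr, ← pow_add]; congr 1; omega
      _ < r ^ p := pow_lt_pow_right_of_lt_one₀ hr0 hr1 (by omega)
  -- one factor is small
  obtain ⟨μ, hμ, hμr⟩ : ∃ μ : Qb, μ ^ p = 1 ∧ A.valuation (1 - μ * α) < r := by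
    by_contra hcon
    push Not at hcon
    have h1 := h.prim.pow_sub_pow_eq_prod_sub_mul (1 : Qb) α hp.pos
    rw [one_pow] at h1
    rw [h1, map_prod] at hu1
    have h2 : r ^ (Polynomial.nthRootsFinset p (1 : Qb)).card ≤
        ∏ μ ∈ Polynomial.nthRootsFinset p (1 : Qb), A.valuation (1 - μ * α) :=
      Finset.pow_card_le_prod _ _ _ fun μ hμ =>
        hcon μ ((Polynomial.mem_nthRootsFinset hp.pos _).1 hμ)
    rw [h.prim.card_nthRootsFinset] at h2
    exact absurd h2 (not_le.2 hu1)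
  obtain ⟨i, hi, hiμ⟩ := h.prim.eq_pow_of_pow_eq_one hμ
  refine ⟨(i : ZMod p), ?_⟩
  rw [ZMod.val_natCast_of_lt hi, hiμ, mul_comm]
  -- `γ = μ α` is fixed by the inertia group
  set γ := μ * α with hγ
  have hγp : γ ^ p = α ^ p := by rw [hγ, mul_pow, hμ, one_mul]
  have hγ1 : A.valuation γ = 1 := by
    have e : γ = 1 + -(1 - γ) := by ring
    rw [e]
    exact Valuation.map_one_add_of_lt _ (by rw [Valuation.map_neg]; exact hμr.trans hr1)
  have hγ0 : γ ≠ 0 := by
    rintro h0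
    rw [h0, map_zero] at hγ1
    exact zero_ne_one hγ1
  rw [Lib.InertiaField.mem_K0_iff]
  intro σ hσ
  by_contra hne
  have hη : (σ γ / γ) ^ p = 1 := by
    rw [div_pow, ← map_pow, hγp, hfix σ hσ, div_self]
    rw [← hγp]
    exact pow_ne_zero _ hγ0
  have hη1 : σ γ / γ ≠ 1 := fun h1 => hne ((div_eq_one_iff_eq hγ0).1 h1)
  have h3 : A.valuation (σ γ / γ - 1) = r :=
    Irr.val_eq_of_pow_eq (n := p - 1) (by omega)
      ((Flat.val_zeta_sub_one hp h.lies _ hη hη1).trans hr.symm)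
  have h4 : A.valuation (σ γ - γ) = r := by
    have e : σ γ - γ = γ * (σ γ / γ - 1) := by field_simp
    rw [e, map_mul, hγ1, one_mul, h3]
  have h5 : A.valuation (σ γ - γ) < r := by
    have e : σ γ - γ = (1 - γ) - σ (1 - γ) := by rw [map_sub, map_one]; ring
    rw [e]
    refine Valuation.map_sub_lt _ hμr ?_
    rw [Irr.val_apply (Lib.InertiaField.inertia_le_decomposition A hσ)]
    exact hμr
  exact absurd h4 h5.ne

theorem Peu.eq_cob (h : Std A p ζ) {e : GQ → ZMod p} (h₁ : Peu A p ζ e 0) :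
    ∃ m : ZMod p, ∀ σ ∈ Iner A, e σ = (om p ζ σ - 1) * m := by
  obtain ⟨α, t, ⟨hα0, hK⟩, htA, hα, hrs⟩ := h₁
  have ht : t ∈ A.nonunits := (Irr.rs_eq_zero_iff htA).1 hrs
  have hfix : ∀ σ ∈ Iner A, σ (α ^ p) = α ^ p := by
    intro σ hσ
    rw [map_pow, hK σ hσ, mul_pow, ← pow_mul, mul_comm (e σ).val, pow_mul, h.prim.pow_eq_one,
      one_pow, one_mul]
  obtain ⟨j, hj⟩ := h.exists_mul_zeta_pow_mem_K0 ht hα hfix
  refine ⟨-j, fun σ hσ => ?_⟩
  have h1 := (Lib.InertiaField.mem_K0_iff A _).1 hj σ hσ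
  rw [map_mul, hK σ hσ, apply_zeta_pow h.prim] at h1
  have h2 : ζ ^ (e σ + om p ζ σ * j).val = ζ ^ j.val := by
    rw [zeta_pow_val_add h.prim]
    apply mul_left_cancel₀ hα0
    rw [← h1]
    ring
  have h3 := zeta_pow_val_inj h.prim h2
  linear_combination h3

end Fermat.Agent.S56.Flat.Red
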