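/-
S56 / FLAT / RED (architect helper15), task RED-OM2 (owner helper192): the cyclotomic character is not
trivial on inertia (`p` odd); an inertia element fixing `ζ` fixes every `ϖ` with `ϖ ^ (p - 1) = p`.
-/
import Fermat.Agent.S56.Flat.Red.Defs
import Fermat.Agent.S56.Flat.Depth.OrbitVal

set_option autoImplicit false

namespace Fermat.Agent.S56.Flat.Red

open Fermat.Agent.S55
open Fermat.Agent.S53 (M2)
open Fermat.Agent.S56.Flat.Irr (kb rs)
open Fermat.Agent.Lib.InertiaField (K0)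

variable {A : ValuationSubring Qb} {p : ℕ} [Fact p.Prime] {ζ : Qb}

/-! ## RED-OM2: the cyclotomic character is not trivial on inertia (`p` odd); `K0(ϖ) ⊆ K0(ζ)` -/

/-- local copy of the defining property of `om` (keeps this file independent of `Red/Om.lean`). -/
private theorem omNe_om_spec (hζ : IsPrimitiveRoot ζ p) (σ : GQ) : σ ζ = ζ ^ (om p ζ σ).val := by
  have hp : p.Prime := Fact.out
  have hex : ∃ a : ZMod p, σ ζ = ζ ^ a.val := by
    have h1 : (σ ζ) ^ p = 1 := by rw [← map_pow, hζ.pow_eq_one, map_one]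
    obtain ⟨i, hi, hi'⟩ := hζ.eq_pow_of_pow_eq_one h1
    refine ⟨(i : ZMod p), ?_⟩
    rw [ZMod.val_natCast, Nat.mod_eq_of_lt hi, hi']
  exact Classical.epsilon_spec hex

omit [Fact p.Prime] in
private theorem omNe_val_p_lt (h : Std A p ζ) : A.valuation (p : Qb) < 1 :=
  (ValuationSubring.mem_nonunits_iff A).1 h.lies

private theorem omNe_val_p_ne (_h : Std A p ζ) : A.valuation (p : Qb) ≠ 0 := by
  have hp : p.Prime := Fact.out
  exact (map_ne_zero _).2 (Nat.cast_ne_zero.2 hp.ne_zero)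

private theorem omNe_zeta_ne_one (h : Std A p ζ) : ζ ≠ 1 := by
  have hp : p.Prime := Fact.out
  exact h.prim.ne_one hp.one_lt

/-- `ζ ∉ K0`: otherwise `ζ - 1 = p ^ j u` (`exists_zpow_mul_unit`) and
`val (ζ - 1) ^ (p - 1) = val p` (`Flat.val_zeta_sub_one`, Depth/OrbitVal.lean) gives `j (p - 1) = 1`. -/
theorem Std.exists_om_ne_one (h : Std A p ζ) : ∃ τ ∈ Iner A, om p ζ τ ≠ 1 := by
  have hp : p.Prime := Fact.out
  by_contra hcon
  push Not at hcon
  have hfix : ∀ τ ∈ A.inertiaSubgroupIn ℚ, τ ζ = ζ := by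
    intro τ hτ
    have h1 := omNe_om_spec h.prim τ
    rw [hcon τ hτ] at h1
    have : Fact (1 < p) := ⟨hp.one_lt⟩
    rw [ZMod.val_one, pow_one] at h1
    exact h1
  have hK : ζ ∈ K0 A := (Fermat.Agent.Lib.InertiaField.mem_K0_iff A ζ).2 hfix
  have hK1 : ζ - 1 ∈ K0 A := sub_mem hK (one_mem _)
  have hne : ζ - 1 ≠ 0 := sub_ne_zero.2 (omNe_zeta_ne_one h)
  obtain ⟨k, u, -, hu, hu', hku⟩ :=
    Fermat.Agent.Lib.InertiaField.exists_zpow_mul_unit A p hp h.lies hK1 hne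
  have hvu : A.valuation u = 1 := by
    have h1 : A.valuation u ≤ 1 := (A.valuation_le_one_iff _).2 hu
    have h2 : A.valuation u⁻¹ ≤ 1 := (A.valuation_le_one_iff _).2 hu'
    have hu0 : u ≠ 0 := by
      rintro rfl
      rw [mul_zero] at hku
      exact hne hku
    have hv0 : A.valuation u ≠ 0 := (map_ne_zero _).2 hu0
    rw [map_inv₀] at h2
    have h3 : 1 ≤ A.valuation u := by
      have := (inv_le_one₀ (zero_lt_iff.2 hv0)).1 h2
      exact this
    exact le_antisymm h1 h3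
  have hv := Fermat.Agent.S56.Flat.val_zeta_sub_one hp h.lies ζ h.prim.pow_eq_one
    (omNe_zeta_ne_one h)
  rw [hku, map_mul, hvu, mul_one, map_zpow₀, ← zpow_natCast, ← zpow_mul] at hv
  have hv' : A.valuation (p : Qb) ^ (k * ((p - 1 : ℕ) : ℤ)) = A.valuation (p : Qb) ^ (1 : ℤ) := by
    rw [hv, zpow_one]
  have hk := (zpow_right_inj₀ (zero_lt_iff.2 (omNe_val_p_ne h)) (omNe_val_p_lt h).ne).1 hv'
  have hdvd : ((p - 1 : ℕ) : ℤ) ∣ 1 := ⟨k, by rw [mul_comm]; exact hk.symm⟩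
  have h1 : (p - 1 : ℕ) ∣ 1 := by exact_mod_cast hdvd
  have h2 : p - 1 = 1 := Nat.dvd_one.1 h1
  exact h.odd (by omega)

/-- `u = (ζ - 1) / ϖ` is a unit, `σ u ≡ u`, `σ (ζ - 1) = ζ - 1`, so the root of unity `σ ϖ / ϖ` of order
dividing `p - 1` is `≡ 1`, hence `= 1` (`rootOfUnity_eq_of_sub_mem`). -/
theorem Std.fix_unif (h : Std A p ζ) {ϖ : Qb} (hϖ : ϖ ^ (p - 1) = (p : Qb)) {σ : GQ}
    (hσ : σ ∈ Iner A) (hζ : σ ζ = ζ) : σ ϖ = ϖ := by
  have hp : p.Prime := Fact.out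
  have hp1 : p - 1 ≠ 0 := by have := hp.two_le; omega
  have hp0 : (p : Qb) ≠ 0 := Nat.cast_ne_zero.2 hp.ne_zero
  have hϖ0 : ϖ ≠ 0 := by
    rintro rfl
    rw [zero_pow hp1] at hϖ
    exact hp0 hϖ.symm
  have hσϖ0 : σ ϖ ≠ 0 := (map_ne_zero σ).2 hϖ0
  have hne : ζ - 1 ≠ 0 := sub_ne_zero.2 (omNe_zeta_ne_one h)
  set u : Qb := (ζ - 1) / ϖ with hu
  have hu0 : u ≠ 0 := div_ne_zero hne hϖ0
  have hvu : A.valuation u = 1 := by
    apply Fermat.Agent.Lib.InertiaField.Hensel.valuation_eq_one_of_pow A hp1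
    rw [hu, div_pow, hϖ, map_div₀, map_pow,
      Fermat.Agent.S56.Flat.val_zeta_sub_one hp h.lies ζ h.prim.pow_eq_one (omNe_zeta_ne_one h)]
    exact div_self (omNe_val_p_ne h)
  have huA : u ∈ A := (A.valuation_le_one_iff _).1 hvu.le
  have hcong := Fermat.Agent.Lib.InertiaField.apply_sub_mem_nonunits A hσ huA
  set μ : Qb := ϖ / σ ϖ with hμ
  have hμpow : μ ^ (p - 1) = 1 := by
    rw [hμ, div_pow, ← map_pow, hϖ, map_natCast]
    exact div_self hp0
  have hσu : σ u = u * μ := by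
    rw [hu, hμ, map_div₀, map_sub, hζ, map_one]
    field_simp
  have hmem : μ - 1 ∈ A.nonunits := by
    rw [hσu] at hcong
    have h1 : u * μ - u = u * (μ - 1) := by ring
    rw [h1, ValuationSubring.mem_nonunits_iff, map_mul, hvu, one_mul] at hcong
    exact (ValuationSubring.mem_nonunits_iff A).2 hcong
  have hnd : ¬ p ∣ p - 1 := by
    intro hd
    have := Nat.le_of_dvd (Nat.pos_of_ne_zero hp1) hd
    have := hp.two_le
    omega
  have hnd1 : ¬ p ∣ 1 := fun hd => hp.one_lt.ne' (Nat.dvd_one.1 hd)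
  have hμ1 : μ = 1 :=
    Fermat.Agent.Lib.InertiaField.rootOfUnity_eq_of_sub_mem A p hp h.lies hnd hnd1 hμpow
      (pow_one 1) hmem
  rw [hμ, div_eq_one_iff_eq hσϖ0] at hμ1
  exact hμ1.symm

end Fermat.Agent.S56.Flat.Red
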