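/-
S56 / FLAT / RED (architect helper15, proof helper40): task RED-XI0, final text of
`Fermat/Agent/S56/Flat/Red/XiZero.lean` (imports to be switched to the final files of
`Xi`, `KumInj`, `OmNe` when they are landed).
-/
import Fermat.Agent.S56.Flat.Red.Xi
import Fermat.Agent.S56.Flat.Red.KumInj
import Fermat.Agent.S56.Flat.Red.OmNe

set_option autoImplicit false

namespace Fermat.Agent.S56.Flat.Red

open Fermat.Agent.S55
open Fermat.Agent.S53 (M2)
open Fermat.Agent.S56.Flat.Irr (kb rs)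
open Fermat.Agent.Lib.InertiaField (K0)

variable {A : ValuationSubring Qb} {p : ℕ} [Fact p.Prime] {ζ : Qb}
variable {k : Type} [Field k] [Algebra (ZMod p) k]

/-! ## RED-XI0: `xi z = 0` implies that `z` is a coboundary

For every `l` K3 gives `m_l` with `l (z σ) = (ω σ - 1) m_l`.  Take `τ₀ ∈ I` with `ω τ₀ ≠ 1` (RED-OM2),
`y := z τ₀ / (ω τ₀ - 1)`; then `l y = m_l`, so `l (z σ - (ω σ - 1) y) = 0` for all `l`; linear forms
separate the points (`Module.forall_dual_apply_eq_zero_iff`). -/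

theorem eq_cob_of_xi_eq_zero (h : Std A p ζ) {z : GQ → k} (hz : PeuK A p ζ z)
    (h0 : ∀ l : Lam p k, xi A p ζ z l = 0) :
    ∃ y : k, ∀ σ ∈ Iner A, z σ = (algebraMap (ZMod p) k (om p ζ σ) - 1) * y := by
  obtain ⟨τ₀, hτ₀, hne⟩ := h.exists_om_ne_one
  have hc : om p ζ τ₀ - 1 ≠ 0 := sub_ne_zero.2 hne
  have hm : ∀ l : Lam p k, ∃ m : ZMod p, ∀ σ ∈ Iner A, l (z σ) = (om p ζ σ - 1) * m := by
    intro l
    have h1 := xi_spec hz l
    rw [h0 l] at h1
    exact Peu.eq_cob h h1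
  refine ⟨(om p ζ τ₀ - 1)⁻¹ • z τ₀, fun σ hσ => ?_⟩
  have e : (algebraMap (ZMod p) k (om p ζ σ) - 1) * ((om p ζ τ₀ - 1)⁻¹ • z τ₀) =
      (om p ζ σ - 1) • ((om p ζ τ₀ - 1)⁻¹ • z τ₀) := by
    rw [Algebra.smul_def (om p ζ σ - 1), map_sub, map_one]
  rw [e, ← sub_eq_zero, ← Module.forall_dual_apply_eq_zero_iff (ZMod p)]
  intro l
  obtain ⟨m, hm⟩ := hm l
  rw [map_sub, map_smul, map_smul, hm σ hσ, hm τ₀ hτ₀, smul_eq_mul, smul_eq_mul,
    inv_mul_cancel_left₀ hc, sub_self]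

end Fermat.Agent.S56.Flat.Red
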