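/-
S56 / FLAT / RED (architect helper15), task RED-B2 (owner helper186): proof of `cob_of_xi`.
-/
import Fermat.Agent.S56.Flat.Red.Defs
import Fermat.Agent.S56.Flat.Red.MatUT
import Fermat.Agent.S56.Flat.Red.Xi
import Fermat.Agent.S56.Flat.Red.XiZero

set_option autoImplicit false

namespace Fermat.Agent.S56.Flat.Red

open Fermat.Agent.S55
open Fermat.Agent.S53 (M2)
open Fermat.Agent.S56.Flat.Irr (kb rs)
open Fermat.Agent.Lib.InertiaField (K0)

variable {A : ValuationSubring Qb} {p : ℕ} [Fact p.Prime] {ζ : Qb}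
variable {k : Type} [Field k] [Algebra (ZMod p) k] {s : GQ →* M2 k}

/-- `2 ≠ 0` in `k` -/
theorem fiber_two_ne_zero (hp2 : p ≠ 2) : (2 : k) ≠ 0 := by
  have h2' : (2 : ZMod p) ≠ 0 := by
    intro h0
    have h1 : ((2 : ℕ) : ZMod p) = 0 := by exact_mod_cast h0
    rw [ZMod.natCast_eq_zero_iff] at h1
    exact hp2 ((Nat.prime_dvd_prime_iff_eq Fact.out Nat.prime_two).1 h1)
  have h3 := (algebraMap (ZMod p) k).injective.ne h2'
  rwa [map_ofNat, map_zero] at h3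

theorem cob_of_xi (h : Std A p ζ) (hUT : UT A p ζ s) (hb : PeuK A p ζ (fun σ => s σ 0 1))
    {c c' : GQ → M2 k} (hc : Nrm A p ζ s c) (hc' : Nrm A p ζ s c') (x : k)
    (hx : ∀ l : Lam p k, xi A p ζ (fun σ => c σ 0 1) l - xi A p ζ (fun σ => c' σ 0 1) l =
      xi A p ζ (fun σ => s σ 0 1) (sc x l)) :
    ∃ m : M2 k, m.trace = 0 ∧ ∀ σ ∈ Iner A, c σ - c' σ = s σ * m * s σ⁻¹ - m := by
  have h2 : (2 : k) ≠ 0 := fiber_two_ne_zero (p := p) h.odd
  have hw : PeuK A p ζ (fun σ => (c σ 0 1 + -(c' σ 0 1)) + -(x * s σ 0 1)) :=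
    (hc.peu.add h (hc'.peu.neg h)).add h ((hb.smul x).neg h)
  have hw0 : ∀ l : Lam p k,
      xi A p ζ (fun σ => (c σ 0 1 + -(c' σ 0 1)) + -(x * s σ 0 1)) l = 0 := by
    intro l
    rw [xi_add h (hc.peu.add h (hc'.peu.neg h)) ((hb.smul x).neg h),
      xi_add h hc.peu (hc'.peu.neg h), xi_neg h hc'.peu, xi_neg h (hb.smul x), xi_smul, ← hx l]
    abel
  obtain ⟨y, hy⟩ := eq_cob_of_xi_eq_zero h hw hw0
  refine ⟨!![-x / 2, y; 0, x / 2], ?_, fun σ hσ => ?_⟩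
  · rw [Matrix.trace_fin_two]
    simp
    ring
  · have hσD : σ ∈ Dec A := Fermat.Agent.Lib.InertiaField.inertia_le_decomposition A hσ
    have hSS : s σ * s σ⁻¹ = 1 := by rw [← map_mul, mul_inv_cancel, map_one]
    obtain ⟨e00, e11, e10, e01⟩ :=
      conj_fil0 (s σ) (s σ⁻¹) !![-x / 2, y; 0, x / 2] hSS (hUT.tri σ hσD) rfl
    have hy' := hy σ hσ
    have c11 : c σ 1 1 = 0 := by
      have := hc.tr σ hσD
      rwa [hc.fil1 σ hσ, zero_add] at this
    have c11' : c' σ 1 1 = 0 := by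
      have := hc'.tr σ hσD
      rwa [hc'.fil1 σ hσ, zero_add] at this
    ext i j
    fin_cases i <;> fin_cases j
    · show c σ 0 0 - c' σ 0 0 = (s σ * !![-x / 2, y; 0, x / 2] * s σ⁻¹) 0 0 -
        (!![-x / 2, y; 0, x / 2] : M2 k) 0 0
      rw [e00, hc.fil1 σ hσ, hc'.fil1 σ hσ, sub_self, sub_self]
    · show c σ 0 1 - c' σ 0 1 = (s σ * !![-x / 2, y; 0, x / 2] * s σ⁻¹) 0 1 -
        (!![-x / 2, y; 0, x / 2] : M2 k) 0 1
      rw [e01, hUT.unr σ hσ, hUT.cyc σ hσ]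
      simp only [Matrix.of_apply, Matrix.cons_val', Matrix.cons_val_zero, Matrix.cons_val_one,
        Matrix.cons_val_fin_one, div_one]
      have e : c σ 0 1 - c' σ 0 1 =
          (algebraMap (ZMod p) k (om p ζ σ) - 1) * y + x * s σ 0 1 := by
        rw [← hy']
        ring
      rw [e]
      field_simp
      ring
    · show c σ 1 0 - c' σ 1 0 = (s σ * !![-x / 2, y; 0, x / 2] * s σ⁻¹) 1 0 -
        (!![-x / 2, y; 0, x / 2] : M2 k) 1 0
      rw [e10, hc.fil0 σ hσD, hc'.fil0 σ hσD]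
      simp
    · show c σ 1 1 - c' σ 1 1 = (s σ * !![-x / 2, y; 0, x / 2] * s σ⁻¹) 1 1 -
        (!![-x / 2, y; 0, x / 2] : M2 k) 1 1
      rw [e11, c11, c11', sub_self, sub_self]

end Fermat.Agent.S56.Flat.Red
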