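/-
S56 / FLAT / RED (architect helper15), task RED-K5: Frobenius acts by `x ↦ x ^ p` on the invariant.
-/
import Fermat.Agent.S56.Flat.Red.Defs
import Fermat.Agent.S56.Flat.Red.Om
import Fermat.Agent.S56.Flat.Irr.Res

set_option autoImplicit false

namespace Fermat.Agent.S56.Flat.Red

open Fermat.Agent.S55
open Fermat.Agent.S53 (M2)
open Fermat.Agent.S56.Flat.Irr (kb rs)
open Fermat.Agent.Lib.InertiaField (K0)

variable {A : ValuationSubring Qb} {p : ℕ} [Fact p.Prime] {ζ : Qb}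

/-! ## RED-K5: Frobenius.  `α' = φ α`: `σ (φ α) = φ ((φ⁻¹ σ φ) α)`, `φ α ^ p = 1 + p φ t`,
`φ t ≡ t ^ p` (`frob_apply_sub_pow_mem`), `φ⁻¹ σ φ ∈ I` (`conj_mem_inertia`). -/

theorem Peu.frob (h : Std A p ζ) {φ : GQ} (hφ : A.IsFrobeniusAt φ p) {e : GQ → ZMod p} {x : kb A}
    (h₁ : Peu A p ζ e x) : Peu A p ζ (fun σ => om p ζ φ * e (φ⁻¹ * σ * φ)) (x ^ p) := by
  obtain ⟨α, t, ⟨hα0, hα⟩, ht, hαp, rfl⟩ := h₁
  have hφD : φ ∈ A.decompositionSubgroup ℚ := hφ.mem_decompositionSubgroup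
  have hφt : φ t ∈ A := Fermat.Agent.Lib.InertiaField.apply_mem_of_mem_decomposition A hφD ht
  refine ⟨φ α, φ t, ⟨?_, ?_⟩, hφt, ?_, ?_⟩
  · exact (map_ne_zero φ).2 hα0
  · intro σ hσ
    have hconj : φ⁻¹ * σ * φ ∈ Iner A := by
      have h2 := Fermat.Agent.Lib.InertiaField.conj_mem_inertia (A := A) (inv_mem hφD) hσ
      rwa [inv_inv] at h2
    have h3 : σ (φ α) = φ ((φ⁻¹ * σ * φ) α) := by
      simp only [AlgEquiv.mul_apply]
      rw [AlgEquiv.aut_inv, AlgEquiv.apply_symm_apply]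
    rw [h3, hα _ hconj, map_mul, apply_zeta_pow h.prim]
  · rw [← map_pow, hαp, map_add, map_one, map_mul, map_natCast]
  · rw [← Fermat.Agent.S56.Flat.Irr.rs_pow ht]
    exact (Fermat.Agent.S56.Flat.Irr.rs_eq_iff hφt (pow_mem ht p)).2
      (Fermat.Agent.Lib.InertiaField.frob_apply_sub_pow_mem A p hφ ht)

end Fermat.Agent.S56.Flat.Red
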