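/-
S56 / FLAT / RED (architect helper15; proofs helper82), task RED-B1: the Frobenius relations.
-/
import Fermat.Agent.S56.Flat.Red.Defs
import Fermat.Agent.S56.Flat.Red.MatUT
import Fermat.Agent.S56.Flat.Red.Om
import Fermat.Agent.S56.Flat.Red.Xi
import Fermat.Agent.S56.Flat.Red.KumFrob

set_option autoImplicit false
set_option linter.unusedSectionVars false
set_option linter.unusedVariables false

namespace Fermat.Agent.S56.Flat.Red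

open Fermat.Agent.S55
open Fermat.Agent.S53 (M2)
open Fermat.Agent.S56.Flat.Irr (kb rs)
open Fermat.Agent.Lib.InertiaField (K0)

variable {A : ValuationSubring Qb} {p : ℕ} [Fact p.Prime] {ζ : Qb}
variable {k : Type} [Field k] [Algebra (ZMod p) k] {s : GQ →* M2 k}

/-! ## RED-B1: the Frobenius relations

`σ' = φ⁻¹ σ φ ∈ I`, `φ σ' = σ φ`.  (i) `s(φ) s(σ') = s(σ) s(φ)`, entry `(0,1)`:
`χ₁ b(σ') = χ₂ b(σ) + (ω(σ) - 1) β`.  (ii) cocycle relation: `c(φ) + φ·c(σ') = c(σ) + σ·c(φ)`, entry `(0,1)`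
(RED-M1): `(χ₁/χ₂) z(σ') = z(σ) + (ω(σ) - 1) x - 2 m b(σ)`, `c(φ) = (m, x; 0, -m)`.  Then K5 for `e = l ∘ z`,
`ω(φ) l(z(σ')) = (sc u l)(z σ) + (ω σ - 1) (sc u l)(x) - (sc (2 m u) l)(b σ)`, `u = mult p ζ s φ`, and RED-XI. -/

omit [Fact p.Prime] [Algebra (ZMod p) k] in
theorem FrobRel.s_mul_inv (g : GQ) : s g * s g⁻¹ = 1 := by
  rw [← map_mul, mul_inv_cancel, map_one]

theorem FrobRel.conj_mem {φ σ : GQ} (hφ : φ ∈ Dec A) (hσ : σ ∈ Iner A) :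
    φ⁻¹ * σ * φ ∈ Iner A := by
  have h := Fermat.Agent.Lib.InertiaField.conj_mem_inertia A (inv_mem hφ) hσ
  rwa [inv_inv] at h

theorem FrobRel.iner_le {σ : GQ} (hσ : σ ∈ Iner A) : σ ∈ Dec A :=
  Fermat.Agent.Lib.InertiaField.inertia_le_decomposition A hσ

theorem FrobRel.diag_ne (hUT : UT A p ζ s) {φ : GQ} (hφ : φ ∈ Dec A) :
    s φ 0 0 ≠ 0 ∧ s φ 1 1 ≠ 0 := by
  obtain ⟨h0, h1, -⟩ := conj_entries (s φ) (s φ⁻¹) (FrobRel.s_mul_inv φ) (hUT.tri φ hφ)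
  exact ⟨h0, h1⟩

theorem mult_ne_zero (h : Std A p ζ) (hUT : UT A p ζ s) {φ : GQ} (hφ : A.IsFrobeniusAt φ p) :
    mult p ζ s φ ≠ 0 := by
  obtain ⟨h0, h1⟩ := FrobRel.diag_ne hUT hφ.mem_decompositionSubgroup
  have h2 : algebraMap (ZMod p) k (om p ζ φ) ≠ 0 := (map_ne_zero _).2 (om_ne_zero h.prim φ)
  exact div_ne_zero (mul_ne_zero h2 h1) h0

theorem conj_rel_bt (h : Std A p ζ) (hUT : UT A p ζ s) {φ : GQ} (hφ : φ ∈ Dec A) {σ : GQ}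
    (hσ : σ ∈ Iner A) :
    s (φ⁻¹ * σ * φ) 0 1 = s φ 1 1 / s φ 0 0 *
      (s σ 0 1 + (algebraMap (ZMod p) k (om p ζ σ) - 1) * (s φ 0 1 / s φ 1 1)) := by
  obtain ⟨h0, h1⟩ := FrobRel.diag_ne hUT hφ
  have hσ' := FrobRel.conj_mem hφ hσ
  have e : s φ * s (φ⁻¹ * σ * φ) = s σ * s φ := by
    rw [← map_mul, ← map_mul]
    congr 1
    group
  have e01 := congrFun (congrFun e 0) 1
  rw [Matrix.mul_apply, Matrix.mul_apply, Fin.sum_univ_two, Fin.sum_univ_two, hUT.unr _ hσ',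
    hUT.cyc _ hσ] at e01
  field_simp
  linear_combination e01

theorem conj_rel (h : Std A p ζ) (hUT : UT A p ζ s) {c : GQ → M2 k} (hc : Nrm A p ζ s c) {φ : GQ}
    (hφ : φ ∈ Dec A) {σ : GQ} (hσ : σ ∈ Iner A) :
    c (φ⁻¹ * σ * φ) 0 1 = s φ 1 1 / s φ 0 0 *
      (c σ 0 1 + (algebraMap (ZMod p) k (om p ζ σ) - 1) * c φ 0 1 - 2 * c φ 0 0 * s σ 0 1) := by
  obtain ⟨h0, h1⟩ := FrobRel.diag_ne hUT hφ
  have hσ' := FrobRel.conj_mem hφ hσ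
  have hσD := FrobRel.iner_le hσ
  have hσD' := FrobRel.iner_le hσ'
  have e : φ * (φ⁻¹ * σ * φ) = σ * φ := by group
  have e1 := hc.coc φ hφ _ hσD'
  have e2 := hc.coc σ hσD φ hφ
  rw [e, e2] at e1
  have e01 := congrFun (congrFun e1 0) 1
  rw [Matrix.add_apply, Matrix.add_apply,
    (conj_fil0 (s σ) (s σ⁻¹) (c φ) (FrobRel.s_mul_inv σ) (hUT.tri σ hσD) (hc.fil0 φ hφ)).2.2.2,
    (conj_fil0 (s φ) (s φ⁻¹) (c (φ⁻¹ * σ * φ)) (FrobRel.s_mul_inv φ) (hUT.tri φ hφ)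
      (hc.fil0 _ hσD')).2.2.2, hUT.unr _ hσ, hUT.cyc _ hσ, hc.fil1 _ hσ'] at e01
  have t1 := hc.tr _ hσD'
  rw [hc.fil1 _ hσ', zero_add] at t1
  have t2 : c φ 1 1 = - c φ 0 0 := eq_neg_of_add_eq_zero_right (hc.tr φ hφ)
  rw [t1, t2] at e01
  field_simp at e01 ⊢
  linear_combination -e01

/-- the common part of the two Frobenius relations. -/
theorem FrobRel.xi_pow (h : Std A p ζ) {φ : GQ} (hφ : A.IsFrobeniusAt φ p) {z z' : GQ → k}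
    (hz : PeuK A p ζ z) (hz' : PeuK A p ζ z')
    (hzz : ∀ σ ∈ Iner A, z' σ = algebraMap (ZMod p) k (om p ζ φ) * z (φ⁻¹ * σ * φ))
    (l : Lam p k) : xi A p ζ z l ^ p = xi A p ζ z' l := by
  have h1 := Peu.frob h hφ (xi_spec hz l)
  have e : (fun σ => om p ζ φ * l (z (φ⁻¹ * σ * φ))) =
      fun σ => l (algebraMap (ZMod p) k (om p ζ φ) * z (φ⁻¹ * σ * φ)) := by
    funext σ
    rw [← Algebra.smul_def, map_smul, smul_eq_mul]
  rw [e] at h1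
  rw [xi_congr h hz' hzz l]
  exact (xi_eq h h1).symm

theorem frob_rel_bt (h : Std A p ζ) (hUT : UT A p ζ s) {φ : GQ} (hφ : A.IsFrobeniusAt φ p)
    (hb : PeuK A p ζ (fun σ => s σ 0 1)) (l : Lam p k) :
    xi A p ζ (fun σ => s σ 0 1) l ^ p = xi A p ζ (fun σ => s σ 0 1) (sc (mult p ζ s φ) l) := by
  have hφD := hφ.mem_decompositionSubgroup
  obtain ⟨h0, h1⟩ := FrobRel.diag_ne hUT hφD
  set u := mult p ζ s φ with hu
  set y : k := u * (s φ 0 1 / s φ 1 1) with hy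
  have hP1 : PeuK A p ζ (fun σ => u * s σ 0 1) := hb.smul u
  have hP2 : PeuK A p ζ (fun σ => (algebraMap (ZMod p) k (om p ζ σ) - 1) * y) := PeuK.cob h y
  rw [FrobRel.xi_pow h hφ hb (hP1.add h hP2) (fun σ hσ => ?_) l, xi_add h hP1 hP2, xi_smul,
    xi_cob h, add_zero]
  rw [conj_rel_bt h hUT hφD hσ, hy, hu, mult]
  field_simp

theorem frob_rel (h : Std A p ζ) (hUT : UT A p ζ s) {φ : GQ} (hφ : A.IsFrobeniusAt φ p)
    (hb : PeuK A p ζ (fun σ => s σ 0 1)) {c : GQ → M2 k} (hc : Nrm A p ζ s c) :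
    ∃ a : k, ∀ l : Lam p k, xi A p ζ (fun σ => c σ 0 1) l ^ p =
      xi A p ζ (fun σ => c σ 0 1) (sc (mult p ζ s φ) l) - xi A p ζ (fun σ => s σ 0 1) (sc a l) := by
  have hφD := hφ.mem_decompositionSubgroup
  obtain ⟨h0, h1⟩ := FrobRel.diag_ne hUT hφD
  set u := mult p ζ s φ with hu
  refine ⟨2 * c φ 0 0 * u, fun l => ?_⟩
  set a : k := 2 * c φ 0 0 * u with ha
  set y : k := u * c φ 0 1 with hy
  have hP1 : PeuK A p ζ (fun σ => u * c σ 0 1) := hc.peu.smul u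
  have hP2 : PeuK A p ζ (fun σ => (algebraMap (ZMod p) k (om p ζ σ) - 1) * y) := PeuK.cob h y
  have hP3 : PeuK A p ζ (fun σ => a * s σ 0 1) := hb.smul a
  have hP12 := hP1.add h hP2
  rw [FrobRel.xi_pow h hφ hc.peu (hP12.add h (hP3.neg h)) (fun σ hσ => ?_) l,
    xi_add h hP12 (hP3.neg h), xi_add h hP1 hP2, xi_smul, xi_cob h, add_zero, xi_neg h hP3, xi_smul,
    sub_eq_add_neg]
  rw [conj_rel h hUT hc hφD hσ, hy, ha, hu, mult]
  field_simp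
  ring

end Fermat.Agent.S56.Flat.Red
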