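/-
S56 / FLAT / RED (architect helper15), task RED-A7 (owner helper158): stability properties of
`(I - 1) W`, `W = WI u`, and of `(I - 1) k²` under scalars, `ε` and the decomposition group.
Each map is additive and sends a generator `σ • w - w` to a generator.
-/
import Fermat.Agent.S56.Flat.Red.Defs

set_option autoImplicit false

namespace Fermat.Agent.S56.Flat.Red

open Fermat.Agent.S55
open Fermat.Agent.S53 (M2)
open Fermat.Agent.S56.Flat.Irr (kb rs)
open Fermat.Agent.Lib.InertiaField (K0)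

variable {A : ValuationSubring Qb} {k : Type} [Field k] {s : GQ →* M2 k}

/-! ### general principle -/

theorem AugApi.map_mem {W : Type} [AddCommGroup W] [DistribMulAction ↥(Iner A) W] {W' : Type}
    [AddCommGroup W'] (T : W →+ W') (H : AddSubgroup W')
    (h : ∀ (σ : ↥(Iner A)) (w : W), T (σ • w - w) ∈ H) {w : W} (hw : w ∈ augSub A W) :
    T w ∈ H := by
  have h1 : augSub A W ≤ H.comap T := by
    rw [augSub, AddSubgroup.closure_le]
    rintro _ ⟨σ, w, rfl⟩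
    exact h σ w
  exact h1 hw

theorem AugApi.map_mem2 {W' : Type} [AddCommGroup W'] (T : (Fin 2 → k) →+ W') (H : AddSubgroup W')
    (h : ∀ σ ∈ Iner A, ∀ y : Fin 2 → k, T ((s σ).mulVec y - y) ∈ H) {y : Fin 2 → k}
    (hy : y ∈ aug2 A s) : T y ∈ H := by
  have h1 : aug2 A s ≤ H.comap T := by
    rw [aug2, AddSubgroup.closure_le]
    rintro _ ⟨σ, hσ, y, rfl⟩
    exact h σ hσ y
  exact h1 hy

theorem AugApi.gen_mem {W : Type} [AddCommGroup W] [DistribMulAction ↥(Iner A) W]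
    (σ : ↥(Iner A)) (w : W) : σ • w - w ∈ augSub A W :=
  AddSubgroup.subset_closure ⟨σ, w, rfl⟩

theorem AugApi.gen_mem2 {σ : GQ} (hσ : σ ∈ Iner A) (y : Fin 2 → k) :
    (s σ).mulVec y - y ∈ aug2 A s :=
  AddSubgroup.subset_closure ⟨σ, hσ, y, rfl⟩

/-! ### the additive maps -/

/-- multiplication by a scalar -/
def AugApi.smulHom (u : FC.ICoc A s) (a : k) : FC.WI u →+ FC.WI u where
  toFun w := FC.WI.mk u (a • w.fst) (a • w.snd)
  map_zero' := by
    apply FC.WI.ext <;> simp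
  map_add' x y := by
    apply FC.WI.ext <;> simp [smul_add]

/-- multiplication by `ε` -/
def AugApi.epsHom (u : FC.ICoc A s) : FC.WI u →+ FC.WI u where
  toFun w := FC.WI.mk u 0 w.fst
  map_zero' := by
    apply FC.WI.ext <;> simp
  map_add' x y := by
    apply FC.WI.ext <;> simp

/-- the action of `(1 + ε m) t` -/
def AugApi.matHom (u : FC.ICoc A s) (t m : M2 k) : FC.WI u →+ FC.WI u where
  toFun w := FC.WI.mk u (t.mulVec w.fst) (t.mulVec w.snd + (m * t).mulVec w.fst)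
  map_zero' := by
    apply FC.WI.ext <;> simp
  map_add' x y := by
    apply FC.WI.ext
    · simp [Matrix.mulVec_add]
    · simp only [FC.WI.snd_mk, FC.WI.snd_add, FC.WI.fst_add, Matrix.mulVec_add]
      abel

/-- `y ↦ ε y` -/
def AugApi.inrHom (u : FC.ICoc A s) : (Fin 2 → k) →+ FC.WI u where
  toFun y := FC.WI.mk u 0 y
  map_zero' := rfl
  map_add' x y := by
    apply FC.WI.ext <;> simp

/-- reduction modulo `ε` -/
def AugApi.fstHom (u : FC.ICoc A s) : FC.WI u →+ (Fin 2 → k) where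
  toFun w := w.fst
  map_zero' := rfl
  map_add' _ _ := rfl

/-! ## RED-A7 -/

theorem aug_smul_mem (u : FC.ICoc A s) (a : k) {w : FC.WI u} (hw : w ∈ augSub A (FC.WI u)) :
    FC.WI.mk u (a • w.fst) (a • w.snd) ∈ augSub A (FC.WI u) := by
  refine AugApi.map_mem (AugApi.smulHom u a) _ (fun σ w => ?_) hw
  have h1 : AugApi.smulHom u a (σ • w) = σ • AugApi.smulHom u a w := by
    apply FC.WI.ext
    · show a • (s (σ : GQ)).mulVec w.fst = (s (σ : GQ)).mulVec (a • w.fst)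
      rw [Matrix.mulVec_smul]
    · show a • ((s (σ : GQ)).mulVec w.snd + (u σ * s (σ : GQ)).mulVec w.fst) =
        (s (σ : GQ)).mulVec (a • w.snd) + (u σ * s (σ : GQ)).mulVec (a • w.fst)
      rw [Matrix.mulVec_smul, Matrix.mulVec_smul, smul_add]
  rw [map_sub, h1]
  exact AugApi.gen_mem σ _

theorem aug_eps_mem (u : FC.ICoc A s) {w : FC.WI u} (hw : w ∈ augSub A (FC.WI u)) :
    FC.WI.mk u 0 w.fst ∈ augSub A (FC.WI u) := by
  refine AugApi.map_mem (AugApi.epsHom u) _ (fun σ w => ?_) hw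
  have h1 : AugApi.epsHom u (σ • w) = σ • AugApi.epsHom u w := by
    apply FC.WI.ext
    · show (0 : Fin 2 → k) = (s (σ : GQ)).mulVec 0
      rw [Matrix.mulVec_zero]
    · show (s (σ : GQ)).mulVec w.fst =
        (s (σ : GQ)).mulVec w.fst + (u σ * s (σ : GQ)).mulVec 0
      rw [Matrix.mulVec_zero, add_zero]
  rw [map_sub, h1]
  exact AugApi.gen_mem σ _

/-- `g ∈ D` acts on `W` through `(1 + ε c(g)) s(g)` and normalises `I` (`conj_mem_inertia`):
`g (σ w - w) = (g σ g⁻¹) (g w) - g w`. -/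
theorem aug_dec_mem {c : GQ → M2 k} (hc : DCoc A s c) (u : FC.ICoc A s)
    (hu : ∀ σ : ↥(Iner A), u σ = c σ.1) {g : GQ} (hg : g ∈ Dec A) {w : FC.WI u}
    (hw : w ∈ augSub A (FC.WI u)) :
    FC.WI.mk u ((s g).mulVec w.fst) ((s g).mulVec w.snd + (c g * s g).mulVec w.fst) ∈
      augSub A (FC.WI u) := by
  refine AugApi.map_mem (AugApi.matHom u (s g) (c g)) _ (fun σ w => ?_) hw
  have hσ' : g * (σ : GQ) * g⁻¹ ∈ Iner A := Lib.InertiaField.conj_mem_inertia A hg σ.2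
  have hσD : (σ : GQ) ∈ Dec A := Lib.InertiaField.inertia_le_decomposition A σ.2
  have hσ'D : g * (σ : GQ) * g⁻¹ ∈ Dec A := Lib.InertiaField.inertia_le_decomposition A hσ'
  -- `s σ' * s g = s g * s σ`
  have e1 : s (g * (σ : GQ) * g⁻¹) * s g = s g * s (σ : GQ) := by
    rw [← map_mul, ← map_mul, inv_mul_cancel_right]
  -- the cocycle identity
  have e2 : c g * s g * s (σ : GQ) + s g * c (σ : GQ) * s (σ : GQ) =
      c (g * (σ : GQ) * g⁻¹) * (s g * s (σ : GQ)) + s (g * (σ : GQ) * g⁻¹) * c g * s g := by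
    have h1 := hc.coc g hg σ hσD
    have h2 := hc.coc (g * (σ : GQ) * g⁻¹) hσ'D g hg
    rw [inv_mul_cancel_right] at h2
    have h3 : c g + s g * c (σ : GQ) * s g⁻¹ =
        c (g * (σ : GQ) * g⁻¹) + s (g * (σ : GQ) * g⁻¹) * c g * s (g * (σ : GQ) * g⁻¹)⁻¹ := by
      rw [← h1, ← h2]
    have h4 := congrArg (fun X : M2 k => X * (s g * s (σ : GQ))) h3
    simp only [add_mul] at h4
    have h5 : s g * c (σ : GQ) * s g⁻¹ * (s g * s (σ : GQ)) = s g * c (σ : GQ) * s (σ : GQ) := by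
      rw [mul_assoc (s g * c (σ : GQ)), ← mul_assoc (s g⁻¹), FC.WI.s_inv_mul, one_mul]
    have h6 : s (g * (σ : GQ) * g⁻¹) * c g * s (g * (σ : GQ) * g⁻¹)⁻¹ * (s g * s (σ : GQ)) =
        s (g * (σ : GQ) * g⁻¹) * c g * s g := by
      rw [← e1, mul_assoc (s (g * (σ : GQ) * g⁻¹) * c g), ← mul_assoc (s (g * (σ : GQ) * g⁻¹)⁻¹),
        FC.WI.s_inv_mul, one_mul]
    rw [h5, h6, ← mul_assoc (c g)] at h4
    exact h4
  have h1 : AugApi.matHom u (s g) (c g) (σ • w) =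
      (⟨g * (σ : GQ) * g⁻¹, hσ'⟩ : ↥(Iner A)) • AugApi.matHom u (s g) (c g) w := by
    apply FC.WI.ext
    · show (s g).mulVec ((s (σ : GQ)).mulVec w.fst) =
        (s (g * (σ : GQ) * g⁻¹)).mulVec ((s g).mulVec w.fst)
      rw [Matrix.mulVec_mulVec, Matrix.mulVec_mulVec, e1]
    · show (s g).mulVec ((s (σ : GQ)).mulVec w.snd + (u σ * s (σ : GQ)).mulVec w.fst) +
          (c g * s g).mulVec ((s (σ : GQ)).mulVec w.fst) =
        (s (g * (σ : GQ) * g⁻¹)).mulVec ((s g).mulVec w.snd + (c g * s g).mulVec w.fst) +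
          (u ⟨g * (σ : GQ) * g⁻¹, hσ'⟩ * s (g * (σ : GQ) * g⁻¹)).mulVec ((s g).mulVec w.fst)
      rw [hu σ, hu ⟨g * (σ : GQ) * g⁻¹, hσ'⟩]
      simp only [Matrix.mulVec_add, Matrix.mulVec_mulVec]
      rw [e1, add_assoc, add_assoc, ← Matrix.add_mulVec, ← Matrix.add_mulVec]
      congr 2
      rw [mul_assoc (c (g * (σ : GQ) * g⁻¹)), e1, ← mul_assoc (s g), ← mul_assoc (s _) (c g),
        add_comm, e2, add_comm]
  rw [map_sub, h1]
  exact AugApi.gen_mem _ _

/-! the same for `(I - 1) k²` -/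

theorem aug2_smul_mem (a : k) {y : Fin 2 → k} (hy : y ∈ aug2 A s) : a • y ∈ aug2 A s := by
  refine AugApi.map_mem2 (DistribSMul.toAddMonoidHom (Fin 2 → k) a) _ (fun σ hσ y => ?_) hy
  show a • ((s σ).mulVec y - y) ∈ aug2 A s
  rw [smul_sub, ← Matrix.mulVec_smul]
  exact AugApi.gen_mem2 hσ _

theorem aug2_dec_mem {g : GQ} (hg : g ∈ Dec A) {y : Fin 2 → k} (hy : y ∈ aug2 A s) :
    (s g).mulVec y ∈ aug2 A s := by
  refine AugApi.map_mem2 ((s g).mulVecLin.toAddMonoidHom) _ (fun σ hσ y => ?_) hy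
  show (s g).mulVec ((s σ).mulVec y - y) ∈ aug2 A s
  have hσ' : g * σ * g⁻¹ ∈ Iner A := Lib.InertiaField.conj_mem_inertia A hg hσ
  have e1 : s (g * σ * g⁻¹) * s g = s g * s σ := by
    rw [← map_mul, ← map_mul, inv_mul_cancel_right]
  rw [Matrix.mulVec_sub, Matrix.mulVec_mulVec, ← e1, ← Matrix.mulVec_mulVec]
  exact AugApi.gen_mem2 hσ' _

theorem mk_zero_mem_aug (u : FC.ICoc A s) {y : Fin 2 → k} (hy : y ∈ aug2 A s) :
    FC.WI.mk u 0 y ∈ augSub A (FC.WI u) := by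
  refine AugApi.map_mem2 (AugApi.inrHom u) _ (fun σ hσ y => ?_) hy
  have h1 : AugApi.inrHom u ((s σ).mulVec y) =
      (⟨σ, hσ⟩ : ↥(Iner A)) • AugApi.inrHom u y := by
    apply FC.WI.ext
    · show (0 : Fin 2 → k) = (s σ).mulVec 0
      rw [Matrix.mulVec_zero]
    · show (s σ).mulVec y = (s σ).mulVec y + (u ⟨σ, hσ⟩ * s σ).mulVec 0
      rw [Matrix.mulVec_zero, add_zero]
  rw [map_sub, h1]
  exact AugApi.gen_mem _ _

theorem fst_mem_aug2 (u : FC.ICoc A s) {w : FC.WI u} (hw : w ∈ augSub A (FC.WI u)) :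
    w.fst ∈ aug2 A s := by
  refine AugApi.map_mem (AugApi.fstHom u) _ (fun σ w => ?_) hw
  rw [map_sub]
  exact AugApi.gen_mem2 σ.2 w.fst

end Fermat.Agent.S56.Flat.Red
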