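/-
S56 / FLAT / RED (architect helper15), task RED-A8 (owner helper127): the shape of `(I - 1) W`,
`W = WI u`, in upper triangular coordinates.
-/
import Fermat.Agent.S56.Flat.Red.AugApi
import Fermat.Agent.S56.Flat.Red.OmNe
import Fermat.Agent.S56.Flat.Depth.Et

set_option autoImplicit false
set_option linter.unusedSectionVars false

namespace Fermat.Agent.S56.Flat.Red

open Fermat.Agent.S55
open Fermat.Agent.S53 (M2)
open Fermat.Agent.S56.Flat.Irr (kb rs)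
open Fermat.Agent.Lib.InertiaField (K0)

variable {A : ValuationSubring Qb} {p : ℕ} [Fact p.Prime] {ζ : Qb}
variable {k : Type} [Field k] [Algebra (ZMod p) k] [Finite k] {s : GQ →* M2 k}

theorem AugUT.mulVec_apply (M : M2 k) (y : Fin 2 → k) (i : Fin 2) :
    M.mulVec y i = M i 0 * y 0 + M i 1 * y 1 := by
  simp [Matrix.mulVec, dotProduct, Fin.sum_univ_two]

theorem AugUT.mulVec_one (hUT : UT A p ζ s) {σ : GQ} (hσ : σ ∈ Iner A) (y : Fin 2 → k) :
    (s σ).mulVec y 1 = y 1 := by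
  rw [AugUT.mulVec_apply, hUT.tri σ (Lib.InertiaField.inertia_le_decomposition A hσ),
    hUT.unr σ hσ, zero_mul, one_mul, zero_add]

/-- `w ↦ (w.snd) 1` -/
def AugUT.sndOne (u : FC.ICoc A s) : FC.WI u →+ k where
  toFun w := (w.snd) 1
  map_zero' := rfl
  map_add' _ _ := rfl

theorem fst_one_of_mem_aug (hUT : UT A p ζ s) (u : FC.ICoc A s) {w : FC.WI u}
    (hw : w ∈ augSub A (FC.WI u)) : (w.fst) 1 = 0 := by
  have h1 := fst_mem_aug2 u hw
  have h2 := AugApi.map_mem2 (A := A) (s := s) (Pi.evalAddMonoidHom (fun _ : Fin 2 => k) 1) ⊥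
    (fun σ hσ y => by
      rw [AddSubgroup.mem_bot]
      show ((s σ).mulVec y - y) 1 = 0
      rw [Pi.sub_apply, AugUT.mulVec_one hUT hσ, sub_self]) h1
  exact AddSubgroup.mem_bot.1 h2

theorem AugUT.exists_e0 (h : Std A p ζ) (hUT : UT A p ζ s) (u : FC.ICoc A s) :
    ∃ x₀ : Fin 2 → k, FC.WI.mk u ![1, 0] x₀ ∈ augSub A (FC.WI u) := by
  obtain ⟨τ, hτ, hne⟩ := h.exists_om_ne_one
  have hne' : algebraMap (ZMod p) k (om p ζ τ) - 1 ≠ 0 := by
    intro h0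
    apply hne
    apply (algebraMap (ZMod p) k).injective
    rw [map_one]
    exact sub_eq_zero.1 h0
  have hg := AugApi.gen_mem (⟨τ, hτ⟩ : ↥(Iner A)) (FC.WI.mk u ![1, 0] 0)
  have hs := aug_smul_mem u (algebraMap (ZMod p) k (om p ζ τ) - 1)⁻¹ hg
  have e : (algebraMap (ZMod p) k (om p ζ τ) - 1)⁻¹ •
      ((⟨τ, hτ⟩ : ↥(Iner A)) • FC.WI.mk u ![1, 0] 0 - FC.WI.mk u ![1, 0] 0).fst = ![1, 0] := by
    have e1 : ((⟨τ, hτ⟩ : ↥(Iner A)) • FC.WI.mk u ![1, 0] 0 - FC.WI.mk u ![1, 0] 0).fst =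
        (s τ).mulVec ![1, 0] - ![1, 0] := rfl
    rw [e1]
    funext i
    fin_cases i
    · show (algebraMap (ZMod p) k (om p ζ τ) - 1)⁻¹ * ((s τ).mulVec ![1, 0] 0 - 1) = 1
      rw [AugUT.mulVec_apply, hUT.cyc τ hτ]
      simp only [Matrix.cons_val_zero, Matrix.cons_val_one, mul_one, mul_zero, add_zero]
      exact inv_mul_cancel₀ hne'
    · show (algebraMap (ZMod p) k (om p ζ τ) - 1)⁻¹ * ((s τ).mulVec ![1, 0] 1 - 0) = 0
      rw [AugUT.mulVec_one hUT hτ]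
      simp
  rw [e] at hs
  exact ⟨_, hs⟩

theorem AugUT.nsmul_eq_zero (u : FC.ICoc A s) (w : FC.WI u) : p • w = 0 := by
  have hp0 : (p : k) = 0 := by
    rw [← map_natCast (algebraMap (ZMod p) k), ZMod.natCast_self, map_zero]
  have h1 : ∀ y : Fin 2 → k, p • y = 0 := by
    intro y
    funext i
    rw [Pi.smul_apply, nsmul_eq_mul, hp0, zero_mul]
    rfl
  exact Prod.ext (h1 w.1) (h1 w.2)

theorem snd_one_eq_zero_of_mem_aug (h : Std A p ζ) (hUT : UT A p ζ s) (u : FC.ICoc A s)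
    (hW : FlatLoc A (FC.WI u)) {y : Fin 2 → k} (hy : FC.WI.mk u 0 y ∈ augSub A (FC.WI u)) :
    y 1 = 0 := by
  by_contra hy1
  obtain ⟨x₀, hx₀⟩ := AugUT.exists_e0 h hUT u
  have he0 : FC.WI.mk u 0 ![1, 0] ∈ augSub A (FC.WI u) := aug_eps_mem u hx₀
  have key : ∀ y' : Fin 2 → k, FC.WI.mk u 0 y' ∈ augSub A (FC.WI u) := by
    intro y'
    have h1 := aug_smul_mem u (y' 0 - y' 1 / y 1 * y 0) he0
    have h2 := aug_smul_mem u (y' 1 / y 1) hy
    have h3 := add_mem h1 h2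
    have e : FC.WI.mk u 0 y' =
        FC.WI.mk u ((y' 0 - y' 1 / y 1 * y 0) • (FC.WI.mk u 0 ![1, 0]).fst)
          ((y' 0 - y' 1 / y 1 * y 0) • (FC.WI.mk u 0 ![1, 0]).snd) +
        FC.WI.mk u ((y' 1 / y 1) • (FC.WI.mk u 0 y).fst) ((y' 1 / y 1) • (FC.WI.mk u 0 y).snd) := by
      apply FC.WI.ext
      · simp
      · funext i
        fin_cases i
        · simp
        · simp only [FC.WI.snd_mk, FC.WI.snd_add]
          show y' 1 = (y' 0 - y' 1 / y 1 * y 0) * 0 + y' 1 / y 1 * y 1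
          field_simp
          ring
    rw [e]
    exact h3
  have hle := FlatLoc.le_of_trivial_subquotient (Fact.out : p.Prime) h.odd h.lies
    (AugUT.nsmul_eq_zero u) hW (AugApi.fstHom u).ker
    ((AugApi.fstHom u).ker ⊓ (AugUT.sndOne u).ker) inf_le_left
    (fun w hw => by
      have hw0 : w.fst = 0 := hw
      have e : w = FC.WI.mk u 0 w.snd := FC.WI.ext hw0 rfl
      rw [e]
      exact key _)
    (fun σ w hw => by
      have hw0 : w.fst = 0 := hw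
      show (s (σ : GQ)).mulVec w.fst = 0
      rw [hw0, Matrix.mulVec_zero])
    (fun σ w hw => by
      have hw0 : w.fst = 0 := hw.1
      have hw1 : (w.snd) 1 = 0 := hw.2
      refine ⟨?_, ?_⟩
      · show (s (σ : GQ)).mulVec w.fst = 0
        rw [hw0, Matrix.mulVec_zero]
      · show ((s (σ : GQ)).mulVec w.snd + (u σ * s (σ : GQ)).mulVec w.fst) 1 = 0
        rw [hw0, Matrix.mulVec_zero, add_zero, AugUT.mulVec_one hUT σ.2, hw1])
    (fun σ w hw => by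
      have hw0 : w.fst = 0 := hw
      refine ⟨?_, ?_⟩
      · show (s (σ : GQ)).mulVec w.fst - w.fst = 0
        rw [hw0, Matrix.mulVec_zero, sub_zero]
      · show ((s (σ : GQ)).mulVec w.snd + (u σ * s (σ : GQ)).mulVec w.fst - w.snd) 1 = 0
        rw [hw0, Matrix.mulVec_zero, add_zero, Pi.sub_apply, AugUT.mulVec_one hUT σ.2, sub_self])
  have h1 : FC.WI.mk u 0 ![0, 1] ∈ (AugApi.fstHom u).ker := rfl
  have h2 : (![0, 1] : Fin 2 → k) 1 = 0 := (hle h1).2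
  simp at h2

/-- there is `t` (`= x₀ 1`) such that `(w.snd) 1 = (w.fst) 0 * t` on `(I - 1) W`. -/
theorem exists_slope (h : Std A p ζ) (hUT : UT A p ζ s) (u : FC.ICoc A s)
    (hW : FlatLoc A (FC.WI u)) :
    ∃ (t : k) (x₀ : Fin 2 → k), x₀ 1 = t ∧ FC.WI.mk u ![1, 0] x₀ ∈ augSub A (FC.WI u) ∧
      ∀ w ∈ augSub A (FC.WI u), (w.snd) 1 = (w.fst) 0 * t := by
  obtain ⟨x₀, hx₀⟩ := AugUT.exists_e0 h hUT u
  refine ⟨x₀ 1, x₀, rfl, hx₀, fun w hw => ?_⟩
  have h1 := aug_smul_mem u ((w.fst) 0) hx₀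
  have h2 := sub_mem hw h1
  have hw1 := fst_one_of_mem_aug hUT u hw
  have e : w - FC.WI.mk u ((w.fst) 0 • (FC.WI.mk u ![1, 0] x₀).fst)
      ((w.fst) 0 • (FC.WI.mk u ![1, 0] x₀).snd) = FC.WI.mk u 0 (w.snd - (w.fst) 0 • x₀) := by
    apply FC.WI.ext
    · show w.fst - (w.fst) 0 • ![1, 0] = 0
      funext i
      fin_cases i
      · simp
      · simp [hw1]
    · rfl
  rw [e] at h2
  have h3 := snd_one_eq_zero_of_mem_aug h hUT u hW h2
  rw [Pi.sub_apply, Pi.smul_apply, smul_eq_mul] at h3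
  exact sub_eq_zero.1 h3

end Fermat.Agent.S56.Flat.Red
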