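/-
S56 / FLAT / RED (architect helper15), task RED-A9 (owner helper122): a flat cocycle is cohomologous
to one with values in `Fil⁰`, and in `Fil¹` on inertia.
-/
import Fermat.Agent.S56.Flat.Red.Defs
import Fermat.Agent.S56.Flat.Red.AugApi
import Fermat.Agent.S56.Flat.Red.AugUT

set_option autoImplicit false

namespace Fermat.Agent.S56.Flat.Red

open Fermat.Agent.S55
open Fermat.Agent.S53 (M2)
open Fermat.Agent.S56.Flat.Irr (kb rs)
open Fermat.Agent.Lib.InertiaField (K0)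

variable {A : ValuationSubring Qb} {p : ℕ} [Fact p.Prime] {ζ : Qb}
variable {k : Type} [Field k] [Algebra (ZMod p) k] [Finite k] {s : GQ →* M2 k}

/-- entries of the inverse of an upper triangular matrix -/
private theorem Normalize.entries {k : Type} [Field k] (S S' : M2 k) (h : S * S' = 1)
    (h10 : S 1 0 = 0) : S 0 0 * S' 0 0 = 1 ∧ S 1 1 * S' 1 1 = 1 ∧ S' 1 0 = 0 := by
  have e10 := congrFun (congrFun h 1) 0
  have e11 := congrFun (congrFun h 1) 1
  have e00 := congrFun (congrFun h 0) 0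
  rw [Matrix.mul_apply, Fin.sum_univ_two, h10, zero_mul, zero_add] at e10 e11
  rw [Matrix.mul_apply, Fin.sum_univ_two] at e00
  rw [Matrix.one_apply_ne (by decide)] at e10
  rw [Matrix.one_apply_eq] at e11 e00
  have h11 : S 1 1 ≠ 0 := left_ne_zero_of_mul_eq_one e11
  have h3 : S' 1 0 = 0 := (mul_eq_zero.1 e10).resolve_left h11
  rw [h3, mul_zero, add_zero] at e00
  exact ⟨e00, e11, h3⟩

theorem exists_normalize (h : Std A p ζ) (hUT : UT A p ζ s) {c : GQ → M2 k} (hc : DCoc A s c)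
    (hfl : Fl A s c) :
    ∃ m : M2 k, m.trace = 0 ∧ (∀ g ∈ Dec A, addCob s c m g 1 0 = 0) ∧
      (∀ σ ∈ Iner A, addCob s c m σ 0 0 = 0) := by
  obtain ⟨u, hu, hW⟩ := hfl
  obtain ⟨t, x₀, hx₀, hmem, hslope⟩ := exists_slope h hUT u hW
  have hinv : ∀ g : GQ, s g * s g⁻¹ = 1 := fun g => by rw [← map_mul, mul_inv_cancel, map_one]
  -- the slope relation for `g (e₀, x₀)`
  have key : ∀ g ∈ Dec A, s g 1 1 * t + s g 0 0 * c g 1 0 = s g 0 0 * t := by
    intro g hg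
    have h1 := hslope _ (aug_dec_mem hc u hu hg hmem)
    simp only [FC.WI.fst_mk, FC.WI.snd_mk, Pi.add_apply, Matrix.mulVec, dotProduct,
      Fin.sum_univ_two, Matrix.mul_apply, hUT.tri g hg, hx₀, Matrix.cons_val_zero,
      Matrix.cons_val_one, mul_one, mul_zero, add_zero, zero_mul, zero_add] at h1
    linear_combination h1
  -- the slope relation for `(σ - 1)(e₁, 0)`
  have key2 : ∀ σ ∈ Iner A, s σ 0 1 * c σ 1 0 + c σ 1 1 = s σ 0 1 * t := by
    intro σ hσ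
    have h1 := hslope _ (AugApi.gen_mem (⟨σ, hσ⟩ : ↥(Iner A)) (FC.WI.mk u ![0, 1] 0))
    have h2 : (((⟨σ, hσ⟩ : ↥(Iner A)) • FC.WI.mk u ![0, 1] 0 - FC.WI.mk u ![0, 1] 0).snd) 1 =
        c σ 1 0 * s σ 0 1 + c σ 1 1 * s σ 1 1 := by
      show ((s σ).mulVec 0 + (u ⟨σ, hσ⟩ * s σ).mulVec ![0, 1] - (0 : Fin 2 → k)) 1 = _
      rw [hu]
      simp [Matrix.mulVec, dotProduct, Fin.sum_univ_two, Matrix.mul_apply]
    have h3 : (((⟨σ, hσ⟩ : ↥(Iner A)) • FC.WI.mk u ![0, 1] 0 - FC.WI.mk u ![0, 1] 0).fst) 0 =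
        s σ 0 1 := by
      show ((s σ).mulVec ![0, 1] - (![0, 1] : Fin 2 → k)) 0 = _
      simp [Matrix.mulVec, dotProduct, Fin.sum_univ_two]
    rw [h2, h3, hUT.unr σ hσ] at h1
    linear_combination h1
  refine ⟨!![0, 0; t, 0], by simp [Matrix.trace_fin_two], ?_, ?_⟩
  · intro g hg
    obtain ⟨e0, e1, e2⟩ := Normalize.entries (s g) (s g⁻¹) (hinv g) (hUT.tri g hg)
    have hk := key g hg
    have h00 : s g 0 0 ≠ 0 := left_ne_zero_of_mul_eq_one e0
    have h1 : addCob s c !![0, 0; t, 0] g 1 0 = c g 1 0 + (s g 1 1 * t * s g⁻¹ 0 0 - t) := by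
      simp [addCob, Matrix.mul_apply, Fin.sum_univ_two, e2]
    rw [h1]
    apply mul_left_cancel₀ h00
    linear_combination hk + s g 1 1 * t * e0
  · intro σ hσ
    have hσD : σ ∈ Dec A := Lib.InertiaField.inertia_le_decomposition A hσ
    obtain ⟨e0, e1, e2⟩ := Normalize.entries (s σ) (s σ⁻¹) (hinv σ) (hUT.tri σ hσD)
    have hk := key σ hσD
    have hk2 := key2 σ hσ
    have htr := hc.tr σ hσD
    have h00 : s σ 0 0 ≠ 0 := left_ne_zero_of_mul_eq_one e0
    rw [hUT.unr σ hσ] at hk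
    have h1 : addCob s c !![0, 0; t, 0] σ 0 0 = c σ 0 0 + s σ 0 1 * t * s σ⁻¹ 0 0 := by
      simp [addCob, Matrix.mul_apply, Fin.sum_univ_two, e2]
    rw [h1]
    apply mul_left_cancel₀ h00
    linear_combination s σ 0 0 * htr - s σ 0 0 * hk2 + s σ 0 1 * hk + s σ 0 1 * t * e0

end Fermat.Agent.S56.Flat.Red
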