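/-
S56 / FLAT / RED (architect helper15), task RED-A4 (proof: helper191):
Hilbert 90 on the inertia group: every smooth cocycle `e : I → 𝔽_p(1)` has a Kummer generator.
-/
import Fermat.Agent.S56.Flat.Red.Defs
import Fermat.Agent.S56.Flat.Red.Om
import Fermat.Agent.S55.Arith.Hilbert90Core
import Fermat.Agent.Lib.Frobenius.Integers

set_option autoImplicit false

namespace Fermat.Agent.S56.Flat.Red

open Fermat.Agent.S55
open Fermat.Agent.S53 (M2)
open Fermat.Agent.S56.Flat.Irr (kb rs)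
open Fermat.Agent.Lib.InertiaField (K0)

variable {A : ValuationSubring Qb} {p : ℕ} [Fact p.Prime] {ζ : Qb}

/-- every finite extension of `ℚ` in `Qb` lies in a finite stable one -/
private theorem h90_exists_stable (F : IntermediateField ℚ Qb) (hF : FiniteDimensional ℚ F) :
    ∃ F' : IntermediateField ℚ Qb, FiniteDimensional ℚ F' ∧ IsStableField F' ∧ F ≤ F' := by
  have hF' : @FiniteDimensional ℚ F _ _ (IntermediateField.module' F) := by
    convert hF
  have : IsGalois ℚ Qb := Fermat.Agent.Lib.Frobenius.isGalois_rat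
  refine ⟨IntermediateField.normalClosure ℚ F Qb, ?_, ?_, F.le_normalClosure⟩
  · have : FiniteDimensional ℚ (IntermediateField.normalClosure ℚ F Qb) :=
      normalClosure.is_finiteDimensional ℚ F Qb
    convert this
  · intro g x hx
    have hn : Normal ℚ (IntermediateField.normalClosure ℚ F Qb) := normalClosure.normal ℚ F Qb
    have := (IntermediateField.normal_iff_forall_map_le'.1 hn) g
    exact this ⟨x, hx, rfl⟩

/-! ## RED-A4: Hilbert 90 on the inertia group

`S55.hilbert90_crossed` (S55/Arith/Hilbert90Core.lean) for `H = ↥(Iner A)`, `f = subtype`,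
`β σ = Kx.mk0 (ζ ^ (e σ).val)`; model: `Irr.Unif.exists_kummer` (Flat/Irr/Kummer.lean).  The level: the
fixing subgroup of the normal closure of `F` is in `lvlAll.carrier`. -/

theorem exists_isKum (h : Std A p ζ) (e : GQ → ZMod p)
    (hcoc : ∀ σ ∈ Iner A, ∀ τ ∈ Iner A, e (σ * τ) = e σ + om p ζ σ * e τ)
    (hlev : ∃ F : IntermediateField ℚ Qb, FiniteDimensional ℚ F ∧
      ∀ n ∈ Iner A, (∀ a ∈ F, n a = a) → e n = 0) :
    ∃ α, IsKum A ζ e α := by
  have hζ := h.prim
  have hζ0 : ζ ≠ 0 := hζ.ne_zero (Fact.out : p.Prime).ne_zero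
  obtain ⟨F, hF, hFe⟩ := hlev
  obtain ⟨F', hF', hst, hle⟩ := h90_exists_stable F hF
  obtain ⟨a, ha⟩ := hilbert90_crossed (Iner A).subtype
    (fun x => Kx.mk0 (ζ ^ (e x.1).val) (pow_ne_zero _ hζ0))
    (fun x y => by
      apply Kx.val_injective
      rw [Kx.val_add, Kx.val_smul, Kx.val_mk0, Kx.val_mk0, Kx.val_mk0]
      show ζ ^ (e (x.1 * y.1)).val = ζ ^ (e x.1).val * x.1 (ζ ^ (e y.1).val)
      rw [hcoc x.1 x.2 y.1 y.2, zeta_pow_val_add hζ, apply_zeta_pow hζ])
    ⟨F'.fixingSubgroup, ⟨F', hF', hst, rfl⟩, fun x n hn => by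
      apply Kx.val_injective
      rw [Kx.val_mk0, Kx.val_mk0]
      show ζ ^ (e (x.1 * n.1)).val = ζ ^ (e x.1).val
      rw [hcoc x.1 x.2 n.1 n.2, hFe n.1 n.2 (fun a ha =>
        (IntermediateField.mem_fixingSubgroup_iff F' n.1).1 hn a (hle ha)), mul_zero, add_zero]⟩
  refine ⟨a.val, Kx.val_ne_zero a, fun σ hσ => ?_⟩
  have h1 := congrArg Kx.val (ha ⟨σ, hσ⟩)
  rw [Kx.val_mk0, Kx.val_sub, Kx.val_smul] at h1
  have h2 : ζ ^ (e σ).val = σ a.val * (a.val)⁻¹ := h1
  rw [h2, mul_assoc, inv_mul_cancel₀ (Kx.val_ne_zero a), mul_one]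

end Fermat.Agent.S56.Flat.Red
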