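/-
S56 / FLAT / RED, node RED-A5: norm descent from `K0(ζ)` to `K0`.

We take the product `N` of the (finite) orbit `S` of `b` under the inertia group `I`.  The orbit of `b` is a
quotient of the orbit of `ζ`, so `1 ≤ n := #S ≤ p - 1`; `N` is fixed by `I`; `a ^ n N ^ p ≡ 1 mod p`.
With `n m = 1 + p l` we get `a (a ^ l N ^ m) ^ p = (a ^ n N ^ p) ^ m ≡ 1`.
-/
import Fermat.Agent.S56.Flat.Red.Defs
import Fermat.Agent.S56.Flat.Irr.Res

set_option autoImplicit false

namespace Fermat.Agent.S56.Flat.Red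

open Fermat.Agent.S55
open Fermat.Agent.S53 (M2)
open Fermat.Agent.S56.Flat.Irr (kb rs)
open Fermat.Agent.Lib.InertiaField (K0)

variable {A : ValuationSubring Qb} {p : ℕ} [Fact p.Prime] {ζ : Qb}

/-! ## RED-A5: norm descent from `K0(ζ)` to `K0` -/

private theorem normDesc_mul {c x y : Qb} (hc : c ∈ A)
    (hx : A.valuation (x - 1) ≤ A.valuation c) (hy : A.valuation (y - 1) ≤ A.valuation c) :
    A.valuation (x * y - 1) ≤ A.valuation c := by
  have hc1 : A.valuation c ≤ 1 := (A.valuation_le_one_iff c).2 hc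
  have hy1 : A.valuation y ≤ 1 := by
    have : y = (y - 1) + 1 := by ring
    rw [this]
    refine (A.valuation.map_add _ _).trans (max_le (hy.trans hc1) ?_)
    rw [map_one]
  have h : x * y - 1 = (x - 1) * y + (y - 1) := by ring
  rw [h]
  refine (A.valuation.map_add _ _).trans (max_le ?_ hy)
  rw [map_mul]
  exact (mul_le_of_le_one_right' hy1).trans hx

private theorem normDesc_prod {c : Qb} (hc : c ∈ A) (S : Finset Qb) (f : Qb → Qb)
    (h : ∀ β ∈ S, A.valuation (f β - 1) ≤ A.valuation c) :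
    A.valuation (∏ β ∈ S, f β - 1) ≤ A.valuation c := by
  classical
  induction S using Finset.induction_on with
  | empty => simp
  | insert β S hβ ih =>
    rw [Finset.prod_insert hβ]
    exact normDesc_mul hc (h β (Finset.mem_insert_self _ _))
      (ih fun γ hγ => h γ (Finset.mem_insert_of_mem hγ))

private theorem normDesc_pow {c x : Qb} (hc : c ∈ A)
    (hx : A.valuation (x - 1) ≤ A.valuation c) (m : ℕ) :
    A.valuation (x ^ m - 1) ≤ A.valuation c := by
  induction m with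
  | zero => simp
  | succ m ih =>
    rw [pow_succ]
    exact normDesc_mul hc ih hx

theorem exists_K0_of_fixed (h : Std A p ζ) (a b : Qb) (ha0 : a ≠ 0) (ha : a ∈ K0 A) (hb0 : b ≠ 0)
    (hb : ∀ σ ∈ Iner A, σ ζ = ζ → σ b = b)
    (hval : A.valuation (a * b ^ p - 1) ≤ A.valuation (p : Qb)) :
    ∃ b' : Qb, b' ≠ 0 ∧ b' ∈ K0 A ∧ A.valuation (a * b' ^ p - 1) ≤ A.valuation (p : Qb) := by
  classical
  have hp : p.Prime := Fact.out
  have hpA : (p : Qb) ∈ A := natCast_mem A p
  have hbalg : IsIntegral ℚ b := (AlgebraicClosure.isAlgebraic ℚ).isIntegral.isIntegral b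
  -- the orbit of `b`
  let S : Finset Qb := ((minpoly ℚ b).aroots Qb).toFinset.filter fun β => ∃ σ ∈ Iner A, σ b = β
  have hS : ∀ β, β ∈ S ↔ ∃ σ ∈ Iner A, σ b = β := by
    intro β
    simp only [S, Finset.mem_filter, Multiset.mem_toFinset, and_iff_right_iff_imp]
    rintro ⟨σ, -, rfl⟩
    rw [Polynomial.mem_aroots]
    refine ⟨minpoly.ne_zero hbalg, ?_⟩
    rw [Polynomial.aeval_algHom_apply, minpoly.aeval, map_zero]
  -- the orbit of `ζ`
  let T : Finset Qb := (primitiveRoots p Qb).filter fun μ => ∃ σ ∈ Iner A, σ ζ = μ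
  have hT : ∀ μ, μ ∈ T ↔ ∃ σ ∈ Iner A, σ ζ = μ := by
    intro μ
    simp only [T, Finset.mem_filter, and_iff_right_iff_imp]
    rintro ⟨σ, -, rfl⟩
    rw [mem_primitiveRoots hp.pos]
    exact h.prim.map_of_injective σ.injective
  have hTcard : T.card ≤ p - 1 := by
    refine (Finset.card_filter_le _ _).trans ?_
    rw [h.prim.card_primitiveRoots, Nat.totient_prime hp]
  let f : Qb → Qb := fun μ => if hμ : ∃ σ ∈ Iner A, σ ζ = μ then hμ.choose b else 0
  have hST : S ⊆ T.image f := by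
    intro β hβ
    obtain ⟨σ, hσ, rfl⟩ := (hS β).1 hβ
    have hμ : ∃ τ ∈ Iner A, τ ζ = σ ζ := ⟨σ, hσ, rfl⟩
    refine Finset.mem_image.2 ⟨σ ζ, (hT _).2 hμ, ?_⟩
    simp only [f, dif_pos hμ]
    obtain ⟨h1, h2⟩ := hμ.choose_spec
    have h3 : (σ⁻¹ * hμ.choose) b = b := by
      refine hb _ (mul_mem (inv_mem hσ) h1) ?_
      rw [AlgEquiv.mul_apply, h2]
      exact σ.symm_apply_apply ζ
    rw [AlgEquiv.mul_apply] at h3
    have h4 := congrArg σ h3
    rw [← h4]
    exact (σ.apply_symm_apply _).symm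
  have hn1 : S.card ≤ p - 1 := (Finset.card_le_card hST).trans (Finset.card_image_le.trans hTcard)
  have hn0 : 0 < S.card := Finset.card_pos.2 ⟨b, (hS b).2 ⟨1, one_mem _, rfl⟩⟩
  have hcop : p.Coprime S.card := by
    rw [Nat.Prime.coprime_iff_not_dvd hp]
    intro hd
    have := Nat.le_of_dvd hn0 hd
    have := hp.pos
    omega
  obtain ⟨m, -, hm⟩ := Nat.exists_mul_mod_eq_one_of_coprime hcop.symm hp.one_lt
  set n := S.card with hn
  set l := n * m / p with hl
  have hnm : n * m = 1 + p * l := by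
    have := Nat.div_add_mod (n * m) p
    rw [hm, ← hl] at this
    omega
  set N : Qb := ∏ β ∈ S, β with hN
  have hN0 : N ≠ 0 := by
    rw [hN, Finset.prod_ne_zero_iff]
    intro β hβ
    obtain ⟨σ, -, rfl⟩ := (hS β).1 hβ
    exact (map_ne_zero σ).2 hb0
  have hNK : N ∈ K0 A := by
    rw [Fermat.Agent.Lib.InertiaField.mem_K0_iff]
    intro τ hτ
    rw [hN, map_prod]
    refine Finset.prod_bij (fun β _ => τ β) ?_ ?_ ?_ ?_
    · intro β hβ
      obtain ⟨σ, hσ, rfl⟩ := (hS β).1 hβ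
      exact (hS _).2 ⟨τ * σ, mul_mem hτ hσ, rfl⟩
    · intro β _ γ _ hβγ
      exact τ.injective hβγ
    · intro β hβ
      obtain ⟨σ, hσ, rfl⟩ := (hS β).1 hβ
      refine ⟨(τ⁻¹ * σ) b, (hS _).2 ⟨τ⁻¹ * σ, mul_mem (inv_mem hτ) hσ, rfl⟩, ?_⟩
      rw [AlgEquiv.mul_apply]
      exact τ.apply_symm_apply _
    · intro β _
      rfl
  have hprod : A.valuation (∏ β ∈ S, a * β ^ p - 1) ≤ A.valuation (p : Qb) := by
    refine normDesc_prod hpA S (fun β => a * β ^ p) ?_
    intro β hβ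
    obtain ⟨σ, hσ, rfl⟩ := (hS β).1 hβ
    have h1 : a * σ b ^ p - 1 = σ (a * b ^ p - 1) := by
      rw [map_sub, map_mul, map_pow, map_one,
        (Fermat.Agent.Lib.InertiaField.mem_K0_iff A a).1 ha σ hσ]
    rw [h1, Fermat.Agent.S56.Flat.Irr.val_apply
      (Fermat.Agent.Lib.InertiaField.inertia_le_decomposition A hσ)]
    exact hval
  have hprod' : ∏ β ∈ S, a * β ^ p = a ^ n * N ^ p := by
    rw [Finset.prod_mul_distrib, Finset.prod_const, Finset.prod_pow]
  rw [hprod'] at hprod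
  refine ⟨a ^ l * N ^ m, mul_ne_zero (pow_ne_zero _ ha0) (pow_ne_zero _ hN0),
    mul_mem (pow_mem ha _) (pow_mem hNK _), ?_⟩
  have h2 : a * (a ^ l * N ^ m) ^ p = (a ^ n * N ^ p) ^ m := by
    rw [mul_pow, mul_pow, ← pow_mul, ← pow_mul, ← pow_mul, ← pow_mul, hnm, ← mul_assoc,
      pow_add, pow_one, mul_comm l p, mul_comm m p]
  rw [h2]
  exact normDesc_pow hpA hprod m

end Fermat.Agent.S56.Flat.Red
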