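/-
S56 / FLAT / RED (architect helper15), task RED-A6 (owner helper118): flat ==> peu ramifié.  FINAL.
-/
import Fermat.Agent.S56.Flat.Red.Defs
import Fermat.Agent.S56.Flat.Ram.Main
import Fermat.Agent.S56.Flat.Red.OmNe
import Fermat.Agent.S56.Flat.Red.NormDesc
import Fermat.Agent.S56.Flat.Red.H90
import Fermat.Agent.S56.Flat.Red.Om

set_option autoImplicit false

namespace Fermat.Agent.S56.Flat.Red

open Fermat.Agent.S55
open Fermat.Agent.S53 (M2)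
open Fermat.Agent.S56.Flat.Irr (kb rs)
open Fermat.Agent.Lib.InertiaField (K0)

variable {A : ValuationSubring Qb} {p : ℕ} [Fact p.Prime] {ζ : Qb}
variable {W : Type} [AddCommGroup W] [DistribMulAction ↥(Iner A) W]

theorem kummer_level_K0 (h : Std A p ζ) [Finite W] (hpW : ∀ w : W, p • w = 0) (hW : FlatLoc A W)
    (a α : Qb) (ha0 : a ≠ 0) (ha : a ∈ K0 A) (hα : α ^ p = a)
    (hfixζ : ∀ σ : ↥(Iner A), ActsTriv W σ → σ.1 ζ = ζ)
    (hfixα : ∀ σ : ↥(Iner A), ActsTriv W σ → σ.1 α = α) :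
    ∃ b : Qb, b ≠ 0 ∧ b ∈ K0 A ∧ A.valuation (a * b ^ p - 1) ≤ A.valuation (p : Qb) := by
  have hp : p.Prime := Fact.out
  have hp1 : 0 < p - 1 := by have := hp.two_le; omega
  obtain ⟨ϖ, hϖ⟩ := IsAlgClosed.exists_pow_nat_eq (p : Qb) hp1
  have he : ¬ p ∣ p - 1 := fun hd => by
    have := Nat.le_of_dvd hp1 hd
    omega
  obtain ⟨b, hb0, hb, hval⟩ := FlatLoc.kummer_level hp h.odd h.lies hpW hW (p - 1) he dvd_rfl ϖ hϖ
    a α ha0 (fun σ _ => (Fermat.Agent.Lib.InertiaField.mem_K0_iff A a).1 ha σ.1 σ.2) hα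
    (fun σ hσ => h.fix_unif hϖ σ.2 (hfixζ σ hσ)) hfixα
  exact exists_K0_of_fixed h a b ha0 ha hb0
    (fun σ hσ hζ => hb ⟨σ, hσ⟩ (h.fix_unif hϖ hσ hζ)) hval

theorem peu_of_flat (h : Std A p ζ) [Finite W] (hpW : ∀ w : W, p • w = 0) (hW : FlatLoc A W)
    (e : GQ → ZMod p)
    (hcoc : ∀ σ ∈ Iner A, ∀ τ ∈ Iner A, e (σ * τ) = e σ + om p ζ σ * e τ)
    (hlev : ∃ F : IntermediateField ℚ Qb, FiniteDimensional ℚ F ∧
      ∀ n ∈ Iner A, (∀ a ∈ F, n a = a) → e n = 0)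
    (htriv : ∀ σ : ↥(Iner A), ActsTriv W σ → e σ.1 = 0 ∧ om p ζ σ.1 = 1) :
    ∃ x, Peu A p ζ e x := by
  have hp : p.Prime := Fact.out
  have hp0 : (p : Qb) ≠ 0 := Nat.cast_ne_zero.2 hp.ne_zero
  obtain ⟨α, hα0, hα⟩ := exists_isKum h e hcoc hlev
  have ha0 : α ^ p ≠ 0 := pow_ne_zero _ hα0
  have ha : α ^ p ∈ K0 A := by
    rw [Fermat.Agent.Lib.InertiaField.mem_K0_iff]
    intro σ hσ
    rw [map_pow, hα σ hσ, mul_pow, ← pow_mul, mul_comm (e σ).val, pow_mul, h.prim.pow_eq_one,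
      one_pow, one_mul]
  obtain ⟨b, hb0, hb, hval⟩ := kummer_level_K0 h hpW hW (α ^ p) α ha0 ha rfl
    (fun σ hσ => (om_eq_one_iff h.prim σ.1).1 (htriv σ hσ).2)
    (fun σ hσ => by rw [hα σ.1 σ.2, (htriv σ hσ).1, ZMod.val_zero, pow_zero, one_mul])
  refine ⟨rs A ((α ^ p * b ^ p - 1) / (p : Qb)), α * b, (α ^ p * b ^ p - 1) / (p : Qb),
    ⟨mul_ne_zero hα0 hb0, fun σ hσ => ?_⟩, ?_, ?_, rfl⟩
  · rw [map_mul, hα σ hσ, (Fermat.Agent.Lib.InertiaField.mem_K0_iff A b).1 hb σ hσ, mul_assoc]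
  · rw [← ValuationSubring.valuation_le_one_iff, map_div₀]
    exact div_le_one_of_le₀ hval zero_le
  · rw [mul_pow, mul_div_cancel₀ _ hp0]
    ring

end Fermat.Agent.S56.Flat.Red
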