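/-
S56 / FLAT / RED (architect helper15), task RED-A10: the entries `(0,1)` of `s` and of a normalised
flat cocycle are peu ramifié; assembly `exists_nrm`.

PROOF FILE (no gap of its own); it imports the stubs `WIP/PeuFlat.lean` (RED-A6), `WIP/Normalize.lean` (RED-A9),
`WIP/Conj.lean` (RED-C2).  When these three are final: move this file to `Red/PeuCoc.lean`, swap the three
imports, and replace `WIP/PeuCoc.lean` by the import of the final file.
-/
import Fermat.Agent.S56.Flat.Red.Om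
import Fermat.Agent.S56.Flat.Red.PeuFlat
import Fermat.Agent.S56.Flat.Red.Normalize
import Fermat.Agent.S56.Flat.Red.Conj

set_option autoImplicit false

namespace Fermat.Agent.S56.Flat.Red

open Fermat.Agent.S55
open Fermat.Agent.S53 (M2)
open Fermat.Agent.S56.Flat.Irr (kb rs)
open Fermat.Agent.Lib.InertiaField (K0)

variable {A : ValuationSubring Qb} {p : ℕ} [Fact p.Prime] {ζ : Qb}
variable {k : Type} [Field k] [Algebra (ZMod p) k] [Finite k] {s : GQ →* M2 k}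

/-! ### auxiliary lemmas -/

omit [Finite k] in
/-- `WI u` is killed by `p`. -/
private theorem peuCoc_nsmul (u : FC.ICoc A s) (w : FC.WI u) : p • w = 0 := by
  have : CharP k p := charP_of_injective_algebraMap (algebraMap (ZMod p) k).injective p
  have h0 : ∀ v : Fin 2 → k, p • v = 0 := by
    intro v
    funext i
    rw [Pi.smul_apply, nsmul_eq_mul, CharP.cast_eq_zero, zero_mul, Pi.zero_apply]
  exact Prod.ext (h0 w.1) (h0 w.2)

omit [Finite k] in
/-- `l (ω x) = ω l(x)`. -/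
private theorem peuCoc_lin (l : Lam p k) (a : ZMod p) (x : k) :
    l (algebraMap (ZMod p) k a * x) = a * l x := by
  rw [← Algebra.smul_def, map_smul, smul_eq_mul]

omit [Finite k] in
/-- a matrix acting trivially is `1`. -/
private theorem peuCoc_eq_one {M : M2 k} (h : ∀ v : Fin 2 → k, M.mulVec v = v) : M = 1 := by
  apply Matrix.ext_of_mulVec_single
  intro i
  rw [h, Matrix.one_mulVec]

omit [Finite k] in
private theorem peuCoc_eq_zero {M : M2 k} (h : ∀ v : Fin 2 → k, M.mulVec v = 0) : M = 0 := by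
  apply Matrix.ext_of_mulVec_single
  intro i
  rw [h, Matrix.zero_mulVec]

omit [Finite k] in
/-- `σ` trivial on `WI u` ==> `s σ = 1` and `u σ = 0`. -/
private theorem peuCoc_triv (u : FC.ICoc A s) (σ : ↥(Iner A)) (hσ : ActsTriv (FC.WI u) σ) :
    s σ.1 = 1 ∧ u σ = 0 := by
  have h1 : s σ.1 = 1 := by
    apply peuCoc_eq_one
    intro v
    have := congrArg (FC.WI.fst u) (hσ (FC.WI.mk u v 0))
    simpa using this
  refine ⟨h1, ?_⟩
  apply peuCoc_eq_zero
  intro v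
  have := congrArg (FC.WI.snd u) (hσ (FC.WI.mk u v 0))
  simpa [h1] using this

omit [Finite k] in
/-- `σ` trivial on `WI u` ==> `om σ = 1`. -/
private theorem peuCoc_om (hUT : UT A p ζ s) (σ : ↥(Iner A)) (h1 : s σ.1 = 1) :
    om p ζ σ.1 = 1 := by
  have h2 := hUT.cyc σ.1 σ.2
  rw [h1, Matrix.one_apply_eq] at h2
  exact (algebraMap (ZMod p) k).injective (by rw [← h2, map_one])

omit [Finite k] in
/-- entry `(0,1)` of `S M S'` for `M = z E₀₁`, `S = (a, b; 0, 1)`. -/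
private theorem peuCoc_conj (S S' M : M2 k) (h : S * S' = 1) (h10 : S 1 0 = 0) (h11 : S 1 1 = 1)
    (hM10 : M 1 0 = 0) (hM00 : M 0 0 = 0) (hM11 : M 1 1 = 0) :
    (S * M * S') 0 1 = S 0 0 * M 0 1 := by
  have e11 : (S * S') 1 1 = 1 := by rw [h, Matrix.one_apply_eq]
  rw [Matrix.mul_apply, Fin.sum_univ_two, h10, h11, zero_mul, zero_add, one_mul] at e11
  rw [Matrix.mul_apply, Fin.sum_univ_two, Matrix.mul_apply, Fin.sum_univ_two, Matrix.mul_apply,
    Fin.sum_univ_two, hM10, hM00, hM11, e11]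
  ring

/-! ## RED-A10 -/

theorem peuK_bt (h : Std A p ζ) (hUT : UT A p ζ s) (hs : FinLev s) {c : GQ → M2 k}
    (hfl : Fl A s c) : PeuK A p ζ (fun σ => s σ 0 1) := by
  intro l
  obtain ⟨u, -, hW⟩ := hfl
  refine peu_of_flat (W := FC.WI u) h (peuCoc_nsmul u) hW (fun σ => l (s σ 0 1)) ?_ ?_ ?_
  · intro σ hσ τ hτ
    show l (s (σ * τ) 0 1) = l (s σ 0 1) + om p ζ σ * l (s τ 0 1)
    rw [map_mul, Matrix.mul_apply, Fin.sum_univ_two, hUT.cyc σ hσ, hUT.unr τ hτ, mul_one, map_add,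
      peuCoc_lin, add_comm]
  · obtain ⟨F, hF, hF1⟩ := hs
    refine ⟨F, hF, fun n _ hn => ?_⟩
    show l (s n 0 1) = 0
    rw [hF1 n hn, Matrix.one_apply_ne (by decide), map_zero]
  · intro σ hσ
    obtain ⟨h1, -⟩ := peuCoc_triv u σ hσ
    refine ⟨?_, peuCoc_om hUT σ h1⟩
    show l (s σ.1 0 1) = 0
    rw [h1, Matrix.one_apply_ne (by decide), map_zero]

theorem peuK_coc (h : Std A p ζ) (hUT : UT A p ζ s) {c : GQ → M2 k}
    (hc : DCoc A s c) (hfl : Fl A s c) (h10 : ∀ σ ∈ Iner A, c σ 1 0 = 0)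
    (h00 : ∀ σ ∈ Iner A, c σ 0 0 = 0) : PeuK A p ζ (fun σ => c σ 0 1) := by
  intro l
  have hID : ∀ σ ∈ Iner A, σ ∈ Dec A := fun σ hσ =>
    Fermat.Agent.Lib.InertiaField.inertia_le_decomposition A hσ
  obtain ⟨u, hu, hW⟩ := hfl
  refine peu_of_flat (W := FC.WI u) h (peuCoc_nsmul u) hW (fun σ => l (c σ 0 1)) ?_ ?_ ?_
  · intro σ hσ τ hτ
    show l (c (σ * τ) 0 1) = l (c σ 0 1) + om p ζ σ * l (c τ 0 1)
    have hss : s σ * s σ⁻¹ = 1 := by rw [← map_mul, mul_inv_cancel, map_one]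
    have h11 : c τ 1 1 = 0 := by
      have := hc.tr τ (hID τ hτ)
      rwa [h00 τ hτ, zero_add] at this
    rw [hc.coc σ (hID σ hσ) τ (hID τ hτ), Matrix.add_apply,
      peuCoc_conj (s σ) (s σ⁻¹) (c τ) hss (hUT.tri σ (hID σ hσ)) (hUT.unr σ hσ) (h10 τ hτ)
        (h00 τ hτ) h11, hUT.cyc σ hσ, map_add, peuCoc_lin]
  · obtain ⟨F, hF, hF1⟩ := hc.lev
    refine ⟨F, hF, fun n hn hnF => ?_⟩
    show l (c n 0 1) = 0
    rw [hF1 n (hID n hn) hnF, Matrix.zero_apply, map_zero]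
  · intro σ hσ
    obtain ⟨h1, h2⟩ := peuCoc_triv u σ hσ
    refine ⟨?_, peuCoc_om hUT σ h1⟩
    show l (c σ.1 0 1) = 0
    rw [← hu σ, h2, Matrix.zero_apply, map_zero]

/-- assembly of RED-A9, RED-C2, RED-A10 -/
theorem exists_nrm (h : Std A p ζ) (hUT : UT A p ζ s) (hs : FinLev s) {c : GQ → M2 k}
    (hc : DCoc A s c) (hfl : Fl A s c) :
    ∃ m : M2 k, m.trace = 0 ∧ Nrm A p ζ s (addCob s c m) := by
  obtain ⟨m, hm, h10, h00⟩ := exists_normalize h hUT hc hfl
  have hc' : DCoc A s (addCob s c m) := DCoc.addCob hs hc m hm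
  have hfl' : Fl A s (addCob s c m) := Fl.addCob hfl m
  refine ⟨m, hm, ⟨hc'.coc, hc'.tr, h10, h00, ?_⟩⟩
  exact peuK_coc h hUT hc' hfl'
    (fun σ hσ => h10 σ (Fermat.Agent.Lib.InertiaField.inertia_le_decomposition A hσ)) h00

end Fermat.Agent.S56.Flat.Red
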