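/-
S56 / FLAT / RED (architect helper15), task RED-T1: the count in upper triangular coordinates
(assembly).  Final home: `Red/Core.lean` (swap the five imports when the dependencies land).
Proof: helper251.
-/
import Fermat.Agent.S56.Flat.Red.PeuCoc
import Fermat.Agent.S56.Flat.Red.Xi
import Fermat.Agent.S56.Flat.Red.FrobRel
import Fermat.Agent.S56.Flat.Red.AlgCount
import Fermat.Agent.S56.Flat.Red.Fiber
import Fermat.Agent.S56.Flat.Irr.Res

set_option autoImplicit false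

namespace Fermat.Agent.S56.Flat.Red

open Fermat.Agent.S55
open Fermat.Agent.S53 (M2)
open Fermat.Agent.S56.Flat.Irr (kb rs)
open Fermat.Agent.Lib.InertiaField (K0)

variable {A : ValuationSubring Qb} {p : ℕ} [Fact p.Prime] {ζ : Qb}
variable {k : Type} [Field k] [Algebra (ZMod p) k] [Finite k] {s : GQ →* M2 k}

/-! ## RED-T1: the count in upper triangular coordinates -/

/-- the invariant of a peu ramifié cocycle, as an additive map -/
noncomputable def coreXi (h : Std A p ζ) (z : GQ → k) (hz : PeuK A p ζ z) : Lam p k →+ kb A :=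
  AddMonoidHom.mk' (xi A p ζ z) (xi_add_lam h hz)

omit [Finite k] in
theorem coreXi_apply (h : Std A p ζ) (z : GQ → k) (hz : PeuK A p ζ z) (l : Lam p k) :
    coreXi h z hz l = xi A p ζ z l := rfl

omit [Fact p.Prime] [Algebra (ZMod p) k] [Finite k] in
theorem core_cob_sub {c c' : GQ → M2 k} {m₁ m₂ m : M2 k} {σ : GQ}
    (hm : addCob s c m₁ σ - addCob s c' m₂ σ = s σ * m * s σ⁻¹ - m) :
    c σ - c' σ = s σ * (m - m₁ + m₂) * s σ⁻¹ - (m - m₁ + m₂) := by
  have h1 : c σ - c' σ = (addCob s c m₁ σ - addCob s c' m₂ σ) - (s σ * m₁ * s σ⁻¹ - m₁)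
      + (s σ * m₂ * s σ⁻¹ - m₂) := by
    simp only [addCob]
    abel
  rw [h1, hm]
  simp only [mul_add, mul_sub, add_mul, sub_mul]
  abel

theorem countCore (h : Std A p ζ) {φ : GQ} (hφ : A.IsFrobeniusAt φ p) (hUT : UT A p ζ s)
    (hs : FinLev s) :
    ∃ (T : Type) (_ : Finite T) (Φ : {c : GQ → M2 k // DCoc A s c ∧ Fl A s c} → T),
      Nat.card T ≤ Nat.card k ∧ ∀ c c', Φ c = Φ c' →
        ∃ m : M2 k, m.trace = 0 ∧ ∀ σ ∈ Iner A, c.1 σ - c'.1 σ = s σ * m * s σ⁻¹ - m := by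
  by_cases hne : Nonempty {c : GQ → M2 k // DCoc A s c ∧ Fl A s c}
  swap
  · refine ⟨PUnit, inferInstance, fun _ => PUnit.unit, ?_, fun c => (hne ⟨c⟩).elim⟩
    rw [Nat.card_unique]
    exact Nat.card_pos
  obtain ⟨c₀⟩ := hne
  have hb : PeuK A p ζ (fun σ => s σ 0 1) := peuK_bt h hUT hs c₀.2.2
  have : CharP (kb A) p := Irr.charP_kb Fact.out h.lies
  have hu : mult p ζ s φ ≠ 0 := mult_ne_zero h hUT hφ
  have hβ : ∀ l, coreXi h _ hb l ^ p = coreXi h _ hb (sc (mult p ζ s φ) l) :=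
    frob_rel_bt h hUT hφ hb
  obtain ⟨hfin, hcard⟩ := card_ZZ_quot_le (mult p ζ s φ) hu (coreXi h _ hb) hβ
  choose mc hmc0 hmc using fun c : {c : GQ → M2 k // DCoc A s c ∧ Fl A s c} =>
    exists_nrm h hUT hs c.2.1 c.2.2
  refine ⟨↥((ZZ (mult p ζ s φ) (coreXi h _ hb)).map (QuotientAddGroup.mk' (kMul (coreXi h _ hb)))),
    hfin, fun c => ⟨QuotientAddGroup.mk' (kMul (coreXi h _ hb)) (coreXi h _ (hmc c).peu),
      AddSubgroup.mem_map_of_mem _ (frob_rel h hUT hφ hb (hmc c))⟩, hcard, ?_⟩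
  intro c c' hcc
  have h1 : (QuotientAddGroup.mk' (kMul (coreXi h _ hb)) (coreXi h _ (hmc c').peu)) =
      QuotientAddGroup.mk' (kMul (coreXi h _ hb)) (coreXi h _ (hmc c).peu) :=
    (congrArg Subtype.val hcc).symm
  obtain ⟨x, hx⟩ := QuotientAddGroup.eq.mp h1
  obtain ⟨m, hm0, hm⟩ := cob_of_xi h hUT hb (hmc c) (hmc c') x (fun l => by
    have := hx l
    rw [AddMonoidHom.add_apply, AddMonoidHom.neg_apply, neg_add_eq_sub] at this
    exact this)
  refine ⟨m - mc c + mc c', ?_, fun σ hσ => core_cob_sub (hm σ hσ)⟩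
  rw [Matrix.trace_add, Matrix.trace_sub, hm0, hmc0, hmc0]
  simp

end Fermat.Agent.S56.Flat.Red
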