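/-
S56 / FLAT / RED (architect helper15), task RED-A1 (helper61): a flat module on which `φ σ φ⁻¹` acts
like `σ`: inertia acts by `1` or by `ω` on some vector.
-/
import Fermat.Agent.S56.Flat.Red.Om
import Fermat.Agent.S56.Flat.Depth.Tame1
import Fermat.Agent.S56.Flat.Depth.SubAction
import Fermat.Agent.S56.Flat.Mod.Sub
import Fermat.Agent.S56.Flat.Irr.Res
import Fermat.Agent.S56.Flat.Irr.Semilin

set_option autoImplicit false

namespace Fermat.Agent.S56.Flat.Red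

open Fermat.Agent.S55
open Fermat.Agent.S53 (M2)
open Fermat.Agent.S56.Flat.Irr (kb rs)
open Fermat.Agent.Lib.InertiaField (K0)

variable {A : ValuationSubring Qb} {p : ℕ} [Fact p.Prime] {ζ : Qb}
variable {W : Type} [AddCommGroup W] [DistribMulAction ↥(Iner A) W]

theorem eigen_val_div {x c : Qb} (hc : c ≠ 0) (h : A.valuation x = A.valuation c) :
    A.valuation (x / c) = 1 := by
  rw [map_div₀, h, div_self ((map_ne_zero _).2 hc)]

theorem eigen_mem_of_val_eq_one {x : Qb} (h : A.valuation x = 1) : x ∈ A :=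
  (A.valuation_le_one_iff x).1 h.le

/-- inertia acts trivially on the residue classes of units -/
theorem eigen_rs_unit {σ : GQ} (hσ : σ ∈ Iner A) {u : Qb} (hu : A.valuation u = 1) :
    rs A (σ u / u) = 1 := by
  have huA : u ∈ A := eigen_mem_of_val_eq_one hu
  have hσu : σ u ∈ A := Fermat.Agent.Lib.InertiaField.apply_mem_of_mem_decomposition A
    (Fermat.Agent.Lib.InertiaField.inertia_le_decomposition A hσ) huA
  have hinv : u⁻¹ ∈ A := by rw [← A.valuation_le_one_iff, map_inv₀, hu, inv_one]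
  rw [div_eq_mul_inv, Irr.rs_mul hσu hinv, Irr.rs_inertia hσ huA, Irr.rs_inv hu, mul_inv_cancel₀]
  intro h0
  rw [Irr.rs_eq_zero_iff huA, ValuationSubring.mem_nonunits_iff] at h0
  exact absurd hu h0.ne

/-- the tame character of `c` is raised to the `p`-th power by conjugation with a Frobenius -/
theorem eigen_theta_conj {φ : GQ} (hφ : A.IsFrobeniusAt φ p) {σ : GQ} (hσ : σ ∈ Iner A) {c : Qb}
    (hc : c ≠ 0) : rs A ((φ * σ * φ⁻¹) c / c) = rs A (σ c / c) ^ p := by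
  have hφD : φ ∈ A.decompositionSubgroup ℚ := hφ.mem_decompositionSubgroup
  have hσD : σ ∈ A.decompositionSubgroup ℚ :=
    Fermat.Agent.Lib.InertiaField.inertia_le_decomposition A hσ
  obtain ⟨c', hc'⟩ : ∃ c' : Qb, c' = φ⁻¹ c := ⟨_, rfl⟩
  have hφc' : φ c' = c := by rw [hc']; exact φ.apply_symm_apply c
  have hc'0 : c' ≠ 0 := by
    rintro rfl
    rw [map_zero] at hφc'
    exact hc hφc'.symm
  have hv' : A.valuation c' = A.valuation c := by rw [hc']; exact Irr.val_apply (inv_mem hφD) c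
  have hu : A.valuation (c' / c) = 1 := eigen_val_div hc hv'
  have h1 : (φ * σ * φ⁻¹) c / c = φ (σ c' / c') := by
    rw [map_div₀, hφc', AlgEquiv.mul_apply, AlgEquiv.mul_apply, ← hc']
  have hσc : σ c ≠ 0 := (map_ne_zero σ).2 hc
  have h2 : σ c' / c' = (σ c / c) * (σ (c' / c) / (c' / c)) := by
    rw [map_div₀]
    field_simp
  have hA1 : σ c / c ∈ A := eigen_mem_of_val_eq_one (eigen_val_div hc (Irr.val_apply hσD c))
  have hA2 : σ (c' / c) / (c' / c) ∈ A :=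
    eigen_mem_of_val_eq_one (eigen_val_div (div_ne_zero hc'0 hc) (Irr.val_apply hσD _))
  have hA3 : σ c' / c' ∈ A := eigen_mem_of_val_eq_one (eigen_val_div hc'0 (Irr.val_apply hσD c'))
  rw [h1, Irr.rs_actsAsPow (N := p)
    ⟨hφD, fun x hx => Fermat.Agent.Lib.InertiaField.frob_apply_sub_pow_mem A p hφ hx⟩ hA3, h2,
    Irr.rs_mul hA1 hA2, eigen_rs_unit hσ hu, mul_one]

theorem eigen_of_irreducible (h : Std A p ζ) {φ : GQ} (hφ : A.IsFrobeniusAt φ p) [Finite W]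
    (hpW : ∀ w : W, p • w = 0) (hW : FlatLoc A W)
    (hirr : ∀ W' : AddSubgroup W, (∀ (σ : ↥(Iner A)), ∀ w ∈ W', σ • w ∈ W') → W' = ⊥ ∨ W' = ⊤)
    (hconj : ∀ σ σ' : ↥(Iner A), σ'.1 = φ * σ.1 * φ⁻¹ → ∀ w : W, σ' • w = σ • w)
    (w : W) (hw : w ≠ 0) :
    (∀ σ : ↥(Iner A), σ • w = w) ∨ (∀ σ : ↥(Iner A), σ • w = (om p ζ σ.1).val • w) := by
  have hp : p.Prime := Fact.out
  have hφD : φ ∈ A.decompositionSubgroup ℚ := hφ.mem_decompositionSubgroup
  rcases FlatLoc.exists_leading_term hp h.odd h.lies hpW hW hirr with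
    h1 | ⟨c, y, hc1, hcp, hy, hyv, hy0, hyadd⟩
  · exact Or.inl fun σ => h1 σ w
  have hc : c ≠ 0 := by
    rintro rfl
    rw [map_zero, zero_pow (by have := hp.two_le; omega)] at hcp
    have h2 : A.valuation (p : Qb) ≠ 0 := (map_ne_zero _).2 (Nat.cast_ne_zero.2 hp.ne_zero)
    exact h2 (le_zero_iff.1 hcp)
  have hvc : A.valuation c ≠ 0 := (map_ne_zero _).2 hc
  have hYA : ∀ w, y w / c ∈ A := by
    intro w
    by_cases hw : w = 0
    · rw [hw, hy0, zero_div]; exact A.zero_mem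
    · exact eigen_mem_of_val_eq_one (eigen_val_div hc (hyv w hw))
  have hYadd : ∀ w w', rs A (y (w + w') / c) = rs A (y w / c) + rs A (y w' / c) := by
    intro w w'
    rw [← Irr.rs_add (hYA w) (hYA w'), Irr.rs_eq_iff (hYA _) (add_mem (hYA w) (hYA w')),
      ValuationSubring.mem_nonunits_iff]
    have h2 : y (w + w') / c - (y w / c + y w' / c) = (y (w + w') - y w - y w') / c := by ring
    rw [h2, map_div₀, div_lt_one₀ (zero_lt_iff.2 hvc)]
    exact hyadd w w'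
  have hY0 : ∀ w, rs A (y w / c) = 0 → w = 0 := by
    intro w h0
    by_contra hw
    rw [Irr.rs_eq_zero_iff (hYA w), ValuationSubring.mem_nonunits_iff,
      eigen_val_div hc (hyv w hw)] at h0
    exact lt_irrefl _ h0
  let Y : W →+ kb A := AddMonoidHom.mk' (fun w => rs A (y w / c)) hYadd
  have hYinj : Function.Injective Y := (injective_iff_map_eq_zero Y).2 hY0
  have hYσ : ∀ (σ : ↥(Iner A)) (w : W), Y (σ • w) = rs A (σ.1 c / c) * Y w := by
    intro σ w
    show rs A (y (σ • w) / c) = rs A (σ.1 c / c) * rs A (y w / c)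
    have hσD : σ.1 ∈ A.decompositionSubgroup ℚ :=
      Fermat.Agent.Lib.InertiaField.inertia_le_decomposition A σ.2
    have hA1 : σ.1 c / c ∈ A := eigen_mem_of_val_eq_one (eigen_val_div hc (Irr.val_apply hσD c))
    have hA2 : σ.1 (y w / c) ∈ A :=
      Fermat.Agent.Lib.InertiaField.apply_mem_of_mem_decomposition A hσD (hYA w)
    have hσc : σ.1 c ≠ 0 := (map_ne_zero σ.1).2 hc
    rw [hy, ← Irr.rs_inertia σ.2 (hYA w), ← Irr.rs_mul hA1 hA2, map_div₀]
    congr 1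
    field_simp
  have hθ : ∀ σ : ↥(Iner A), rs A (σ.1 c / c) ^ p = rs A (σ.1 c / c) := by
    intro σ
    have hmem : φ * σ.1 * φ⁻¹ ∈ Iner A :=
      Fermat.Agent.Lib.InertiaField.conj_mem_inertia A hφD σ.2
    have h1 := hYσ ⟨_, hmem⟩ w
    rw [hconj σ ⟨_, hmem⟩ rfl w, hYσ σ w, eigen_theta_conj hφ σ.2 hc] at h1
    exact (mul_right_cancel₀ (fun h0 => hw (hY0 w h0)) h1).symm
  have hline : ∀ σ : ↥(Iner A), ∃ n : ℕ, σ • w = n • w := by
    intro σ
    haveI := Irr.charP_kb hp h.lies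
    obtain ⟨n, hn⟩ := Irr.exists_natCast_eq_of_pow_eq hp (hθ σ)
    refine ⟨n, hYinj ?_⟩
    rw [hYσ, hn, map_nsmul, nsmul_eq_mul]
  rcases FlatLoc.line_trivial_or_cyclotomic hp h.odd h.lies hW w hw (hpW w) hline with h1 | h1
  · exact Or.inl h1
  · exact Or.inr fun σ =>
      h1 σ ζ _ h.prim.pow_eq_one (h.prim.ne_one hp.one_lt) (om_spec h.prim σ.1)

theorem exists_eigen_sub (h : Std A p ζ) {φ : GQ} (hφ : A.IsFrobeniusAt φ p) [Finite W]
    (hpW : ∀ w : W, p • w = 0) (hW : FlatLoc A W) (W₁ : AddSubgroup W) (hne : W₁ ≠ ⊥)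
    (hs₁ : ∀ (σ : ↥(Iner A)), ∀ w ∈ W₁, σ • w ∈ W₁)
    (hconj : ∀ σ σ' : ↥(Iner A), σ'.1 = φ * σ.1 * φ⁻¹ → ∀ w ∈ W₁, σ' • w = σ • w) :
    ∃ w ∈ W₁, w ≠ 0 ∧
      ((∀ σ : ↥(Iner A), σ • w = w) ∨ (∀ σ : ↥(Iner A), σ • w = (om p ζ σ.1).val • w)) := by
  obtain ⟨W₀, hW₀⟩ := Set.Finite.exists_minimal
    (Set.toFinite {W' : AddSubgroup W | W' ≤ W₁ ∧ W' ≠ ⊥ ∧
      ∀ (σ : ↥(Iner A)), ∀ w ∈ W', σ • w ∈ W'}) ⟨W₁, le_rfl, hne, hs₁⟩
  obtain ⟨⟨hle, hne₀, hs₀⟩, hmin⟩ := hW₀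
  letI := subAction W₀ hs₀
  obtain ⟨w₀, hw₀⟩ := (AddSubgroup.ne_bot_iff_exists_ne_zero).1 hne₀
  have key := eigen_of_irreducible (W := ↥W₀) (ζ := ζ) h hφ
    (fun w => Subtype.ext (hpW w.1))
    (hW.of_injective (subMap W₀ hs₀) (subMap_injective W₀ hs₀))
    (by
      intro W' hW'
      by_cases hb : W'.map W₀.subtype = ⊥
      · left
        exact (AddSubgroup.map_eq_bot_iff_of_injective W' W₀.subtype_injective).1 hb
      · right
        have hle' : W'.map W₀.subtype ≤ W₀ := by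
          rintro _ ⟨x, -, rfl⟩
          exact x.2
        have h2 : W₀ ≤ W'.map W₀.subtype := by
          refine hmin ⟨hle'.trans hle, hb, ?_⟩ hle'
          rintro σ _ ⟨x, hx, rfl⟩
          exact ⟨σ • x, hW' σ x hx, rfl⟩
        rw [eq_top_iff]
        intro x _
        obtain ⟨x', hx', hxx'⟩ := h2 x.2
        have : x' = x := Subtype.ext hxx'
        rwa [← this])
    (fun σ σ' hσ w => Subtype.ext (hconj σ σ' hσ w.1 (hle w.2)))
    w₀ hw₀
  refine ⟨w₀.1, hle w₀.2, fun h0 => hw₀ (Subtype.ext h0), ?_⟩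
  rcases key with key | key
  · exact Or.inl fun σ => congrArg Subtype.val (key σ)
  · exact Or.inr fun σ => congrArg Subtype.val (key σ)

end Fermat.Agent.S56.Flat.Red
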