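/-
S56 / FLAT / RED (architect helper15), task RED-A2 (helper147): one of the two characters of `s|D` is
trivial on inertia.
-/
import Fermat.Agent.S56.Flat.Red.Defs
import Fermat.Agent.S56.Flat.Red.Om
import Fermat.Agent.S56.Flat.Red.Eigen

set_option autoImplicit false

namespace Fermat.Agent.S56.Flat.Red

open Fermat.Agent.S55
open Fermat.Agent.S53 (M2)
open Fermat.Agent.S56.Flat.Irr (kb rs)
open Fermat.Agent.Lib.InertiaField (K0)

variable {A : ValuationSubring Qb} {p : ℕ} [Fact p.Prime] {ζ : Qb}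
variable {k : Type} [Field k] [Algebra (ZMod p) k] [Finite k] {s : GQ →* M2 k}

/-- a vector `y` with `det [v | y] = 0` is a multiple of `v` -/
private theorem Line1_mem_line {K : Type} [Field K] (v y : Fin 2 → K) (hv : v ≠ 0)
    (h : v 0 * y 1 - v 1 * y 0 = 0) : ∃ a : K, y = a • v := by
  by_cases h0 : v 0 = 0
  · have h1 : v 1 ≠ 0 := by
      intro h1
      apply hv
      funext i
      fin_cases i
      · exact h0
      · exact h1
    refine ⟨y 1 / v 1, ?_⟩
    have hy0 : y 0 = 0 := by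
      rw [h0, zero_mul, zero_sub, neg_eq_zero] at h
      exact (mul_eq_zero.1 h).resolve_left h1
    funext i
    fin_cases i
    · simp [hy0, h0]
    · simp [h1]
  · refine ⟨y 0 / v 0, ?_⟩
    funext i
    fin_cases i
    · simp [h0]
    · simp only [Fin.mk_one, Fin.isValue, Pi.smul_apply, smul_eq_mul]
      field_simp
      linear_combination h

/-- `det [M v | M x] = det M * det [v | x]` -/
private theorem Line1_det {K : Type} [Field K] (M : Matrix (Fin 2) (Fin 2) K) (v x : Fin 2 → K) :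
    (M.mulVec v) 0 * (M.mulVec x) 1 - (M.mulVec v) 1 * (M.mulVec x) 0 =
      M.det * (v 0 * x 1 - v 1 * x 0) := by
  simp only [Matrix.mulVec, dotProduct, Fin.sum_univ_two, Matrix.det_fin_two]
  ring

/-- linear algebra: `M v = ω v`, `det M = ω ≠ 0` imply that `M` acts trivially modulo `v` -/
private theorem Line1_quot {K : Type} [Field K] (M : Matrix (Fin 2) (Fin 2) K) (v : Fin 2 → K)
    (hv : v ≠ 0) (ω : K) (hω : ω ≠ 0) (hM : M.mulVec v = ω • v) (hdet : M.det = ω)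
    (x : Fin 2 → K) : ∃ a : K, M.mulVec x - x = a • v := by
  apply Line1_mem_line v _ hv
  have h1 := Line1_det M v x
  rw [hM, hdet] at h1
  simp only [Pi.smul_apply, smul_eq_mul] at h1
  have h2 : ω * (v 0 * (M.mulVec x - x) 1 - v 1 * (M.mulVec x - x) 0) = 0 := by
    simp only [Pi.sub_apply]
    linear_combination h1
  exact (mul_eq_zero.1 h2).resolve_left hω

/-- the line `{(0, a v)}` -/
private def Line1_W1 (u : FC.ICoc A s) (v : Fin 2 → k) : AddSubgroup (FC.WI u) where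
  carrier := {w | w.fst = 0 ∧ ∃ a : k, w.snd = a • v}
  zero_mem' := ⟨rfl, 0, by simp⟩
  add_mem' := by
    rintro x y ⟨hx, a, ha⟩ ⟨hy, b, hb⟩
    exact ⟨by rw [FC.WI.fst_add, hx, hy, add_zero], a + b, by rw [FC.WI.snd_add, ha, hb, add_smul]⟩
  neg_mem' := by
    rintro x ⟨hx, a, ha⟩
    refine ⟨?_, -a, ?_⟩
    · change -x.fst = 0
      rw [hx, neg_zero]
    · change -x.snd = _
      rw [ha, neg_smul]

theorem char_cases (h : Std A p ζ) {φ : GQ} (hφ : A.IsFrobeniusAt φ p)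
    (hdet : ∀ σ ∈ Iner A, (s σ).det = algebraMap (ZMod p) k (om p ζ σ))
    (u : FC.ICoc A s) (hW : FlatLoc A (FC.WI u)) (v : Fin 2 → k) (hv : v ≠ 0)
    (hst : ∀ g ∈ Dec A, ∃ a : k, (s g).mulVec v = a • v) :
    (∀ σ ∈ Iner A, (s σ).mulVec v = v) ∨
      (∀ σ ∈ Iner A, ∀ x : Fin 2 → k, ∃ a : k, (s σ).mulVec x - x = a • v) := by
  have hchar : CharP k p := charP_of_injective_algebraMap (algebraMap (ZMod p) k).injective p
  have hID : ∀ σ ∈ Iner A, σ ∈ Dec A := fun σ hσ =>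
    Fermat.Agent.Lib.InertiaField.inertia_le_decomposition A hσ
  have hpW : ∀ w : FC.WI u, p • w = 0 := by
    intro w
    have hz : ∀ f : Fin 2 → k, p • f = 0 := by
      intro f
      funext i
      rw [Pi.smul_apply, nsmul_eq_mul, CharP.cast_eq_zero k p, zero_mul, Pi.zero_apply]
    apply FC.WI.ext
    · change p • w.fst = 0
      exact hz _
    · change p • w.snd = 0
      exact hz _
  have hne : Line1_W1 u v ≠ ⊥ := by
    intro hbot
    have hmem : FC.WI.mk u 0 v ∈ Line1_W1 u v := ⟨rfl, 1, by simp⟩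
    rw [hbot, AddSubgroup.mem_bot] at hmem
    exact hv (congrArg (FC.WI.snd u) hmem)
  have hs₁ : ∀ (σ : ↥(Iner A)), ∀ w ∈ Line1_W1 u v, σ • w ∈ Line1_W1 u v := by
    rintro σ w ⟨hw, a, ha⟩
    obtain ⟨c, hc⟩ := hst σ.1 (hID _ σ.2)
    refine ⟨?_, a * c, ?_⟩
    · rw [FC.WI.fst_smul, hw, Matrix.mulVec_zero]
    · rw [FC.WI.snd_smul, hw, Matrix.mulVec_zero, add_zero, ha, Matrix.mulVec_smul, hc, smul_smul]
  have hφD : φ ∈ Dec A := hφ.mem_decompositionSubgroup
  have hconjv : ∀ σ ∈ Iner A, (s (φ * σ * φ⁻¹)).mulVec v = (s σ).mulVec v := by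
    intro σ hσ
    obtain ⟨a, ha⟩ := hst φ hφD
    obtain ⟨b, hb⟩ := hst φ⁻¹ (inv_mem hφD)
    obtain ⟨c, hc⟩ := hst σ (hID _ hσ)
    have hab : (a * b) • v = v := by
      have h1 : (s (φ * φ⁻¹)).mulVec v = v := by rw [mul_inv_cancel, map_one, Matrix.one_mulVec]
      rw [map_mul, ← Matrix.mulVec_mulVec, hb, Matrix.mulVec_smul, ha, smul_smul, mul_comm] at h1
      exact h1
    rw [map_mul, map_mul, ← Matrix.mulVec_mulVec, ← Matrix.mulVec_mulVec, hb, Matrix.mulVec_smul, hc,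
      Matrix.mulVec_smul, Matrix.mulVec_smul, ha, smul_smul, smul_smul]
    have h2 : b * c * a = c * (a * b) := by ring
    rw [h2, mul_smul, hab]
  have hconj : ∀ σ σ' : ↥(Iner A), σ'.1 = φ * σ.1 * φ⁻¹ →
      ∀ w ∈ Line1_W1 u v, σ' • w = σ • w := by
    rintro σ σ' hσ w ⟨hw, a, ha⟩
    apply FC.WI.ext
    · rw [FC.WI.fst_smul, FC.WI.fst_smul, hw, Matrix.mulVec_zero, Matrix.mulVec_zero]
    · rw [FC.WI.snd_smul, FC.WI.snd_smul, hw, Matrix.mulVec_zero, Matrix.mulVec_zero, ha,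
        Matrix.mulVec_smul, Matrix.mulVec_smul, hσ, hconjv σ.1 σ.2]
  obtain ⟨w, ⟨hw, a, ha⟩, hw0, hcase⟩ :=
    exists_eigen_sub h hφ hpW hW (Line1_W1 u v) hne hs₁ hconj
  have ha0 : a ≠ 0 := by
    rintro rfl
    apply hw0
    apply FC.WI.ext
    · exact hw
    · rw [ha, zero_smul]
      rfl
  have hsnd : ∀ σ : ↥(Iner A), (σ • w).snd = a • (s σ.1).mulVec v := by
    intro σ
    rw [FC.WI.snd_smul, hw, Matrix.mulVec_zero, add_zero, ha, Matrix.mulVec_smul]
  rcases hcase with hc | hc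
  · left
    intro σ hσ
    have h1 := hsnd ⟨σ, hσ⟩
    rw [hc ⟨σ, hσ⟩, ha] at h1
    exact (smul_right_injective _ ha0 h1).symm
  · right
    intro σ hσ x
    have h1 := hsnd ⟨σ, hσ⟩
    rw [hc ⟨σ, hσ⟩] at h1
    have h2 : ((om p ζ σ).val • w).snd = (om p ζ σ).val • w.snd := rfl
    rw [h2, ha] at h1
    have h3 : (s σ).mulVec v = algebraMap (ZMod p) k (om p ζ σ) • v := by
      have h4 : (om p ζ σ).val • a • v = a • (algebraMap (ZMod p) k (om p ζ σ) • v) := by
        have h5 : algebraMap (ZMod p) k (om p ζ σ) = ((om p ζ σ).val : k) := by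
          conv_lhs => rw [← ZMod.natCast_zmod_val (om p ζ σ), map_natCast]
        rw [h5, smul_comm a, Nat.cast_smul_eq_nsmul]
      rw [h4] at h1
      exact (smul_right_injective _ ha0 h1).symm
    exact Line1_quot (s σ) v hv _ ((map_ne_zero _).2 (om_ne_zero h.prim σ)) h3 (hdet σ hσ) x

end Fermat.Agent.S56.Flat.Red
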