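/-
S56 / FLAT / RED (architect helper15), task RED-A3 (owner helper220): the canonical line `(I - 1) k²`.
-/
import Fermat.Agent.S56.Flat.Red.Defs
import Fermat.Agent.S56.Flat.Red.AugApi
import Fermat.Agent.S56.Flat.Red.Line1
import Fermat.Agent.S56.Flat.Red.OmNe
import Fermat.Agent.S56.Flat.Depth.Et

set_option autoImplicit false

namespace Fermat.Agent.S56.Flat.Red

open Fermat.Agent.S55
open Fermat.Agent.S53 (M2)
open Fermat.Agent.S56.Flat.Irr (kb rs)
open Fermat.Agent.Lib.InertiaField (K0)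

variable {A : ValuationSubring Qb} {p : ℕ} [Fact p.Prime] {ζ : Qb}
variable {k : Type} [Field k] [Algebra (ZMod p) k] [Finite k] {s : GQ →* M2 k}

omit [Finite k] in
/-- `W = WI u` is killed by `p`. -/
theorem Line2.nsmul_eq_zero (u : FC.ICoc A s) (w : FC.WI u) : p • w = 0 := by
  have : CharP k p := (Algebra.charP_iff (ZMod p) k p).1 inferInstance
  have h1 : ∀ x : (Fin 2 → k) × (Fin 2 → k), p • x = 0 := by
    intro x
    ext i <;> simp [CharP.cast_eq_zero]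
  exact h1 w

/-- the subgroup `{(0, y) | y ∈ (I - 1) k² ∩ k v}` of `WI u`. -/
def Line2.W1 (u : FC.ICoc A s) (v : Fin 2 → k) : AddSubgroup (FC.WI u) where
  carrier := {w | w.fst = 0 ∧ w.snd ∈ aug2 A s ∧ ∃ a : k, w.snd = a • v}
  zero_mem' := ⟨rfl, AddSubgroup.zero_mem _, 0, by rw [zero_smul]; rfl⟩
  add_mem' := by
    rintro x y ⟨h1, h2, a, h3⟩ ⟨h1', h2', a', h3'⟩
    refine ⟨?_, ?_, a + a', ?_⟩
    · rw [FC.WI.fst_add, h1, h1', add_zero]
    · rw [FC.WI.snd_add]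
      exact AddSubgroup.add_mem _ h2 h2'
    · rw [FC.WI.snd_add, h3, h3', add_smul]
  neg_mem' := by
    rintro x ⟨h1, h2, a, h3⟩
    refine ⟨?_, ?_, -a, ?_⟩
    · show -x.fst = 0
      rw [h1, neg_zero]
    · show -x.snd ∈ aug2 A s
      exact AddSubgroup.neg_mem _ h2
    · show -x.snd = -a • v
      rw [h3, neg_smul]

/-- `(I - 1) k² ∩ k v = 0` if `I` fixes `v`. -/
theorem Line2.inter_eq_zero (h : Std A p ζ) (u : FC.ICoc A s) (hW : FlatLoc A (FC.WI u))
    {v : Fin 2 → k} (hfix : ∀ σ ∈ Iner A, (s σ).mulVec v = v) {a : k} (ha : a • v ∈ aug2 A s) :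
    a • v = 0 := by
  have hfixW : ∀ (σ : ↥(Iner A)), ∀ w ∈ Line2.W1 u v, σ • w = w := by
    rintro σ w ⟨h1, -, b, h3⟩
    apply FC.WI.ext
    · rw [FC.WI.fst_smul, h1, Matrix.mulVec_zero]
    · rw [FC.WI.snd_smul, h1, Matrix.mulVec_zero, add_zero, h3, Matrix.mulVec_smul, hfix _ σ.2]
  have hle := FlatLoc.le_of_trivial_subquotient (Fact.out : p.Prime) h.odd h.lies
    (Line2.nsmul_eq_zero u) hW (Line2.W1 u v) ⊥ bot_le
    (by
      rintro w ⟨h1, h2, -⟩
      have h4 : w = FC.WI.mk u 0 w.snd := FC.WI.ext h1 rfl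
      rw [h4]
      exact mk_zero_mem_aug u h2)
    (fun σ w hw => by rw [hfixW σ w hw]; exact hw)
    (fun σ w hw => by
      rw [AddSubgroup.mem_bot] at hw ⊢
      rw [hw, smul_zero])
    (fun σ w hw => by rw [hfixW σ w hw, sub_self]; exact AddSubgroup.zero_mem _)
  have h5 : FC.WI.mk u 0 (a • v) ∈ Line2.W1 u v := ⟨rfl, ha, a, rfl⟩
  have h6 := AddSubgroup.mem_bot.1 (hle h5)
  exact congrArg (fun w : FC.WI u => w.snd) h6

omit [Finite k] in
/-- two vectors of `k²` with nonzero determinant span `k²` (Cramer). -/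
theorem Line2.cramer {v v' : Fin 2 → k} (hd : v 0 * v' 1 - v 1 * v' 0 ≠ 0) (y : Fin 2 → k) :
    ∃ a b : k, y = a • v + b • v' := by
  refine ⟨(y 0 * v' 1 - y 1 * v' 0) / (v 0 * v' 1 - v 1 * v' 0),
    (v 0 * y 1 - v 1 * y 0) / (v 0 * v' 1 - v 1 * v' 0), ?_⟩
  funext i
  fin_cases i
  · show y 0 = _ * v 0 + _ * v' 0
    rw [div_mul_eq_mul_div, div_mul_eq_mul_div, ← add_div, eq_div_iff hd]
    ring
  · show y 1 = _ * v 1 + _ * v' 1
    rw [div_mul_eq_mul_div, div_mul_eq_mul_div, ← add_div, eq_div_iff hd]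
    ring

omit [Finite k] in
/-- determinant zero: proportional. -/
theorem Line2.prop_of_det {v v' : Fin 2 → k} (hv : v ≠ 0) (hd : v 0 * v' 1 - v 1 * v' 0 = 0) :
    ∃ a : k, v' = a • v := by
  by_cases h0 : v 0 = 0
  · have h1 : v 1 ≠ 0 := by
      intro h1
      apply hv
      funext i
      fin_cases i
      · exact h0
      · exact h1
    refine ⟨v' 1 / v 1, ?_⟩
    funext i
    fin_cases i
    · show v' 0 = v' 1 / v 1 * v 0
      rw [h0, mul_zero]
      rw [h0, zero_mul, zero_sub, neg_eq_zero] at hd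
      exact (mul_eq_zero.1 hd).resolve_left h1
    · show v' 1 = v' 1 / v 1 * v 1
      rw [div_mul_cancel₀ _ h1]
  · refine ⟨v' 0 / v 0, ?_⟩
    funext i
    fin_cases i
    · show v' 0 = v' 0 / v 0 * v 0
      rw [div_mul_cancel₀ _ h0]
    · show v' 1 = v' 0 / v 0 * v 1
      field_simp
      linear_combination hd

theorem exists_line (h : Std A p ζ) {φ : GQ} (hφ : A.IsFrobeniusAt φ p)
    (hdet : ∀ σ ∈ Iner A, (s σ).det = algebraMap (ZMod p) k (om p ζ σ))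
    (u : FC.ICoc A s) (hW : FlatLoc A (FC.WI u))
    (hred : ∃ v : Fin 2 → k, v ≠ 0 ∧ ∀ g ∈ Dec A, ∃ a : k, (s g).mulVec v = a • v) :
    ∃ v : Fin 2 → k, v ≠ 0 ∧ (∀ g ∈ Dec A, ∃ a : k, (s g).mulVec v = a • v) ∧
      (∀ σ ∈ Iner A, ∀ x : Fin 2 → k, ∃ a : k, (s σ).mulVec x - x = a • v) := by
  obtain ⟨v, hv, hst⟩ := hred
  rcases char_cases h hφ hdet u hW v hv hst with hfix | hline
  swap
  · exact ⟨v, hv, hst, hline⟩
  -- a nonzero element of `(I - 1) k²`
  obtain ⟨τ₀, hτ₀, hom⟩ := h.exists_om_ne_one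
  have hs1 : s τ₀ ≠ 1 := by
    intro h1
    have h2 := hdet τ₀ hτ₀
    rw [h1, Matrix.det_one, ← map_one (algebraMap (ZMod p) k)] at h2
    exact hom ((algebraMap (ZMod p) k).injective h2).symm
  have hex : ∃ y : Fin 2 → k, (s τ₀).mulVec y - y ≠ 0 := by
    by_contra hcon
    push Not at hcon
    apply hs1
    apply Matrix.mulVec_injective
    funext y
    rw [Matrix.one_mulVec]
    exact sub_eq_zero.1 (hcon y)
  obtain ⟨y₀, hy₀⟩ := hex
  set v' : Fin 2 → k := (s τ₀).mulVec y₀ - y₀ with hv'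
  have hv'mem : v' ∈ aug2 A s := AugApi.gen_mem2 hτ₀ y₀
  have hd : v 0 * v' 1 - v 1 * v' 0 ≠ 0 := by
    intro hd
    obtain ⟨a, ha⟩ := Line2.prop_of_det hv hd
    apply hy₀
    rw [ha]
    exact Line2.inter_eq_zero h u hW hfix (by rw [← ha]; exact hv'mem)
  have hspan : ∀ y ∈ aug2 A s, ∃ b : k, y = b • v' := by
    intro y hy
    obtain ⟨a, b, rfl⟩ := Line2.cramer hd y
    refine ⟨b, ?_⟩
    have h1 : a • v ∈ aug2 A s := by
      have h2 : a • v = (a • v + b • v') - b • v' := by abel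
      rw [h2]
      exact AddSubgroup.sub_mem _ hy (aug2_smul_mem b hv'mem)
    rw [Line2.inter_eq_zero h u hW hfix h1, zero_add]
  exact ⟨v', hy₀, fun g hg => hspan _ (aug2_dec_mem hg hv'mem),
    fun σ hσ x => hspan _ (AugApi.gen_mem2 hσ x)⟩

end Fermat.Agent.S56.Flat.Red
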