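/-
S56 / FLAT / RED (architect helper15; proof helper80): task RED-T3D, THE EXPORT OF THE BLOCK (version 2).
PROOF of `countGoalD_red` against the stubs `Red/WIP/{BridgeD,Line2,Conj,Core}.lean` (+ final `Red/ConjUT.lean`).
FINAL FORM: move this file to `Fermat/Agent/S56/Flat/Red/MainD.lean`, replacing the WIP imports by
`Red/{BridgeD,Line2,Conj,Core}`.
-/
import Fermat.Agent.S56.Flat.Red.BridgeD
import Fermat.Agent.S56.Flat.Red.Line2
import Fermat.Agent.S56.Flat.Red.ConjUT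
import Fermat.Agent.S56.Flat.Red.Conj
import Fermat.Agent.S56.Flat.Red.Core
import Fermat.Agent.Lib.Frobenius

set_option autoImplicit false

namespace Fermat.Agent.S56.Flat.Red

open Fermat.Agent.S55
open Fermat.Agent.S53 (M2)
open Fermat.Agent.S56.Flat.Irr (kb rs)
open Fermat.Agent.Lib.InertiaField (K0)

variable {k : Type} [Field k] [Finite k] {s : GQ →* M2 k} {p : ℕ} {A : ValuationSubring Qb}

/-! ## RED-T3 (version 2, 10:25): THE EXPORT OF THE BLOCK (= `FC.countGoalD_red` of Flat/FC/WIP/Cases.lean)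

`haveI : Fact p.Prime`, `letI := ZMod.algebra k p`.  If there is no flat cocycle: `T = PUnit`.  Otherwise let `c₀` be
one: RED-T2 (`fl_of`, `det_eq_om`, `exists_std`), `Lib.Frobenius.exists_isFrobeniusAt A p hp hA`
(Fermat/Agent/Lib/Frobenius.lean), RED-A3 `exists_line`, RED-C1 `exists_conj_UT` give `P` with `UT (conjHom P s)`.
RED-T1 `countCore` for `conjHom P s` (`FinLev.conj`) gives `(T, Φ')`;
`Φ c := Φ' ⟨fun g => P⁻¹ * c g * P, (dCoc_of c).conj P, (fl_of c hc).conj P⟩` (RED-C2).  `Φ c = Φ c'` ==>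
`P⁻¹ (c σ - c' σ) P = ∂m (σ)` for `conjHom P s` ==> (`cob_conj_back`, `trace_conj_back`) the claim with `P m P⁻¹`. -/

theorem countGoalD_red [CharP k p] (hp : p.Prime) (hp2 : p ≠ 2) (hA : A.LiesOverPrime p)
    (hs : ResHyp p s) (hred : FC.HasLineA A s) : FC.CountGoalD A s := by
  classical
  letI : Algebra (ZMod p) k := ZMod.algebra k p
  haveI : Fact p.Prime := ⟨hp⟩
  by_cases hex : ∃ c₀ : FC.DCoc A s, c₀.IsFlat
  swap
  · refine ⟨PUnit, inferInstance, fun _ => PUnit.unit, ?_, fun c => absurd ⟨c.1, c.2⟩ hex⟩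
    rw [Nat.card_unique]
    exact Nat.card_pos
  obtain ⟨c₀, hc₀⟩ := hex
  obtain ⟨ζ, hstd⟩ := exists_std (A := A) hp hp2 hA
  obtain ⟨φ, hφ⟩ := Fermat.Agent.Lib.Frobenius.exists_isFrobeniusAt A p hp hA
  have hdet : ∀ σ ∈ Iner A, (s σ).det = algebraMap (ZMod p) k (om p ζ σ) :=
    fun σ _ => det_eq_om hstd.prim hs σ
  obtain ⟨u, -, hW⟩ := fl_of c₀ hc₀
  obtain ⟨v, hv, hst, hunr⟩ := exists_line hstd hφ hdet u hW hred
  obtain ⟨P, hUT⟩ := exists_conj_UT hdet v hv hst hunr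
  obtain ⟨T, hT, Φ', hcard, hΦ'⟩ := countCore hstd hφ hUT ((finLev_of_resHyp hs).conj P)
  refine ⟨T, hT, fun c => Φ' ⟨fun g => (↑P⁻¹ : M2 k) * c.1 g * (P : M2 k),
    (dCoc_of c.1).conj P, (fl_of c.1 c.2).conj P⟩, hcard, ?_⟩
  intro c c' hcc
  obtain ⟨m, hm, hrel⟩ := hΦ' _ _ hcc
  refine ⟨(P : M2 k) * m * (↑P⁻¹ : M2 k), by rw [trace_conj_back, hm], fun σ hσ => ?_⟩
  have h1 := hrel σ hσ
  apply cob_conj_back P
  rw [mul_sub, sub_mul]
  exact h1

end Fermat.Agent.S56.Flat.Red
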