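/-
S56 / FLAT / RED (architect helper15), task RED-C1 (proof helper131).

Conjugation to the upper triangular form.
`P` = the matrix with columns `v, v'` (`v'` one of `e₀, e₁`, independent of `v`).  `P e₀ = v`, so
`(P⁻¹ s g P) e₀ = a e₀`; `(P⁻¹ s σ P) e₁ = P⁻¹ (v' + a v) = e₁ + a e₀`; `det (P⁻¹ s σ P) = det s σ`.
-/
import Fermat.Agent.S56.Flat.Red.Defs

set_option autoImplicit false

namespace Fermat.Agent.S56.Flat.Red

open Fermat.Agent.S55
open Fermat.Agent.S53 (M2)
open Fermat.Agent.S56.Flat.Irr (kb rs)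
open Fermat.Agent.Lib.InertiaField (K0)

section ConjUTAux

variable {k : Type} [Field k]

/-- the columns of a product. -/
private theorem ConjUT_col (X Y : M2 k) (j : Fin 2) :
    (fun i => (X * Y) i j) = X.mulVec (fun i => Y i j) := by
  funext i
  simp [Matrix.mul_apply, Matrix.mulVec, dotProduct]

private theorem ConjUT_mulVec (P : M2 k) (a b : k) :
    P.mulVec ![a, b] = a • (fun i => P i 0) + b • (fun i => P i 1) := by
  funext i
  simp [Matrix.mulVec, dotProduct, Fin.sum_univ_two]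
  ring

/-- the `j`-th column of `P⁻¹ X P` from the coordinates of `X (P e_j)` in the columns of `P`. -/
private theorem ConjUT_entries (P : (M2 k)ˣ) (X : M2 k) (j : Fin 2) (a b : k)
    (h : X.mulVec (fun i => (P : M2 k) i j) =
      a • (fun i => (P : M2 k) i 0) + b • (fun i => (P : M2 k) i 1)) :
    ((↑P⁻¹ : M2 k) * X * (P : M2 k)) 0 j = a ∧ ((↑P⁻¹ : M2 k) * X * (P : M2 k)) 1 j = b := by
  have h1 : (fun i => ((↑P⁻¹ : M2 k) * X * (P : M2 k)) i j) = ![a, b] := by
    rw [mul_assoc, ConjUT_col, ConjUT_col, h, ← ConjUT_mulVec, Matrix.mulVec_mulVec, Units.inv_mul,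
      Matrix.one_mulVec]
  exact ⟨congrFun h1 0, congrFun h1 1⟩

/-- an invertible matrix with first column `v`. -/
private theorem ConjUT_exists (v : Fin 2 → k) (hv : v ≠ 0) :
    ∃ P : (M2 k)ˣ, (fun i => (P : M2 k) i 0) = v := by
  by_cases h0 : v 0 = 0
  · have h1 : v 1 ≠ 0 := by
      intro h1
      apply hv
      funext i
      fin_cases i
      · exact h0
      · exact h1
    refine ⟨Matrix.GeneralLinearGroup.mkOfDetNeZero !![v 0, 1; v 1, 0] ?_, ?_⟩
    · rw [Matrix.det_fin_two_of]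
      simpa using h1
    · funext i
      fin_cases i <;> rfl
  · refine ⟨Matrix.GeneralLinearGroup.mkOfDetNeZero !![v 0, 0; v 1, 1] ?_, ?_⟩
    · rw [Matrix.det_fin_two_of]
      simpa using h0
    · funext i
      fin_cases i <;> rfl

end ConjUTAux

variable {A : ValuationSubring Qb} {p : ℕ} [Fact p.Prime] {ζ : Qb}
variable {k : Type} [Field k] [Algebra (ZMod p) k] {s : GQ →* M2 k}

/-! ## RED-C1: conjugation to the upper triangular form -/

theorem exists_conj_UT
    (hdet : ∀ σ ∈ Iner A, (s σ).det = algebraMap (ZMod p) k (om p ζ σ))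
    (v : Fin 2 → k) (hv : v ≠ 0) (hst : ∀ g ∈ Dec A, ∃ a : k, (s g).mulVec v = a • v)
    (hunr : ∀ σ ∈ Iner A, ∀ x : Fin 2 → k, ∃ a : k, (s σ).mulVec x - x = a • v) :
    ∃ P : (M2 k)ˣ, UT A p ζ (conjHom P s) := by
  obtain ⟨P, hP⟩ := ConjUT_exists v hv
  have happ : ∀ g, conjHom P s g = (↑P⁻¹ : M2 k) * s g * (P : M2 k) := fun _ => rfl
  -- the second column on inertia
  have hcol1 : ∀ σ ∈ Iner A, conjHom P s σ 1 1 = 1 := by
    intro σ hσ
    obtain ⟨b, hb⟩ := hunr σ hσ (fun i => (P : M2 k) i 1)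
    rw [happ]
    refine (ConjUT_entries P (s σ) 1 b 1 ?_).2
    rw [hP, one_smul, ← hb, sub_add_cancel]
  -- the first column on inertia
  have hcol0 : ∀ σ ∈ Iner A, conjHom P s σ 1 0 = 0 := by
    intro σ hσ
    obtain ⟨a, ha⟩ := hunr σ hσ v
    rw [happ]
    refine (ConjUT_entries P (s σ) 0 (1 + a) 0 ?_).2
    rw [hP, zero_smul, add_zero, add_smul, one_smul, ← ha, add_sub_cancel]
  refine ⟨P, ⟨?_, hcol1, ?_⟩⟩
  · intro g hg
    obtain ⟨a, ha⟩ := hst g hg
    rw [happ]
    refine (ConjUT_entries P (s g) 0 a 0 ?_).2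
    rw [hP, zero_smul, add_zero, ha]
  · intro σ hσ
    have hd : (conjHom P s σ).det = (s σ).det := by
      rw [happ]
      exact Matrix.det_units_conj' P (s σ)
    rw [Matrix.det_fin_two, hcol1 σ hσ, hcol0 σ hσ, mul_one, mul_zero, sub_zero, hdet σ hσ] at hd
    exact hd

end Fermat.Agent.S56.Flat.Red
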